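import Fermat.Agent.S40x.AS.ASPoly

/-!
# P-S44, leaf C3-AS / C3-ET seam (helper58): integrality of the Artin–Schreier generator `θ`

Mathlib only (on top of `AS/ASPoly`).  The last piece of the AS → ET seam: C3-ET consumes only
"`θ = (z hoo - 1) / π` is integral over the node ring `R_s`".

* `isIntegral_of_one_add_pow_base` : `(1 + π θ) ^ p = 1 + π ^ p G` with `π, e, G` in the base ring
  `W` (`p = e π ^ (p-1)`, `π ^ p` regular on `B`) implies `IsIntegral W θ`;
* `isIntegral_of_integral_coeffs` : **transitive form.**  `R₀ → B` any ring map, `π e G θ : B` with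
  `π, e, G` INTEGRAL over `R₀`, `p = e π ^ (p-1)`, `π ^ p` regular, `(1 + π θ) ^ p = 1 + π ^ p G`
  imply `IsIntegral R₀ θ`.
  (Application: `B = FL` the Kummer cover field, `R₀ = fixedAlg (inertiaAct P N) (BxAlg C)` or the
  node ring `R_s`, `π = ζ - 1` and `e = p / π ^ (p-1)` integral over `ℤ`, `G` integral over `R₀` by
  the orbit polynomial (`AS/IntegralSeam`, `R2/AS/SeamIntegral`).)
* `isIntegral_sub_one_of_pow_eq_one`, `exists_integral_eq_mul_pow` : `ζ - 1` and some `e` with
  `p = e (ζ - 1) ^ (p-1)` are integral over any base ring;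
* `isIntegral_theta_of_isPrimitiveRoot` : **the seam statement.**  `B` a domain, `ζ` a primitive
  `p`-th root of unity in `B`, `G` integral over `R₀`, `(1 + (ζ-1) θ) ^ p = 1 + (ζ-1) ^ p G`
  imply `IsIntegral R₀ θ`.
-/

set_option autoImplicit false

namespace Fermat.Agent.S40x.AS.ASIntegral

open Polynomial Fermat.Agent.S40x.AS.ASPoly

section Base

variable {W : Type*} [CommRing W] {B : Type*} [CommRing B] [Algebra W B]

/-- `(1 + π θ) ^ p = 1 + π ^ p G`, everything but `θ` in the base ring: `θ` is integral. -/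
theorem isIntegral_of_one_add_pow_base {π e G : W} {p : ℕ} (hp : p.Prime)
    (he : (p : W) = e * π ^ (p - 1))
    (hreg : ∀ x : B, algebraMap W B (π ^ p) * x = 0 → x = 0) {θ : B}
    (h : (1 + algebraMap W B π * θ) ^ p = 1 + algebraMap W B π ^ p * algebraMap W B G) :
    IsIntegral W θ := by
  refine ⟨asPoly π e p - C G, ?_, ?_⟩
  · have h1 := monic_map_sub_C (RingHom.id W) π e hp.pos G
    rwa [Polynomial.map_id] at h1
  · rw [eval₂_sub, eval₂_C, ← aeval_def, aeval_asPoly_eq hp he hreg h, sub_self]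

end Base

section Trans

variable {R₀ : Type*} [CommRing R₀] {B : Type*} [CommRing B] [Algebra R₀ B]

/-- **transitive form**: `π, e, G` integral over `R₀` suffice. -/
theorem isIntegral_of_integral_coeffs {π e G θ : B} {p : ℕ} (hp : p.Prime)
    (hπ : IsIntegral R₀ π) (heint : IsIntegral R₀ e) (hG : IsIntegral R₀ G)
    (he : (p : B) = e * π ^ (p - 1)) (hreg : ∀ x : B, π ^ p * x = 0 → x = 0)
    (h : (1 + π * θ) ^ p = 1 + π ^ p * G) : IsIntegral R₀ θ := by
  classical
  -- the subalgebra generated by the three coefficients is integral over `R₀`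
  set T : Subalgebra R₀ B := Algebra.adjoin R₀ ({π, e, G} : Set B) with hT
  have hTint : Algebra.IsIntegral R₀ T := by
    refine Algebra.IsIntegral.adjoin ?_
    intro x hx
    rcases hx with rfl | rfl | rfl
    · exact hπ
    · exact heint
    · exact hG
  have hπT : π ∈ T := Algebra.subset_adjoin (by simp)
  have heT : e ∈ T := Algebra.subset_adjoin (by simp)
  have hGT : G ∈ T := Algebra.subset_adjoin (by simp)
  have h1 : IsIntegral T θ := by
    refine isIntegral_of_one_add_pow_base (W := T) (π := ⟨π, hπT⟩) (e := ⟨e, heT⟩)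
      (G := ⟨G, hGT⟩) hp ?_ ?_ ?_
    · apply Subtype.ext
      push_cast
      exact he
    · intro x hx
      exact hreg x hx
    · exact h
  exact isIntegral_trans θ h1

end Trans

section Root

variable {R₀ : Type*} [CommRing R₀] {B : Type*} [CommRing B] [Algebra R₀ B]

/-- `ζ - 1` is integral over any base ring. -/
theorem isIntegral_sub_one_of_pow_eq_one {ζ : B} {n : ℕ} (hn : 0 < n) (hζ : ζ ^ n = 1) :
    IsIntegral R₀ (ζ - 1) :=
  (IsIntegral.of_pow hn (hζ ▸ isIntegral_one)).sub isIntegral_one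

/-- some `e` with `p = e (ζ - 1) ^ (p-1)` is integral over any base ring. -/
theorem exists_integral_eq_mul_pow [IsDomain B] {ζ : B} {p : ℕ} (hp : p.Prime)
    (hζ : IsPrimitiveRoot ζ p) :
    ∃ e : B, IsIntegral R₀ e ∧ (p : B) = e * (ζ - 1) ^ (p - 1) := by
  obtain ⟨z, hz, h⟩ := hζ.self_sub_one_pow_dvd_order (Nat.sub_lt hp.pos one_pos)
  refine ⟨z, ?_, h⟩
  have hζint : IsIntegral ℤ ζ := hζ.isIntegral hp.pos
  have h1 : Algebra.IsIntegral ℤ (Algebra.adjoin ℤ ({ζ} : Set B)) := by
    refine Algebra.IsIntegral.adjoin ?_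
    intro x hx
    rw [Set.mem_singleton_iff] at hx
    exact hx ▸ hζint
  have h2 : IsIntegral ℤ (⟨z, hz⟩ : Algebra.adjoin ℤ ({ζ} : Set B)) := h1.isIntegral _
  have h3 : IsIntegral ℤ z := h2.map (Algebra.adjoin ℤ ({ζ} : Set B)).val
  exact h3.tower_top

/-- **the AS → ET seam statement.** -/
theorem isIntegral_theta_of_isPrimitiveRoot [IsDomain B] {ζ G θ : B} {p : ℕ} (hp : p.Prime)
    (hζ : IsPrimitiveRoot ζ p) (hG : IsIntegral R₀ G)
    (h : (1 + (ζ - 1) * θ) ^ p = 1 + (ζ - 1) ^ p * G) : IsIntegral R₀ θ := by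
  obtain ⟨e, heint, he⟩ := exists_integral_eq_mul_pow (R₀ := R₀) hp hζ
  have hπ0 : ζ - 1 ≠ 0 := sub_ne_zero.2 (hζ.ne_one hp.one_lt)
  refine isIntegral_of_integral_coeffs hp
    (isIntegral_sub_one_of_pow_eq_one hp.pos hζ.pow_eq_one) heint hG he ?_ h
  intro x hx
  exact (mul_eq_zero.1 hx).resolve_left (pow_ne_zero _ hπ0)

end Root

end Fermat.Agent.S40x.AS.ASIntegral
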