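import Mathlib

/-!
# P-S44, leaf C3-AS / C3-ET seam (helper58): the Artin–Schreier type polynomial

Mathlib only.  `W` a commutative ring, `π e : W`, `p` a prime with `p = e π ^ (p-1)` in `W`
(in the application `W = O₁`, `π = ζ_p - 1`, `e ≡ -1 mod π`).

* `asPoly π e p = X ^ p + ∑_{0<j<p} e (C(p,j)/p) π ^ (j-1) X ^ j` : monic of degree `p`
  (`asPoly_monic`, `asPoly_natDegree`), congruent to `X ^ p + e X` modulo `π` (`asPoly_eq_mod`);
* `one_add_mul_X_pow` : `(1 + π X) ^ p = 1 + π ^ p asPoly(X)` in `W[X]`;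
* `aeval_asPoly_eq` : in a `W`-algebra `B` on which `π ^ p` is regular,
  `(1 + π θ) ^ p = 1 + π ^ p G` implies `asPoly(θ) = G`;
* `isIntegral_of_one_add_pow` : hence `θ` is integral over every `W`-subalgebra `T ∋ G`
  (the monic equation is `asPoly - G`; this is what C3-ET consumes from C3-AS: `θ = (z hoo - 1)/π`,
  `z ^ p = f₀`, `f₀ hoo ^ p = 1 + π ^ p G`, `G` in the fixed chart ring).
-/

set_option autoImplicit false

namespace Fermat.Agent.S40x.AS.ASPoly

open Polynomial

variable {W : Type*} [CommRing W]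

/-- the Artin–Schreier type polynomial `X ^ p + ∑_{0<j<p} e (C(p,j)/p) π ^ (j-1) X ^ j`. -/
noncomputable def asPoly (π e : W) (p : ℕ) : W[X] :=
  X ^ p + ∑ j ∈ Finset.Ico 1 p, C (e * ((p.choose j / p : ℕ) : W) * π ^ (j - 1)) * X ^ j

theorem degree_asPoly_tail_lt (π e : W) (p : ℕ) :
    (∑ j ∈ Finset.Ico 1 p, C (e * ((p.choose j / p : ℕ) : W) * π ^ (j - 1)) * X ^ j).degree
      < (p : WithBot ℕ) := by
  refine lt_of_le_of_lt (degree_sum_le _ _) ?_
  refine (Finset.sup_lt_iff (WithBot.bot_lt_coe p)).2 ?_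
  intro j hj
  rw [Finset.mem_Ico] at hj
  refine lt_of_le_of_lt (degree_C_mul_X_pow_le j _) ?_
  exact WithBot.coe_lt_coe.2 hj.2

theorem asPoly_monic (π e : W) (p : ℕ) : (asPoly π e p).Monic :=
  monic_X_pow_add (degree_asPoly_tail_lt π e p)

theorem asPoly_natDegree [Nontrivial W] (π e : W) (p : ℕ) :
    (asPoly π e p).natDegree = p := by
  have h : (∑ j ∈ Finset.Ico 1 p, C (e * ((p.choose j / p : ℕ) : W) * π ^ (j - 1)) * X ^ j).degree
      < (X ^ p : W[X]).degree := by
    rw [degree_X_pow]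
    exact degree_asPoly_tail_lt π e p
  rw [asPoly, natDegree_add_eq_left_of_degree_lt h, natDegree_X_pow]

/-- `(1 + π X) ^ p = 1 + π ^ p asPoly(X)`. -/
theorem one_add_mul_X_pow {π e : W} {p : ℕ} (hp : p.Prime) (he : (p : W) = e * π ^ (p - 1)) :
    (1 + C π * X) ^ p = 1 + C (π ^ p) * asPoly π e p := by
  have hp1 : 1 ≤ p := hp.one_le
  rw [add_comm (1 : W[X]), add_pow, Finset.range_eq_Ico,
    Finset.sum_eq_sum_Ico_succ_bot (Nat.succ_pos p), Finset.sum_Ico_succ_top hp1]
  simp only [pow_zero, Nat.sub_zero, one_pow, mul_one, Nat.choose_zero_right, Nat.cast_one,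
    Nat.sub_self, Nat.choose_self]
  rw [asPoly, mul_add, Finset.mul_sum]
  congr 1
  rw [add_comm]
  congr 1
  · rw [mul_pow, ← C_pow]
  · refine Finset.sum_congr rfl fun j hj => ?_
    rw [Finset.mem_Ico] at hj
    have hdvd : p ∣ p.choose j := hp.dvd_choose_self (by omega) hj.2
    have hch : (p.choose j : W[X]) = C ((p : W) * ((p.choose j / p : ℕ) : W)) := by
      rw [← Nat.cast_mul, Nat.mul_div_cancel' hdvd]
      simp
    have hj' : j + (p - 1) = p + (j - 1) := by omega
    rw [hch, he, mul_pow, ← C_pow]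
    have : π ^ j * (e * π ^ (p - 1) * ((p.choose j / p : ℕ) : W))
        = π ^ p * (e * ((p.choose j / p : ℕ) : W) * π ^ (j - 1)) := by
      calc π ^ j * (e * π ^ (p - 1) * ((p.choose j / p : ℕ) : W))
          = π ^ (j + (p - 1)) * (e * ((p.choose j / p : ℕ) : W)) := by rw [pow_add]; ring
        _ = π ^ p * (e * ((p.choose j / p : ℕ) : W) * π ^ (j - 1)) := by
            rw [hj', pow_add]; ring
    calc C (π ^ j) * X ^ j * C (e * π ^ (p - 1) * ((p.choose j / p : ℕ) : W))
        = C (π ^ j * (e * π ^ (p - 1) * ((p.choose j / p : ℕ) : W))) * X ^ j := by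
          rw [C_mul (a := π ^ j)]; ring
      _ = C (π ^ p) * (C (e * ((p.choose j / p : ℕ) : W) * π ^ (j - 1)) * X ^ j) := by
          rw [this, C_mul (a := π ^ p)]; ring

/-- `asPoly ≡ X ^ p + e X` modulo `π`. -/
theorem asPoly_eq_mod (π e : W) {p : ℕ} (hp : p.Prime) :
    ∃ Q' : W[X], asPoly π e p = X ^ p + C e * X + C π * Q' := by
  refine ⟨∑ j ∈ Finset.Ico 2 p, C (e * ((p.choose j / p : ℕ) : W) * π ^ (j - 2)) * X ^ j, ?_⟩
  rw [asPoly, Finset.sum_eq_sum_Ico_succ_bot hp.one_lt, Finset.mul_sum, add_assoc]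
  congr 2
  · rw [Nat.choose_one_right, Nat.div_self hp.pos, Nat.cast_one, mul_one, Nat.sub_self, pow_zero,
      mul_one, pow_one]
  · refine Finset.sum_congr rfl fun j hj => ?_
    rw [Finset.mem_Ico] at hj
    have hj' : j - 1 = (j - 2) + 1 := by omega
    rw [hj', pow_succ, ← mul_assoc, ← mul_assoc, C_mul (b := π)]
    ring

section Algebra

variable {B : Type*} [CommRing B] [Algebra W B]

/-- `(1 + π θ) ^ p = 1 + π ^ p G` implies `asPoly(θ) = G` when `π ^ p` is regular on `B`. -/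
theorem aeval_asPoly_eq {π e : W} {p : ℕ} (hp : p.Prime) (he : (p : W) = e * π ^ (p - 1))
    (hreg : ∀ x : B, algebraMap W B (π ^ p) * x = 0 → x = 0) {θ G : B}
    (h : (1 + algebraMap W B π * θ) ^ p = 1 + algebraMap W B π ^ p * G) :
    aeval θ (asPoly π e p) = G := by
  have h1 := congrArg (aeval θ) (one_add_mul_X_pow hp he)
  simp only [map_pow, map_add, map_one, map_mul, aeval_C, aeval_X] at h1
  rw [h] at h1
  have h2 : algebraMap W B (π ^ p) * (aeval θ (asPoly π e p) - G) = 0 := by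
    rw [map_pow, mul_sub, sub_eq_zero]
    exact (add_left_cancel h1).symm
  exact sub_eq_zero.1 (hreg _ h2)

/-- the monic polynomial `asPoly - c` over any ring under `W`. -/
theorem monic_map_sub_C {T : Type*} [CommRing T] (f : W →+* T) (π e : W) {p : ℕ} (hp : 0 < p)
    (c : T) : ((asPoly π e p).map f - C c).Monic := by
  have h : (asPoly π e p).map f - C c
      = X ^ p + ((∑ j ∈ Finset.Ico 1 p,
          C (e * ((p.choose j / p : ℕ) : W) * π ^ (j - 1)) * X ^ j).map f - C c) := by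
    rw [asPoly, Polynomial.map_add, Polynomial.map_pow, map_X]
    ring
  rw [h]
  apply monic_X_pow_add
  refine lt_of_le_of_lt (degree_sub_le _ _) (max_lt ?_ ?_)
  · exact lt_of_le_of_lt degree_map_le (degree_asPoly_tail_lt π e p)
  · exact lt_of_le_of_lt degree_C_le (WithBot.coe_lt_coe.2 hp)

/-- **integrality of `θ = (y - 1) / π`, `y ^ p = 1 + π ^ p G`** over any `W`-subalgebra
containing `G`. -/
theorem isIntegral_of_one_add_pow {π e : W} {p : ℕ} (hp : p.Prime)
    (he : (p : W) = e * π ^ (p - 1))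
    (hreg : ∀ x : B, algebraMap W B (π ^ p) * x = 0 → x = 0) (T : Subalgebra W B) {θ G : B}
    (hG : G ∈ T) (h : (1 + algebraMap W B π * θ) ^ p = 1 + algebraMap W B π ^ p * G) :
    IsIntegral T θ := by
  refine ⟨(asPoly π e p).map (algebraMap W T) - C ⟨G, hG⟩,
    monic_map_sub_C (algebraMap W T) π e hp.pos _, ?_⟩
  rw [eval₂_sub, eval₂_C, eval₂_map, ← IsScalarTower.algebraMap_eq W T B]
  have h1 := aeval_asPoly_eq hp he hreg h
  rw [aeval_def] at h1
  rw [h1]
  exact sub_self G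

end Algebra

end Fermat.Agent.S40x.AS.ASPoly
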