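import Fermat.Agent.S40x.AS.CalcRing
import Fermat.Agent.S33x.W.InstW
import Fermat.Agent.S33x.Cech.CycKm
import Fermat.Agent.S33x.Cech.ChangeDatumB

/-!
# P-S44, leaf C3-AS (CALC part, DATUM level, independent second; helper58)

Instantiation of `AS/CalcRing.as_calc_ring` for a RATIONAL (`Γ`-fixed) normalised Kummer pair
`(w, D)` of exponent `p` (`CycKm.IsData R p ξ w D`, `div w = p D`) and a rational Cech datum
`d : Datum.CechDatum R Dt D` (only `d.hoo` and `d.h0'` are used and have to be fixed), over the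
base `W = A^Γ = FixedDecomp.fixedSubring Γ` with its fixed uniformiser `ϖ` (in the application
`Γ = G1Act P ζ (M q)`, `ϖ = ζ - 1`, `hD` = `S40x/W/G1.fixData2_G1`), and the three fixed chart
rings `W.InstW.fixedAlg Γ (BxAlg C / BooAlg C / BzeroAlg C)`; `HW` is the third component of
`W.InstWCtx.exists_export`.

* `pow_mem_LamD`, `kummer_mul_pow_mem`, `kummer_inv_mul_pow_mem` : `w hoo ^ p ∈ Lam(0, p b)` and
  `w⁻¹ h0' ^ p ∈ Lam(p a, 0)` (the divisor `p D` of `w` cancels);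
* `exists_eq_one_add_unif` : a FIXED element of `Lam(a, b)` with reduction `1` is `1 + ϖ z` with `z`
  a FIXED element of `Lam(a, b)` (this is where rationality is used: ONE uniformiser);
* `as_calc_datum` : **(AS), CALC part, datum level.**  There are a fixed constant `υ ∈ 1 + ϖ A` and
  fixed chart functions `Goo ∈ B∞`, `G0 ∈ B₀` with
  `w hoo ^ p = υ + ϖ ^ p Goo`  and  `υ (w⁻¹ h0' ^ p) = 1 + ϖ ^ p G0`.
  So `f₀ := υ⁻¹ w hoo ^ p` is a `Γ`-fixed Kummer function of the class of `D` lying in the fixed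
  chart ring `B∞` with `f₀ - 1 ∈ ϖ ^ p B∞`, and `f₀⁻¹ h^p = 1 + ϖ ^ p G0` on the other chart
  (`h = hoo h0'` the cocycle): the literal (AS*) of the red-team notes 2627/2633, both chart forms.
* `exists_monic_eq` : the monic Artin–Schreier type equation `θ ^ p + ∑_{0<j<p} cⱼ θ ^ j = G` for
  `θ = (y - 1) / ϖ`, `y ^ p = 1 + ϖ ^ p G` (integrality of `θ` over `W[G]`, consumed by C3-ET).
-/

set_option autoImplicit false
set_option linter.unusedSectionVars false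
set_option linter.style.haveILetI false

noncomputable section

namespace Fermat.Agent.S40x.AS.CalcDatum

open AlgebraicCurve Module IntermediateField IsLocalRing
open Fermat.Agent.Gateway.C0 Fermat.Agent.S34x Fermat.Agent.S34x.C0two Fermat.Agent.S34x.Lattice2
open Fermat.Agent.S19x.Geo.LatticeFixed
open Fermat.Agent.S33x.H1.LatticeFixed2 Fermat.Agent.S33x.H1.FixedDecomp
open Fermat.Agent.S33x.H1.InstC1 Fermat.Agent.S33x.H1.InstC4
open Fermat.Agent.S33x.Cech Fermat.Agent.S33x.Cech.OfDirectSum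
open Fermat.Agent.S33x.Cech.Datum Fermat.Agent.S33x.Cech.CycKm Fermat.Agent.S33x.KummerPn
open Fermat.Agent.S33x.W.InstW

variable {K : Type*} [Field K] {A : ValuationSubring K} {F : Type*} [Field F] [Algebra K F]
  {S : SmallRing F} {k κ : Type*} [Field k] [CommRing κ] [Algebra k κ]

/-! ### powers and the Kummer function in the twisted lattices -/

section Lattice

variable {R : RedSetup2 A S k κ} {Dt : Divisor K F}

theorem pow_mem_LamD {D : Divisor K F} {a b : ℕ} {x : F} (hx : x ∈ LamD R Dt D a b) (n : ℕ) :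
    x ^ n ∈ LamD R Dt (n • D) (n * a) (n * b) := by
  induction n with
  | zero =>
    rw [pow_zero, zero_smul, Nat.zero_mul, Nat.zero_mul]
    exact one_mem_LamD_zero
  | succ n ih =>
    have h := LamD_mul ih hx
    rw [pow_succ, succ_nsmul, Nat.succ_mul, Nat.succ_mul]
    exact h

/-- `w hoo ^ p ∈ Lam(0; 0, p b)`. -/
theorem kummer_mul_pow_mem {p : ℕ} {ξ : Pic0 K F} {w : F} {D : Divisor K F}
    (hw : IsData R p ξ w D) {b : ℕ} {hoo : F} (hhoo : hoo ∈ LamD R Dt D 0 b) :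
    w * hoo ^ p ∈ LamD R Dt 0 0 (p * b) := by
  have h1 := pow_mem_LamD hhoo p
  rw [Nat.mul_zero] at h1
  refine ⟨?_, S.O.mul_mem hw.mem_O h1.2⟩
  have hDD' : ∀ v : Place K F, (p • D) v = (0 : Divisor K F) v + v.ord w := by
    intro v
    rw [Finsupp.smul_apply, Finsupp.zero_apply, zero_add, ← hw.ord v, nsmul_eq_mul]
  have h2 := mul_mem_rrs (ChangeDatumB.mem_rrs_sub_of_ord hw.ne_zero hDD') h1.1
  have h3 : (0 : Divisor K F) - p • D + (p • D + (TwoCharts.ofDivisor Dt).dv 0 (p * b))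
      = 0 + (TwoCharts.ofDivisor Dt).dv 0 (p * b) := by abel
  rw [h3] at h2
  exact h2

/-- `w⁻¹ h0' ^ p ∈ Lam(0; p a, 0)`. -/
theorem kummer_inv_mul_pow_mem {p : ℕ} {ξ : Pic0 K F} {w : F} {D : Divisor K F}
    (hw : IsData R p ξ w D) {a : ℕ} {h0' : F} (hh0' : h0' ∈ LamD R Dt (-D) a 0) :
    w⁻¹ * h0' ^ p ∈ LamD R Dt 0 (p * a) 0 := by
  have h1 := pow_mem_LamD hh0' p
  rw [Nat.mul_zero] at h1
  refine ⟨?_, S.O.mul_mem hw.inv_mem_O h1.2⟩
  have hDD' : ∀ v : Place K F, (p • D) v = (0 : Divisor K F) v + v.ord w := by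
    intro v
    rw [Finsupp.smul_apply, Finsupp.zero_apply, zero_add, ← hw.ord v, nsmul_eq_mul]
  have h2 := mul_mem_rrs (ChangeDatumB.inv_mem_rrs_sub_of_ord hw.ne_zero hDD') h1.1
  have h3 : p • D - (0 : Divisor K F) + (p • -D + (TwoCharts.ofDivisor Dt).dv (p * a) 0)
      = 0 + (TwoCharts.ofDivisor Dt).dv (p * a) 0 := by
    rw [smul_neg]; abel
  rw [h3] at h2
  exact h2

theorem resOne_kummer {p : ℕ} {ξ : Pic0 K F} {w : F} {D : Divisor K F}
    (hw : IsData R p ξ w D) : ResOne R w := ⟨hw.mem_O, hw.res_eq⟩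

theorem resOne_kummer_inv {p : ℕ} {ξ : Pic0 K F} {w : F} {D : Divisor K F}
    (hw : IsData R p ξ w D) : ResOne R w⁻¹ :=
  ⟨hw.inv_mem_O, ChangeDatumB.res_inv_eq_one R hw.ne_zero hw.mem_O hw.inv_mem_O hw.res_eq⟩

end Lattice

/-! ### fixed elements -/

section Fixed

variable {Γ : Set (SemilinearAut K F)}

theorem isFixed_one : IsFixed Γ (1 : F) := fun s _ => smul_one s

theorem isFixed_mul {x y : F} (hx : IsFixed Γ x) (hy : IsFixed Γ y) : IsFixed Γ (x * y) :=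
  fun s hs => by rw [smul_mul', hx s hs, hy s hs]

theorem isFixed_pow {x : F} (hx : IsFixed Γ x) (n : ℕ) : IsFixed Γ (x ^ n) :=
  fun s hs => by rw [smul_pow', hx s hs]

theorem isFixed_inv {x : F} (hx : IsFixed Γ x) : IsFixed Γ x⁻¹ :=
  fun s hs => by rw [smul_inv'', hx s hs]

theorem isFixed_algebraMap {c : K} (hc : IsFixedK Γ c) : IsFixed Γ (algebraMap K F c) :=
  fun s hs => by rw [SemilinearAut.smul_algebraMap, hc s hs]

end Fixed

/-! ### reduction `1` + rationality = `1 + ϖ z` -/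

section Unif

variable {R : RedSetup2 A S k κ} (C : ChartCoord R) {Γ : Set (SemilinearAut K F)}

/-- a FIXED element of `Lam(a, b)` with reduction `1` is `1 + ϖ z`, `z` FIXED in `Lam(a, b)`. -/
theorem exists_eq_one_add_unif (hD : FixData2 R Γ) {ϖ : A} (hϖfix : IsFixedK Γ (ϖ : K))
    (hϖ0 : ϖ ≠ 0) (hϖ : ∀ c : A, IsFixedK Γ (c : K) → c ∈ maximalIdeal A → ϖ ∣ c)
    {a b : ℕ} {x : F} (hx : x ∈ Lam C a b) (hxfix : IsFixed Γ x) (hx1 : ResOne R x) :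
    ∃ z ∈ Lam C a b, IsFixed Γ z ∧ x = 1 + algebraMap K F (ϖ : K) * z := by
  have h1V : (1 : F) ∈ C.LN a b := C.LN_mono (Nat.zero_le a) (Nat.zero_le b) C.one_mem_LN
  have hfV : x - 1 ∈ C.LN a b := (C.LN a b).sub_mem hx.1 h1V
  have hfO : x - 1 ∈ S.O := S.O.sub_mem hx.2 S.O.one_mem
  have hffix : IsFixed Γ (x - 1) := hxfix.sub isFixed_one
  have hres : R.res ⟨x - 1, hfO⟩ = 0 := by
    have e : (⟨x - 1, hfO⟩ : S.O) = ⟨x, hx.2⟩ - 1 := rfl
    rw [e, map_sub, map_one, hx1.res_eq hx.2, sub_self]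
  obtain ⟨g, hgV, hgO, hgfix, hg⟩ :=
    hD.exists_eq_unif_smul_mem hϖfix hϖ0 hϖ (C.LN a b) hfV hfO hffix hres
  refine ⟨g, ⟨hgV, hgO⟩, hgfix, ?_⟩
  rw [← Algebra.smul_def, ← hg]
  ring

end Unif

/-! ### the main statement -/

section Main

variable {R : RedSetup2 A S k κ} (C : ChartCoord R)
  (ht : Transcendental K C.t) [FiniteDimensional K⟮C.t⟯ F] [Algebra.IsSeparable K⟮C.t⟯ F]
  {Dt : Divisor K F} (hDt : ∀ v : Place K F, Dt v = v.ord C.t)
  {Γ : Set (SemilinearAut K F)}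

/-- `W = A^Γ` acts faithfully on `F`. -/
theorem faithfulSMul_fixedSubring : FaithfulSMul (fixedSubring (A := A) Γ) F := by
  rw [faithfulSMul_iff_algebraMap_injective]
  intro x y hxy
  have h1 : algebraMap K F (((x : A)) : K) = algebraMap K F (((y : A)) : K) := hxy
  exact Subtype.ext (Subtype.ext ((algebraMap K F).injective h1))

include ht hDt in
/-- **(AS), CALC part, datum level.** -/
theorem as_calc_datum (hD : FixData2 R Γ) {ϖ : A} (hϖfix : IsFixedK Γ (ϖ : K)) (hϖ0 : ϖ ≠ 0)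
    (hϖ : ∀ c : A, IsFixedK Γ (c : K) → c ∈ maximalIdeal A → ϖ ∣ c)
    {p : ℕ} (hp : p.Prime) (hϖp : ϖ ^ (p - 1) ∣ (p : A))
    {g : ℕ} {a : Fin g → F}
    (HW : DirectSum (fixedAlg Γ (BxAlg C)) (fixedAlg Γ (BooAlg C)) (fixedAlg Γ (BzeroAlg C)) a)
    {ξ : Pic0 K F} {w : F} {D : Divisor K F} (hw : IsData R p ξ w D) (hwfix : IsFixed Γ w)
    (d : CechDatum R Dt D) (hoofix : IsFixed Γ d.hoo) (h0'fix : IsFixed Γ d.h0') :
    ∃ υ : A, IsFixedK Γ (υ : K) ∧ ϖ ∣ υ - 1 ∧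
      ∃ Goo ∈ fixedAlg Γ (BooAlg C), ∃ G0 ∈ fixedAlg Γ (BzeroAlg C),
        w * d.hoo ^ p = algebraMap K F (υ : K) + algebraMap K F (ϖ : K) ^ p * Goo ∧
        algebraMap K F (υ : K) * (w⁻¹ * d.h0' ^ p) = 1 + algebraMap K F (ϖ : K) ^ p * G0 := by
  obtain ⟨b, hb⟩ := d.hoo_mem
  obtain ⟨a', ha'⟩ := d.h0'_mem
  -- the three elements in the untwisted lattices
  have huooL : w * d.hoo ^ p ∈ Lam C 0 (p * b) := by
    have h := kummer_mul_pow_mem hw hb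
    rwa [LamD_zero_eq C ht hDt] at h
  have hu0L : w⁻¹ * d.h0' ^ p ∈ Lam C (p * a') 0 := by
    have h := kummer_inv_mul_pow_mem hw ha'
    rwa [LamD_zero_eq C ht hDt] at h
  have hcL : d.hoo * d.h0' ∈ Lam C a' b := by
    have h := LamD_mul hb ha'
    rwa [add_neg_cancel, zero_add, add_zero, LamD_zero_eq C ht hDt] at h
  -- reductions
  have huoo1 : ResOne R (w * d.hoo ^ p) := (resOne_kummer hw).mul (d.res_hoo.pow p)
  have hu01 : ResOne R (w⁻¹ * d.h0' ^ p) := (resOne_kummer_inv hw).mul (d.res_h0'.pow p)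
  have hc1 : ResOne R (d.hoo * d.h0') := d.res_hoo.mul d.res_h0'
  -- rationality
  have huoofix : IsFixed Γ (w * d.hoo ^ p) := isFixed_mul hwfix (isFixed_pow hoofix p)
  have hu0fix : IsFixed Γ (w⁻¹ * d.h0' ^ p) :=
    isFixed_mul (isFixed_inv hwfix) (isFixed_pow h0'fix p)
  have hcfix : IsFixed Γ (d.hoo * d.h0') := isFixed_mul hoofix h0'fix
  obtain ⟨yoo, hyooL, hyoofix, hyoo⟩ :=
    exists_eq_one_add_unif C hD hϖfix hϖ0 hϖ huooL huoofix huoo1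
  obtain ⟨y0, hy0L, hy0fix, hy0⟩ :=
    exists_eq_one_add_unif C hD hϖfix hϖ0 hϖ hu0L hu0fix hu01
  obtain ⟨z, hzL, hzfix, hz⟩ :=
    exists_eq_one_add_unif C hD hϖfix hϖ0 hϖ hcL hcfix hc1
  -- the base ring `W`
  haveI : FaithfulSMul (fixedSubring (A := A) Γ) F := faithfulSMul_fixedSubring
  have hπ : (⟨ϖ, hϖfix⟩ : fixedSubring (A := A) Γ) ≠ 0 := fun h => hϖ0 (congrArg Subtype.val h)
  have hπp : (⟨ϖ, hϖfix⟩ : fixedSubring (A := A) Γ) ^ (p - 1) ∣ (p : fixedSubring (A := A) Γ) := by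
    apply dvd_fixedSubring (pow_ne_zero _ hπ)
    have e1 : (((⟨ϖ, hϖfix⟩ : fixedSubring (A := A) Γ) ^ (p - 1) : fixedSubring (A := A) Γ) : A)
        = ϖ ^ (p - 1) := by push_cast; rfl
    have e2 : (((p : fixedSubring (A := A) Γ)) : A) = (p : A) := by push_cast; rfl
    rw [e1, e2]
    exact hϖp
  have hcp : (d.hoo * d.h0') ^ p = (w * d.hoo ^ p) * (w⁻¹ * d.h0' ^ p) := by
    have hw0 := hw.ne_zero
    rw [mul_pow]
    field_simp
  obtain ⟨υ, hυ, Goo, hGoo, G0, hG0, e1, e2⟩ := CalcRing.as_calc_ring HW hπ hp hπp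
    (z := z) (c := d.hoo * d.h0') (uoo := w * d.hoo ^ p) (u0 := w⁻¹ * d.h0' ^ p)
    (yoo := yoo) (y0 := y0)
    ⟨(mem_BxAlg' C).2 ⟨_, _, hzL⟩, hzfix⟩ hz ⟨(mem_BooAlg C).2 ⟨_, hyooL⟩, hyoofix⟩ hyoo
    ⟨(mem_BzeroAlg C).2 ⟨_, hy0L⟩, hy0fix⟩ hy0 hcp
  refine ⟨(υ : A), υ.2, ?_, Goo, hGoo, G0, hG0, e1, e2⟩
  obtain ⟨c, hc⟩ := hυ
  refine ⟨(c : A), ?_⟩
  have h := congrArg (Subtype.val) hc
  exact h

include ht hDt in
/-- **(AS), CALC part, datum level, Kummer function form**: with `c = υ⁻¹` (a fixed unit of `A`,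
`c ≡ 1 mod ϖ`), `f₀ := c w hoo ^ p = 1 + ϖ ^ p Goo` is a fixed Kummer function of the class in the
fixed chart ring `B∞`, and `f₀⁻¹ (hoo h0') ^ p = c⁻¹ w⁻¹ h0' ^ p = 1 + ϖ ^ p G0` in `B₀`. -/
theorem exists_kummer_function (hD : FixData2 R Γ) {ϖ : A} (hϖm : ϖ ∈ maximalIdeal A)
    (hϖfix : IsFixedK Γ (ϖ : K)) (hϖ0 : ϖ ≠ 0)
    (hϖ : ∀ c : A, IsFixedK Γ (c : K) → c ∈ maximalIdeal A → ϖ ∣ c)
    {p : ℕ} (hp : p.Prime) (hϖp : ϖ ^ (p - 1) ∣ (p : A))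
    {g : ℕ} {a : Fin g → F}
    (HW : DirectSum (fixedAlg Γ (BxAlg C)) (fixedAlg Γ (BooAlg C)) (fixedAlg Γ (BzeroAlg C)) a)
    {ξ : Pic0 K F} {w : F} {D : Divisor K F} (hw : IsData R p ξ w D) (hwfix : IsFixed Γ w)
    (d : CechDatum R Dt D) (hoofix : IsFixed Γ d.hoo) (h0'fix : IsFixed Γ d.h0') :
    ∃ c : K, c ≠ 0 ∧ IsFixedK Γ c ∧ c ∈ A ∧ c⁻¹ ∈ A ∧
      ∃ Goo ∈ fixedAlg Γ (BooAlg C), ∃ G0 ∈ fixedAlg Γ (BzeroAlg C),
        algebraMap K F c * (w * d.hoo ^ p) = 1 + algebraMap K F (ϖ : K) ^ p * Goo ∧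
        (algebraMap K F c)⁻¹ * (w⁻¹ * d.h0' ^ p) = 1 + algebraMap K F (ϖ : K) ^ p * G0 := by
  obtain ⟨υ, hυfix, hυ, Goo, hGoo, G0, hG0, e1, e2⟩ :=
    as_calc_datum C ht hDt hD hϖfix hϖ0 hϖ hp hϖp HW hw hwfix d hoofix h0'fix
  -- `υ` is a unit of `A`
  have hυu : IsUnit υ := by
    by_contra hnu
    have h1 : υ ∈ maximalIdeal A := (mem_maximalIdeal _).2 (mem_nonunits_iff.2 hnu)
    have h2 : υ - 1 ∈ maximalIdeal A := by
      obtain ⟨c, hc⟩ := hυ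
      rw [hc]
      exact Ideal.mul_mem_right _ _ hϖm
    have h3 : (1 : A) ∈ maximalIdeal A := by
      have := Ideal.sub_mem _ h1 h2
      rwa [sub_sub_cancel] at this
    exact (Ideal.ne_top_iff_one _).1 (maximalIdeal.isMaximal A).ne_top h3
  obtain ⟨υi, hυi⟩ := hυu.exists_right_inv
  have hK : (υ : K) * (υi : K) = 1 := by
    have := congrArg Subtype.val hυi
    simpa using this
  have hυ0 : (υ : K) ≠ 0 := left_ne_zero_of_mul_eq_one hK
  have hυiK : (υi : K) = (υ : K)⁻¹ := eq_inv_of_mul_eq_one_right hK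
  have hcfix : IsFixedK Γ ((υ : K)⁻¹) := hυfix.inv
  have hcA : (υ : K)⁻¹ ∈ A := hυiK ▸ υi.2
  refine ⟨(υ : K)⁻¹, inv_ne_zero hυ0, hcfix, hcA, by rw [inv_inv]; exact υ.2,
    algebraMap K F (υ : K)⁻¹ * Goo, ?_, G0, hG0, ?_, ?_⟩
  · exact (fixedAlg Γ (BooAlg C)).mul_mem
      ((fixedAlg Γ (BooAlg C)).algebraMap_mem
        (⟨⟨(υ : K)⁻¹, hcA⟩, hcfix⟩ : fixedSubring (A := A) Γ)) hGoo
  · rw [e1, mul_add, ← map_mul, inv_mul_cancel₀ hυ0, map_one]
    ring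
  · rw [map_inv₀, inv_inv]
    exact e2

end Main

end Fermat.Agent.S40x.AS.CalcDatum

end
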