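import Fermat.Agent.S40x.AS.CalcDatum
import Fermat.Agent.S40x.W.G1Ctx

/-!
# P-S44, leaf C3-AS (CALC part, over `G1`, and at the concrete level `M q`; helper58)

`AS/CalcDatum.exists_kummer_function` with the uniformiser hypotheses discharged for
`G1 = {τ ∈ I_P : τ ζ = ζ}` (`S40x/W/G1`, helper3): `ϖ = ζ - 1`.

* `exists_kummer_function_G1` : `Γ` any set of semilinear automorphisms whose base automorphisms
  are exactly those of `G1 P ζ`, `hD : FixData2 R Γ`, `HW` the Cech decomposition over `P^Γ`,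
  a `Γ`-fixed normalised Kummer pair `(w, D)` of exponent `p` and a Cech datum `d` of `D` with
  `d.hoo`, `d.h0'` fixed.  Then for a `Γ`-fixed unit `c` of `P`:
  `c w hoo ^ p = 1 + (ζ-1) ^ p Goo`, `c⁻¹ w⁻¹ h0' ^ p = 1 + (ζ-1) ^ p G0`,
  `Goo ∈ fixedAlg Γ (BooAlg C)`, `G0 ∈ fixedAlg Γ (BzeroAlg C)`.
* `exists_kummer_function_Mq` : the same at the concrete level `M q` (`Γ = G1Act P ζ (M q)`,
  context of `S40x/W/G1Ctx.exists_directSum_G1_Mq`): no hypothesis left except the fixed datum.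
-/

set_option autoImplicit false
set_option linter.unusedSectionVars false
set_option linter.style.haveILetI false
set_option linter.unusedVariables false

noncomputable section

namespace Fermat.Agent.S40x.AS.CalcMq

open AlgebraicCurve Module IntermediateField IsLocalRing
open Fermat.Agent.Gateway.C0 Fermat.Agent.S34x Fermat.Agent.S34x.C0two Fermat.Agent.S34x.Lattice2
open Fermat.Agent.S19x.Geo.LatticeFixed (IsFixed IsFixedK)
open Fermat.Agent.S33x.H1.LatticeFixed2 Fermat.Agent.S33x.H1.FixedDecomp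
open Fermat.Agent.S33x.H1.InstC1 Fermat.Agent.S33x.H1.InstC4
open Fermat.Agent.S33x.Cech Fermat.Agent.S33x.Cech.OfDirectSum
open Fermat.Agent.S33x.Cech.Datum Fermat.Agent.S33x.Cech.CycKm
open Fermat.Agent.S33x.W.InstW (fixedAlg)
open Fermat.Agent.S40x.W.G1 Fermat.Agent.S40x.W.G1Ctx Fermat.Agent.S40x.AS.CalcDatum

local notation "Qbar" => AlgebraicClosure ℚ

section Generic

variable {P : ValuationSubring Qbar} {p : ℕ} {ζ : Qbar} {F : Type*} [Field F] [Algebra Qbar F]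
  {S : SmallRing F} {k κ : Type*} [Field k] [CommRing κ] [Algebra k κ]
  {R : RedSetup2 P S k κ} (C : ChartCoord R)
  (ht : Transcendental Qbar C.t) [FiniteDimensional Qbar⟮C.t⟯ F] [Algebra.IsSeparable Qbar⟮C.t⟯ F]
  {Dt : Divisor Qbar F} (hDt : ∀ v : Place Qbar F, Dt v = v.ord C.t)
  {Γ : Set (SemilinearAut Qbar F)}

include ht hDt in
/-- **(AS), CALC part, over `G1`**, uniformiser `ζ - 1`. -/
theorem exists_kummer_function_G1 (hp : p.Prime) (hP : P.LiesOverPrime p)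
    (hζ : IsPrimitiveRoot ζ p)
    (hΓ : ∀ s ∈ Γ, ∃ σ ∈ G1 P ζ, ∀ c : Qbar, SemilinearAut.baseAut s c = σ c)
    (hΓ' : ∀ σ ∈ G1 P ζ, ∃ s ∈ Γ, ∀ c : Qbar, SemilinearAut.baseAut s c = σ c)
    (hD : FixData2 R Γ) {g : ℕ} {a : Fin g → F}
    (HW : DirectSum (fixedAlg Γ (BxAlg C)) (fixedAlg Γ (BooAlg C)) (fixedAlg Γ (BzeroAlg C)) a)
    {ξ : Pic0 Qbar F} {w : F} {D : Divisor Qbar F} (hw : IsData R p ξ w D) (hwfix : IsFixed Γ w)
    (d : CechDatum R Dt D) (hoofix : IsFixed Γ d.hoo) (h0'fix : IsFixed Γ d.h0') :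
    ∃ c : Qbar, c ≠ 0 ∧ IsFixedK Γ c ∧ c ∈ P ∧ c⁻¹ ∈ P ∧
      ∃ Goo ∈ fixedAlg Γ (BooAlg C), ∃ G0 ∈ fixedAlg Γ (BzeroAlg C),
        algebraMap Qbar F c * (w * d.hoo ^ p) = 1 + algebraMap Qbar F (ζ - 1) ^ p * Goo ∧
        (algebraMap Qbar F c)⁻¹ * (w⁻¹ * d.h0' ^ p)
          = 1 + algebraMap Qbar F (ζ - 1) ^ p * G0 := by
  have hπm : ζ - 1 ∈ P.nonunits := sub_one_mem_nonunits hp hP hζ
  have hϖm : ((piW hp hP hζ hΓ : fixedSubring (A := P) Γ) : P) ∈ maximalIdeal P := by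
    rw [← ValuationSubring.coe_mem_nonunits_iff]
    exact hπm
  have hϖ0 : ((piW hp hP hζ hΓ : fixedSubring (A := P) Γ) : P) ≠ 0 := fun h =>
    piW_ne_zero hp hP hζ hΓ (Subtype.ext h)
  have hϖ : ∀ c : P, IsFixedK Γ (c : Qbar) → c ∈ maximalIdeal P →
      ((piW hp hP hζ hΓ : fixedSubring (A := P) Γ) : P) ∣ c := by
    intro c hc hcm
    obtain ⟨e, he⟩ := piW_dvd_of_mem_nonunits hp hP hζ hΓ hΓ' ⟨c, hc⟩
      ((ValuationSubring.coe_mem_nonunits_iff).2 hcm)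
    exact ⟨(e : P), congrArg Subtype.val he⟩
  have hϖp : ((piW hp hP hζ hΓ : fixedSubring (A := P) Γ) : P) ^ (p - 1) ∣ (p : P) := by
    obtain ⟨e, he⟩ := piW_pow_dvd_natCast hp hP hζ hΓ
    refine ⟨(e : P), ?_⟩
    have h1 := congrArg (Subtype.val) he
    exact h1
  exact exists_kummer_function C ht hDt hD hϖm (piW hp hP hζ hΓ).2 hϖ0 hϖ hp hϖp HW hw hwfix d
    hoofix h0'fix

end Generic

/-! ### The concrete level `M q` -/

section Concrete

open ModularCurve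
open Fermat.Agent.Gateway.Hecke Fermat.Agent.Gateway.ESC
open Fermat.Agent.Gateway.Red Fermat.Agent.Gateway.GoodRed
open Fermat.Agent.Gateway.GoodRed.ConjFamily
open Fermat.Agent.S34x.TwoVal
open Fermat.Agent.S34x.Inst.L2 Fermat.Agent.S34x.Inst.IsL2Inst
open Fermat.Agent.S34x.Inst.RedSetupInst Fermat.Agent.S34x.Inst.ElementYRed
open Fermat.Agent.S34x.Inst.ElementYInt Fermat.Agent.S34x.Inst.Charts
open Fermat.Agent.S34x.Inst Fermat.Agent.S34x.Inst.TheoremBMq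
open Fermat.Agent.S56x.Flat.InertiaField
open Fermat.Agent.S33x.H1.FixData2Final
open Fermat.Agent.S33x.Cech.CtxMq

attribute [-instance] IsScalarTower.of_algHom

variable {P : ValuationSubring Qbar} {k : Type} [Field k] {π : P →+* k} [IsAlgClosed k]
variable {M q : ℕ} [NeZero M] [NeZero q] [Fact q.Prime] [CharP k q]
variable {hdeg : finrankAlong Qbar (heckeAlphaBar Qbar M q) = q + 1} {hq : q.Prime}
  {hqM : ¬ q ∣ M}
variable {hrk : ∀ x ∈ maximalIdeal P, ∀ c : P, c ≠ 0 → ∃ j : ℕ, c ∣ x ^ j}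
  {hπ : Function.Surjective π}
variable (H : ResidueFacts P π M q hdeg hq hqM hrk hπ) (hA : P.LiesOverPrime q)
  (x : LaurentSeries ℤ) (hx : coeffMap (Int.castRingHom Qbar) x ∈ FBar Qbar M)
  (Hx : GoodLevelFactsT P π M q hπ hqM (tInt M x hx))

include Hx hA in
/-- **(AS), CALC part, at the concrete level `M q`**: for a `G1`-fixed normalised Kummer pair
`(w, D)` of exponent `q` and a Cech datum `d` of `D` with `d.hoo`, `d.h0'` `G1`-fixed, there are a
`G1`-fixed unit `c` of `P` and `G1`-fixed chart functions `Goo`, `G0` with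
`c w hoo ^ q = 1 + (ζ-1) ^ q Goo` and `c⁻¹ w⁻¹ h0' ^ q = 1 + (ζ-1) ^ q G0`. -/
theorem exists_kummer_function_Mq [PerfectRing k q] (C : ChartCoord (redSetup2 H hA))
    (hCt : C.t = tA M q x hx) (hxk : tbar k x ≠ 0) (hY : YFacts M q x hx)
    {ζ : Qbar} (hζ : IsPrimitiveRoot ζ q)
    {Dt : Divisor Qbar (FL Qbar (M * q))}
    (hDt : ∀ v : Place Qbar (FL Qbar (M * q)), Dt v = v.ord C.t)
    {ξ : Pic0 Qbar (FL Qbar (M * q))} {w : FL Qbar (M * q)}
    {D : Divisor Qbar (FL Qbar (M * q))} (hw : IsData (redSetup2 H hA) q ξ w D)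
    (hwfix : IsFixed (G1Act P ζ (M * q)) w) (d : CechDatum (redSetup2 H hA) Dt D)
    (hoofix : IsFixed (G1Act P ζ (M * q)) d.hoo) (h0'fix : IsFixed (G1Act P ζ (M * q)) d.h0') :
    ∃ c : Qbar, c ≠ 0 ∧ IsFixedK (G1Act P ζ (M * q)) c ∧ c ∈ P ∧ c⁻¹ ∈ P ∧
      ∃ Goo ∈ fixedAlg (G1Act P ζ (M * q)) (BooAlg C),
      ∃ G0 ∈ fixedAlg (G1Act P ζ (M * q)) (BzeroAlg C),
        algebraMap Qbar (FL Qbar (M * q)) c * (w * d.hoo ^ q)
          = 1 + algebraMap Qbar (FL Qbar (M * q)) (ζ - 1) ^ q * Goo ∧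
        (algebraMap Qbar (FL Qbar (M * q)) c)⁻¹ * (w⁻¹ * d.h0' ^ q)
          = 1 + algebraMap Qbar (FL Qbar (M * q)) (ζ - 1) ^ q * G0 := by
  haveI : Algebra.IsAlgebraic ℚ Qbar := AlgebraicClosure.isAlgebraic ℚ
  haveI : CharZero Qbar := algebraRat.charZero Qbar
  have ht : Transcendental Qbar C.t := by
    rw [hCt]
    exact Charts.transcendental_tα Qbar M q Hx.trans
  haveI hfin : FiniteDimensional Qbar⟮C.t⟯ (FL Qbar (M * q)) := by
    rw [hCt]
    exact finiteDimensional_tA x hx Hx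
  have hctx := ctx_of_chart H hA x hx Hx C hCt hxk hY (Dt := Charts.divT ht) (Charts.divT_apply ht)
  haveI := hctx.isSeparable_t
  obtain ⟨b₁, g, a, -, -, -, -, HW⟩ := exists_directSum_G1_Mq H hA x hx Hx C hCt hxk hY hζ
  exact exists_kummer_function_G1 C ht hDt hq hA hζ (G1Act_baseAut P ζ (M * q))
    (G1Act_baseAut' P ζ (M * q)) (fixData2_G1 H hA hζ) HW hw hwfix d hoofix h0'fix

end Concrete

end Fermat.Agent.S40x.AS.CalcMq

end
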