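import Fermat.Agent.S33x.Cech.OfDirectSum
import Fermat.Agent.S40x.DepthB.Unit

/-!
# P-S44, leaf C3-AS (CALC part, ring level, independent second; helper58)

The Artin–Schreier normal form of the two Kummer units of a RATIONAL Cech datum, over a base ring
`W` with ONE uniformiser `π` (in the application `W = O₁ = A^{G₁}` = `FixedDecomp.fixedSubring Γ₁`,
`π = ζ_p - 1`, and the three subalgebras are `W.InstW.fixedAlg Γ₁` of the chart rings of
`H1/InstC4`; the hypothesis `H` is then the fourth component of `W.InstWCtx.exists_export`).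

`as_calc_ring` : `Bx = Boo + B0 + ∑ W aᵢ` (`Cech.OfDirectSum.DirectSum`), `c = 1 + π z ∈ Bx`
(the cocycle `hoo * h0'` of a rational datum: reduction `1` + rationality give the factor `π`),
`uoo = 1 + π yoo ∈ Boo`, `u0 = 1 + π y0 ∈ B0` with `c ^ p = uoo * u0` EXACTLY
(`uoo = w * hoo ^ p`, `u0 = w⁻¹ * h0' ^ p` for the Kummer function `w`, `div w = p D`), and
`π ^ (p-1) ∣ p`.  Then there is a constant `υ ∈ 1 + π W` with
`uoo = υ + π ^ p Goo`, `υ * u0 = 1 + π ^ p G0`, `Goo ∈ Boo`, `G0 ∈ B0`.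

So `f₀ := υ⁻¹ w hoo ^ p ∈ 1 + π ^ p Boo` is a Kummer function of the class (it differs from `w` by
the `p`-th power of the rational function `hoo` and a constant) lying in the chart ring, with
`f₀ - 1 ∈ π ^ p Boo`: the literal (AS*) of the red team note 2627 (F2)/(F3), with `h_s = 1` at every
node.  Everything is exact (no `Rel`, no loss of precision).
-/

set_option autoImplicit false

namespace Fermat.Agent.S40x.AS.CalcRing

open Fermat.Agent.S33x.Cech Fermat.Agent.S33x.Cech.OfDirectSum Fermat.Agent.S40x.DepthB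

variable {W : Type*} [CommRing W] [IsDomain W] {F : Type*} [Field F] [Algebra W F]
  [FaithfulSMul W F] {Bx Boo B0 : Subalgebra W F} {g : ℕ} {a : Fin g → F}

omit [IsDomain W] [FaithfulSMul W F] in
theorem one_add_mul_mem (B : Subalgebra W F) (π : W) {z : F} (hz : z ∈ B) :
    1 + algebraMap W F π * z ∈ B :=
  B.add_mem B.one_mem (B.mul_mem (B.algebraMap_mem π) hz)

/-- **(AS), CALC part, ring level.** -/
theorem as_calc_ring (H : DirectSum Bx Boo B0 a) {π : W} (hπ : π ≠ 0) {p : ℕ} (hp : p.Prime)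
    (hπp : π ^ (p - 1) ∣ (p : W)) {c uoo u0 z yoo y0 : F}
    (hz : z ∈ Bx) (hc : c = 1 + algebraMap W F π * z)
    (hyoo : yoo ∈ Boo) (huoo : uoo = 1 + algebraMap W F π * yoo)
    (hy0 : y0 ∈ B0) (hu0 : u0 = 1 + algebraMap W F π * y0)
    (hcp : c ^ p = uoo * u0) :
    ∃ υ : W, π ∣ υ - 1 ∧ ∃ Goo ∈ Boo, ∃ G0 ∈ B0,
      uoo = algebraMap W F υ + algebraMap W F π ^ p * Goo ∧
      algebraMap W F υ * u0 = 1 + algebraMap W F π ^ p * G0 := by
  have hsat := satData H hπ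
  have hpp : p = (p - 1) + 1 := (Nat.succ_pred_eq_of_pos hp.pos).symm
  -- the elements in the types
  have hcB : c ∈ Bx := hc ▸ one_add_mul_mem Bx π hz
  have huooB : uoo ∈ Boo := huoo ▸ one_add_mul_mem Boo π hyoo
  have hu0B : u0 ∈ B0 := hu0 ▸ one_add_mul_mem B0 π hy0
  set cB : Bx := ⟨c, hcB⟩ with hcBdef
  set uooB : ooIn Bx Boo := ⟨⟨uoo, H.oo_le huooB⟩, huooB⟩ with huooBdef
  set u0B : zeroIn Bx B0 := ⟨⟨u0, H.zero_le hu0B⟩, hu0B⟩ with hu0Bdef
  -- `π ∣ cB - 1`, hence `π ^ p ∣ cB ^ p - 1`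
  have h1 : algebraMap W Bx π ∣ cB - 1 := by
    refine ⟨⟨z, hz⟩, Subtype.ext ?_⟩
    show c - 1 = algebraMap W F π * z
    rw [hc]; ring
  have h2 : algebraMap W Bx π ^ p ∣ cB ^ p - 1 := by
    refine one_add_pow_prime_dvd hp ?_ h1
    have := map_dvd (algebraMap W Bx) hπp
    simpa using this
  have h3 : algebraMap W Bx π ^ (p - 1 + 1) ∣
      ((uooB : ooIn Bx Boo) : Bx) * ((u0B : zeroIn Bx B0) : Bx)
        - ((1 : ooIn Bx Boo) : Bx) * ((1 : zeroIn Bx B0) : Bx) := by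
    rw [← hpp]
    have : ((uooB : ooIn Bx Boo) : Bx) * ((u0B : zeroIn Bx B0) : Bx)
        - ((1 : ooIn Bx Boo) : Bx) * ((1 : zeroIn Bx B0) : Bx) = cB ^ p - 1 := by
      apply Subtype.ext
      show uoo * u0 - 1 * 1 = c ^ p - 1
      rw [hcp]; ring
    rw [this]
    exact h2
  have huoo1 : algebraMap W (ooIn Bx Boo) π ∣ uooB - 1 := by
    refine ⟨⟨⟨yoo, H.oo_le hyoo⟩, hyoo⟩, Subtype.ext (Subtype.ext ?_)⟩
    show uoo - 1 = algebraMap W F π * yoo
    rw [huoo]; ring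
  have hu01 : algebraMap W (zeroIn Bx B0) π ∣ u0B - 1 := by
    refine ⟨⟨⟨y0, H.zero_le hy0⟩, hy0⟩, Subtype.ext (Subtype.ext ?_)⟩
    show u0 - 1 = algebraMap W F π * y0
    rw [hu0]; ring
  obtain ⟨υ, hυ, ⟨Goo, hGoo⟩, ⟨G0, hG0⟩⟩ :=
    coboundary_const (a := aIn H) hsat (p - 1) (voo := 1) (woo := uooB) (v0 := 1) (w0 := u0B)
      (by simp) huoo1 (by simp) hu01 h3
  rw [← hpp] at hGoo hG0
  refine ⟨υ, hυ, ((Goo : ooIn Bx Boo) : Bx), Goo.2, ((G0 : zeroIn Bx B0) : Bx), G0.2, ?_, ?_⟩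
  · have h := congrArg (fun x : ooIn Bx Boo => ((x : Bx) : F)) hGoo
    simp only [Subalgebra.coe_sub, Subalgebra.coe_smul, Subalgebra.coe_one, Subalgebra.coe_mul,
      Subalgebra.coe_pow, Subalgebra.coe_algebraMap] at h
    have h' : uoo - υ • (1 : F) = algebraMap W F π ^ p * ((Goo : ooIn Bx Boo) : Bx) := h
    rw [Algebra.smul_def, mul_one] at h'
    linear_combination h'
  · have h := congrArg (fun x : zeroIn Bx B0 => ((x : Bx) : F)) hG0
    simp only [Subalgebra.coe_sub, Subalgebra.coe_smul, Subalgebra.coe_one, Subalgebra.coe_mul,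
      Subalgebra.coe_pow, Subalgebra.coe_algebraMap] at h
    have h' : υ • u0 - 1 = algebraMap W F π ^ p * ((G0 : zeroIn Bx B0) : Bx) := h
    rw [Algebra.smul_def] at h'
    linear_combination h'

end Fermat.Agent.S40x.AS.CalcRing
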