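import Fermat.Agent.S40x.AS.FiltIntegral
import Fermat.Agent.S33x.W.InstWCtx

/-!
# P-S44, block C3, leaf AS-CUSP, chart half (helper46): the chart rings are integral over `A[t^±1]`

Inside the context bundle `h : CtxMq.Ctx R C p q x Dt` (two-component special fibre, chart
coordinate `C.t`), `A` the valuation ring of the constants:

* `isIntegral_of_mem_BooAlg`   : every `y ∈ BooAlg C` (chart `t ≠ ∞`) is integral over `A[t]`;
* `isIntegral_of_mem_BzeroAlg` : every `y ∈ BzeroAlg C` (chart `t ≠ 0`) is integral over `A[t⁻¹]`.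

Proof: `FiltIntegral.isIntegral_adjoin_of_filtration` for the filtration `Lam C 0 b`
(resp. `Lam C a 0`), finitely generated over `A` (`fg_lat_LN'`) and generated in degree one from
some `b₁` on by the landed graded Nakayama `S33x/H1/InstC1.exists_S1` (resp. its twist by `t`).
-/

set_option autoImplicit false
set_option linter.unusedSectionVars false
set_option linter.style.haveILetI false

noncomputable section

namespace Fermat.Agent.S40x.AS.ChartIntegral

open AlgebraicCurve Module IsLocalRing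
open Fermat.Agent.S34x Fermat.Agent.S34x.C0two Fermat.Agent.S34x.Lattice2
open Fermat.Agent.S33x.Cech.CtxMq Fermat.Agent.S33x.W.InstWCtx
open Fermat.Agent.S33x.H1.InstC1 Fermat.Agent.S33x.H1.InstC4

variable {K : Type*} [Field K] [IsAlgClosed K] [CharZero K] {A : ValuationSubring K}
  {F : Type*} [Field F] [Algebra K F] {S : SmallRing F}
  {k : Type*} [Field k] [IsAlgClosed k] {E : Type*} [Field E] [Algebra k E]
  {R : RedSetup2 A S k (E × E)} {C : ChartCoord R} {p q : ℕ} {x : E} {Dt : Divisor K F}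
  (h : Ctx R C p q x Dt)

include h in
/-- graded Nakayama on the chart `t ≠ ∞`. -/
theorem exists_Lam_succ : ∃ b₁, ∀ b, b₁ ≤ b → ∀ f ∈ Lam C 0 (b + 1),
    ∃ y ∈ Lam C 0 b, ∃ z ∈ Lam C 0 b, f = y + C.t * z := by
  haveI := h.fin_t
  haveI : ∀ b, FiniteDimensional k (C.Pk 0 b) := fun b => h.finite_Pk 0 b
  obtain ⟨b₀, hgen⟩ := h.exists_hgen
  exact exists_S1 C h.ht h.hDt h.hcart hgen

include h in
/-- graded Nakayama on the chart `t ≠ 0` (twist by `t`). -/
theorem exists_Lam_succ_zero : ∃ b₁, ∀ a, b₁ ≤ a → ∀ f ∈ Lam C (a + 1) 0,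
    ∃ y ∈ Lam C a 0, ∃ z ∈ Lam C a 0, f = y + C.t⁻¹ * z := by
  obtain ⟨b₁, hb₁⟩ := exists_Lam_succ h
  refine ⟨b₁, fun a ha f hf => ?_⟩
  have h1 := (Lam_twist C (a + 1) 0 f).mp hf
  rw [add_zero] at h1
  obtain ⟨x₁, hx₁, x₂, hx₂, hx⟩ := hb₁ a ha _ h1
  have hta : C.t ^ a ≠ 0 := pow_ne_zero a C.t_ne
  have hmem : ∀ y ∈ Lam C 0 a, (C.t ^ a)⁻¹ * y ∈ Lam C a 0 := by
    intro y hy
    rw [Lam_twist C a 0, add_zero, ← mul_assoc, mul_inv_cancel₀ hta, one_mul]
    exact hy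
  refine ⟨(C.t ^ a)⁻¹ * x₂, hmem x₂ hx₂, (C.t ^ a)⁻¹ * x₁, hmem x₁ hx₁, ?_⟩
  have h2 : f = (C.t ^ (a + 1))⁻¹ * (C.t ^ (a + 1) * f) := by
    rw [← mul_assoc, inv_mul_cancel₀ (pow_ne_zero _ C.t_ne), one_mul]
  rw [h2, hx, pow_succ]
  field_simp [C.t_ne]
  ring

include h in
/-- **the chart ring `B_∞` is integral over `A[t]`.** -/
theorem isIntegral_of_mem_BooAlg {y : F} (hy : y ∈ BooAlg C) :
    IsIntegral (Algebra.adjoin A {C.t}) y := by
  obtain ⟨b₁, hb₁⟩ := exists_Lam_succ h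
  obtain ⟨b, hb⟩ := (mem_BooAlg C).mp hy
  refine FiltIntegral.isIntegral_adjoin_of_filtration C.t (fun b => Lam C 0 b)
    (fun b => Lam_mono C le_rfl (Nat.le_succ b)) (one_mem_Lam C) ?_ b₁ (fg_lat_LN' h 0 b₁) hb₁
    (a := b) hb
  intro a b x hx y hy
  have := Lam_mul C hx hy
  rwa [zero_add] at this

include h in
/-- **the chart ring `B_0` is integral over `A[t⁻¹]`.** -/
theorem isIntegral_of_mem_BzeroAlg {y : F} (hy : y ∈ BzeroAlg C) :
    IsIntegral (Algebra.adjoin A {C.t⁻¹}) y := by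
  obtain ⟨b₁, hb₁⟩ := exists_Lam_succ_zero h
  obtain ⟨a, ha⟩ := (mem_BzeroAlg C).mp hy
  refine FiltIntegral.isIntegral_adjoin_of_filtration C.t⁻¹ (fun a => Lam C a 0)
    (fun a => Lam_mono C (Nat.le_succ a) le_rfl) (one_mem_Lam C) ?_ b₁ (fg_lat_LN' h b₁ 0) hb₁
    (a := a) ha
  intro a b x hx y hy
  have := Lam_mul C hx hy
  rwa [add_zero] at this

end Fermat.Agent.S40x.AS.ChartIntegral
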