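import Fermat.Agent.S33x.Cech.CtxMq
import Fermat.Agent.S33x.H1.InstSat
import Fermat.Agent.S34x.ReesFG

/-!
# P-S44, leaf C3-AS, the cusp seam (helper57): values at `q = 0` of the chart ring `B₀`

`B₀ = ⋃ₐ L(a C₀) ∩ O` (`BzeroAlg C`) is the ring of functions on the chart `t ≠ 0` of the model.
If `t` has a POLE at the Laurent cusp `q = 0`, the cusp is an integral point of this chart, so the
value at `q = 0` of an element of `B₀` is integral.  (Gauss-integrality alone is NOT enough: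
`(p + q) / (p² + q)` is a Gauss-integral power series with value `1 / p` at `q = 0`; one needs
regularity on the whole residue disc, i.e. integrality over `A[t⁻¹]`.)

* `exists_step_zero` : graded Nakayama towards `0`: `Λ(a+1, 0) = Λ(a, 0) + t⁻¹ Λ(a, 0)` for `a ≫ 0`;
* `isIntegral_adjoin_tinv` : every element of `BzeroAlg C` is integral over `A[t⁻¹]`;
* `coeff_zero_mem_of_isIntegral` : a field `F` with a ring hom `ι : F → K((q))`, `s ∈ F` with
  `order (ι s) > 0`, `y` integral over `A[s]` ⇒ `ι y` is a power series with constant coefficient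
  in `A`;
* `Ctx.cusp_value` : the two combined, for the context bundle of `Cech/CtxMq`.
-/

set_option autoImplicit false
set_option linter.unusedSectionVars false
set_option linter.style.haveILetI false

noncomputable section

namespace Fermat.Agent.S40x.AS.CuspValue

open AlgebraicCurve Module IntermediateField IsLocalRing
open Fermat.Agent.Gateway.C0 Fermat.Agent.S34x Fermat.Agent.S34x.C0two Fermat.Agent.S34x.Lattice2
open Fermat.Agent.S33x.H1.InstC1 Fermat.Agent.S33x.H1.InstC2 Fermat.Agent.S33x.H1.InstC4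
open Fermat.Agent.S33x.H1.InstSat

/-! ### Graded Nakayama towards `0` -/

section Step

variable {K : Type*} [Field K] {A : ValuationSubring K} {F : Type*} [Field F] [Algebra K F]
  {S : SmallRing F} {k κ : Type*} [Field k] [CommRing κ] [Algebra k κ]
  {R : RedSetup2 A S k κ} (C : ChartCoord R)

theorem tinv_mul_mem_Lam {a : ℕ} {x : F} (hx : x ∈ Lam C a 0) : C.t⁻¹ * x ∈ Lam C (a + 1) 0 := by
  have h := Lam_mul C (⟨C.tinv_mem_LN, C.tinv_mem⟩ : C.t⁻¹ ∈ Lam C 1 0) hx
  rwa [add_comm 1 a, add_zero] at h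

theorem Ti_mul_mem_Pk {a : ℕ} {p : κ} (hp : p ∈ C.Pk a 0) : C.Ti * p ∈ C.Pk (a + 1) 0 := by
  have h := mul_mem_twoPole (k := k) (Ti_mem_twoPole (k := k) C.T_mul_Ti) hp
  rwa [add_comm 1 a, add_zero] at h

/-- **Graded Nakayama towards `0`**: if the `k`-side spaces `P(a, 0)` are finite-dimensional and
generated in degree one for `a ≫ 0`, and the lattices `Λ(a, 0)` are finitely generated, then
`Λ(a + 1, 0) = Λ(a, 0) + t⁻¹ Λ(a, 0)` for `a ≫ 0`. -/
theorem exists_step_zero (hfg : ∀ a, (Lam C a 0).FG)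
    (hPfin : ∀ a, Module.Finite k (C.Pk a 0)) (a₀ : ℕ)
    (hgen : ∀ a, a₀ ≤ a → ∀ p ∈ C.Pk (a + 1) 0, ∃ y ∈ C.Pk a 0, ∃ z ∈ C.Pk a 0,
      p = y + C.Ti * z) :
    ∃ a₁, ∀ a, a₁ ≤ a → ∀ y ∈ Lam C (a + 1) 0, ∃ u ∈ Lam C a 0, ∃ w ∈ Lam C a 0,
      y = u + C.t⁻¹ * w := by
  -- the Rees step for the reductions
  obtain ⟨a₁, ha₁⟩ := ReesFG.exists_forall_succ_eq_add C.Ti (fun a => C.Pk a 0)
    (fun a => R.redLat (C.LN a 0))
    (fun a a' h => twoPole_mono _ _ h le_rfl)
    (fun a a' h => redLat_mono R (C.LN_mono h le_rfl))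
    (fun a => C.redLat_LN_le a 0)
    (fun a p hp => Ti_mul_mem_Pk C hp)
    (fun a v hv => by
      obtain ⟨x, hx, hxL, rfl⟩ := hv
      have hm := tinv_mul_mem_Lam C (⟨hxL, hx⟩ : x ∈ Lam C a 0)
      refine ⟨C.t⁻¹ * x, hm.2, hm.1, ?_⟩
      rw [res_mul R C.tinv_mem hx]
      rfl)
    hPfin a₀ hgen
  refine ⟨a₁, fun a ha => ?_⟩
  -- Nakayama
  set N : Submodule A F := Lam C a 0 ⊔ (Lam C a 0).map (LinearMap.mulLeft A (C.t⁻¹ : F)) with hN
  have hle : Lam C (a + 1) 0 ≤ N ⊔ maximalIdeal A • Lam C (a + 1) 0 := by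
    intro y hy
    obtain ⟨v₁, ⟨u₁, hu₁, hu₁L, rfl⟩, v₂, ⟨u₂, hu₂, hu₂L, rfl⟩, hv⟩ :=
      ha₁ a ha _ (res_mem_redLat R hy.2 hy.1)
    have hu₁' : u₁ ∈ Lam C a 0 := ⟨hu₁L, hu₁⟩
    have hu₂' : u₂ ∈ Lam C a 0 := ⟨hu₂L, hu₂⟩
    have hm := tinv_mul_mem_Lam C hu₂'
    have hsum : u₁ + C.t⁻¹ * u₂ ∈ Lam C (a + 1) 0 :=
      Submodule.add_mem _ (Lam_mono C (Nat.le_succ a) le_rfl hu₁') hm
    have hz : y - (u₁ + C.t⁻¹ * u₂) ∈ Lam C (a + 1) 0 := Submodule.sub_mem _ hy hsum
    have hz0 : R.res ⟨y - (u₁ + C.t⁻¹ * u₂), hz.2⟩ = 0 := by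
      have e : (⟨y - (u₁ + C.t⁻¹ * u₂), hz.2⟩ : S.O) =
          ⟨y, hy.2⟩ - (⟨u₁, hu₁⟩ + ⟨C.t⁻¹, C.tinv_mem⟩ * ⟨u₂, hu₂⟩) := rfl
      rw [e, map_sub, map_add, map_mul, hv]
      show _ - (_ + C.Ti * _) = 0
      ring
    have hzm := mem_smul_of_res_eq_zero C hz hz0
    have hNmem : u₁ + C.t⁻¹ * u₂ ∈ N :=
      Submodule.add_mem_sup hu₁' (Submodule.mem_map.mpr ⟨u₂, hu₂', rfl⟩)
    have : y = (u₁ + C.t⁻¹ * u₂) + (y - (u₁ + C.t⁻¹ * u₂)) := by ring
    rw [this]
    exact Submodule.add_mem_sup hNmem hzm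
  have hN' : Lam C (a + 1) 0 ≤ N :=
    Submodule.le_of_le_smul_of_le_jacobson_bot (hfg (a + 1))
      (IsLocalRing.maximalIdeal_le_jacobson ⊥) hle
  intro y hy
  obtain ⟨u, hu, w', hw', rfl⟩ := Submodule.mem_sup.mp (hN' hy)
  obtain ⟨w, hw, rfl⟩ := Submodule.mem_map.mp hw'
  exact ⟨u, hu, w, hw, rfl⟩

end Step

/-! ### `B₀` is integral over `A[t⁻¹]` -/

section Integral

variable {K : Type*} [Field K] {A : ValuationSubring K} {F : Type*} [Field F] [Algebra K F]
  {S : SmallRing F} {k κ : Type*} [Field k] [CommRing κ] [Algebra k κ]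
  {R : RedSetup2 A S k κ} (C : ChartCoord R)

theorem tinv_mem_BzeroAlg : C.t⁻¹ ∈ BzeroAlg C :=
  (mem_BzeroAlg C).mpr ⟨1, C.tinv_mem_LN, C.tinv_mem⟩

theorem adjoin_tinv_le : Algebra.adjoin A {C.t⁻¹} ≤ BzeroAlg C :=
  Algebra.adjoin_le (by rintro _ rfl; exact tinv_mem_BzeroAlg C)

/-- **`B₀` is integral over `A[t⁻¹]`**, from the graded Nakayama step. -/
theorem isIntegral_adjoin_tinv (hfg : ∀ a, (Lam C a 0).FG) {a₁ : ℕ}
    (hstep : ∀ a, a₁ ≤ a → ∀ y ∈ Lam C (a + 1) 0, ∃ u ∈ Lam C a 0, ∃ w ∈ Lam C a 0,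
      y = u + C.t⁻¹ * w)
    {y : F} (hy : y ∈ BzeroAlg C) : IsIntegral (Algebra.adjoin A {C.t⁻¹}) y := by
  classical
  obtain ⟨G, hG⟩ := hfg a₁
  set N : Submodule (Algebra.adjoin A {C.t⁻¹}) F :=
    Submodule.span (Algebra.adjoin A {C.t⁻¹}) (G : Set F) with hN
  have hNfg : N.FG := Submodule.fg_span G.finite_toSet
  have hbase : ∀ z ∈ Lam C a₁ 0, z ∈ N := by
    intro z hz
    rw [← hG] at hz
    exact Submodule.span_le_restrictScalars A (Algebra.adjoin A {C.t⁻¹}) (G : Set F) hz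
  have hs : ∀ z ∈ N, C.t⁻¹ * z ∈ N := by
    intro z hz
    have := N.smul_mem (⟨C.t⁻¹, Algebra.self_mem_adjoin_singleton A _⟩ :
      Algebra.adjoin A {C.t⁻¹}) hz
    exact this
  have key1 : ∀ a, ∀ z ∈ Lam C a 0, z ∈ N := by
    intro a
    induction a with
    | zero => exact fun z hz => hbase z (Lam_mono C (Nat.zero_le _) le_rfl hz)
    | succ a ih =>
      intro z hz
      by_cases ha : a₁ ≤ a
      · obtain ⟨u, hu, w, hw, rfl⟩ := hstep a ha z hz
        exact N.add_mem (ih u hu) (hs w (ih w hw))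
      · exact hbase z (Lam_mono C (by omega) le_rfl hz)
  have key2 : ∀ z ∈ N, z ∈ BzeroAlg C := by
    intro z hz
    refine Submodule.span_induction (p := fun z _ => z ∈ BzeroAlg C) ?_ ?_ ?_ ?_ hz
    · intro g hg
      have : g ∈ Lam C a₁ 0 := by
        rw [← hG]
        exact Submodule.subset_span hg
      exact (mem_BzeroAlg C).mpr ⟨a₁, this⟩
    · exact (BzeroAlg C).zero_mem
    · intro u v _ _ hu hv
      exact (BzeroAlg C).add_mem hu hv
    · intro r u _ hu
      exact (BzeroAlg C).mul_mem (adjoin_tinv_le C r.2) hu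
  refine isIntegral_of_smul_mem_submodule N ?_ hNfg y ?_
  · intro h0
    have h1 : (1 : F) ∈ N := key1 0 1 (one_mem_Lam C)
    rw [h0, Submodule.mem_bot] at h1
    exact one_ne_zero h1
  · intro n hn
    obtain ⟨a, ha⟩ := (mem_BzeroAlg C).mp ((BzeroAlg C).mul_mem hy (key2 n hn))
    exact key1 a _ ha

end Integral

/-! ### Evaluation at `q = 0` -/

section Eval

variable {K : Type*} [Field K] (A : ValuationSubring K) {F : Type*} [Field F] [Algebra K F]
  (ι : F →+* LaurentSeries K)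

/-- the constant coefficient of a power series, read on its Laurent series. -/
theorem coeff_zero_coe (Y : PowerSeries K) :
    ((HahnSeries.ofPowerSeries ℤ K Y : LaurentSeries K)).coeff 0 = PowerSeries.constantCoeff Y := by
  rw [PowerSeries.coeff_coe]
  simp

/-- **Evaluation at the cusp.**  If `ι s` is a power series without constant term and `y` is
integral over `A[s]`, then `ι y` is a power series whose constant coefficient lies in `A`. -/
theorem exists_powerSeries_of_isIntegral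
    (hι : ∀ c : K, ι (algebraMap K F c) = HahnSeries.C c) {s y : F}
    (hs : ∃ Y : PowerSeries K, HahnSeries.ofPowerSeries ℤ K Y = ι s ∧
      PowerSeries.constantCoeff Y = 0)
    (hy : IsIntegral (Algebra.adjoin A {s}) y) :
    ∃ Y : PowerSeries K, HahnSeries.ofPowerSeries ℤ K Y = ι y ∧
      PowerSeries.constantCoeff Y ∈ A := by
  set coe : PowerSeries K →+* LaurentSeries K := HahnSeries.ofPowerSeries ℤ K with hcoe
  have hinj : Function.Injective coe := HahnSeries.ofPowerSeries_injective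
  -- every element of `A[s]` is a power series with constant coefficient in `A`
  have hmem : ∀ r ∈ Algebra.adjoin A {s}, ∃ Y : PowerSeries K, coe Y = ι r ∧
      PowerSeries.constantCoeff Y ∈ A := by
    intro r hr
    induction hr using Algebra.adjoin_induction with
    | mem x hx =>
      rw [Set.mem_singleton_iff] at hx
      subst hx
      obtain ⟨Y, hY, hY0⟩ := hs
      exact ⟨Y, hY, by rw [hY0]; exact A.zero_mem⟩
    | algebraMap a =>
      refine ⟨PowerSeries.C (a : K), ?_, ?_⟩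
      · rw [hcoe, HahnSeries.ofPowerSeries_C]
        exact (hι (a : K)).symm
      · rw [PowerSeries.constantCoeff_C]
        exact a.2
    | add x y _ _ hx hy =>
      obtain ⟨X', hX', hX0⟩ := hx
      obtain ⟨Y', hY', hY0⟩ := hy
      exact ⟨X' + Y', by rw [map_add, map_add, hX', hY'], by
        rw [map_add]; exact A.add_mem _ _ hX0 hY0⟩
    | mul x y _ _ hx hy =>
      obtain ⟨X', hX', hX0⟩ := hx
      obtain ⟨Y', hY', hY0⟩ := hy
      exact ⟨X' * Y', by rw [map_mul, map_mul, hX', hY'], by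
        rw [map_mul]; exact A.mul_mem _ _ hX0 hY0⟩
  -- the lift `φ : A[s] → K⟦X⟧`
  let e : PowerSeries K ≃+* coe.range :=
    RingEquiv.ofBijective coe.rangeRestrict
      ⟨fun a b hab => hinj (congrArg Subtype.val hab), coe.rangeRestrict_surjective⟩
  let ιR : Algebra.adjoin A {s} →+* coe.range :=
    (ι.comp (algebraMap (Algebra.adjoin A {s}) F)).codRestrict coe.range (fun r => by
      obtain ⟨Y, hY, -⟩ := hmem r.1 r.2
      exact ⟨Y, hY⟩)
  let φ : Algebra.adjoin A {s} →+* PowerSeries K := (e.symm : coe.range →+* PowerSeries K).comp ιR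
  have hφ : ∀ r : Algebra.adjoin A {s}, coe (φ r) = ι (r : F) := by
    intro r
    have h1 : e (φ r) = ιR r := e.apply_symm_apply (ιR r)
    have h2 := congrArg Subtype.val h1
    exact h2
  have hφA : ∀ r : Algebra.adjoin A {s}, PowerSeries.constantCoeff (φ r) ∈ A := by
    intro r
    obtain ⟨Y, hY, hY0⟩ := hmem r.1 r.2
    have : φ r = Y := hinj ((hφ r).trans hY.symm)
    rw [this]
    exact hY0
  let φ0 : Algebra.adjoin A {s} →+* A :=
    ((PowerSeries.constantCoeff (R := K)).comp φ).codRestrict A hφA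
  -- the integral equation
  obtain ⟨P, hPm, hP0⟩ := hy
  have h1 : Polynomial.eval₂ (coe.comp φ) (ι y) P = 0 := by
    have h := Polynomial.hom_eval₂ P (algebraMap (Algebra.adjoin A {s}) F) ι y
    rw [hP0, map_zero] at h
    have hcomp : ι.comp (algebraMap (Algebra.adjoin A {s}) F) = coe.comp φ :=
      RingHom.ext fun r => (hφ r).symm
    rw [← hcomp]
    exact h.symm
  have h2 : IsIntegral (PowerSeries K) (ι y) := by
    refine ⟨P.map φ, hPm.map φ, ?_⟩
    rw [Polynomial.eval₂_map]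
    have : (algebraMap (PowerSeries K) (LaurentSeries K)) = coe :=
      RingHom.ext fun Y => by rw [LaurentSeries.coe_algebraMap]
    rw [this]
    exact h1
  obtain ⟨Y, hY⟩ := IsIntegrallyClosed.isIntegral_iff.mp h2
  have hY' : coe Y = ι y := by
    rw [← hY, LaurentSeries.coe_algebraMap]
  refine ⟨Y, hY', ?_⟩
  -- the equation for `Y`
  have h3 : Polynomial.eval₂ φ Y P = 0 := by
    apply hinj
    rw [Polynomial.hom_eval₂, hY', map_zero]
    exact h1
  have h4 : Polynomial.eval₂ ((PowerSeries.constantCoeff (R := K)).comp φ)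
      (PowerSeries.constantCoeff Y) P = 0 := by
    rw [← Polynomial.hom_eval₂, h3, map_zero]
  have h5 : IsIntegral A (PowerSeries.constantCoeff Y) := by
    refine ⟨P.map φ0, hPm.map φ0, ?_⟩
    rw [Polynomial.eval₂_map]
    have : (algebraMap A K).comp φ0 = (PowerSeries.constantCoeff (R := K)).comp φ := by
      ext r
      rfl
    rw [this]
    exact h4
  obtain ⟨a, ha⟩ := IsIntegrallyClosed.isIntegral_iff.mp h5
  rw [← ha]
  exact a.2

/-- a Laurent series without coefficients in degrees `≤ 0` is a power series without constant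
term. -/
theorem exists_powerSeries_of_coeff_nonpos {f : LaurentSeries K}
    (hf : ∀ n : ℤ, n ≤ 0 → f.coeff n = 0) :
    ∃ Y : PowerSeries K, HahnSeries.ofPowerSeries ℤ K Y = f ∧
      PowerSeries.constantCoeff Y = 0 := by
  refine ⟨PowerSeries.mk fun n => f.coeff n, ?_, ?_⟩
  · ext n
    rw [PowerSeries.coeff_coe]
    split_ifs with hn
    · exact (hf n hn.le).symm
    · rw [PowerSeries.coeff_mk, Int.natAbs_of_nonneg (not_lt.mp hn)]
  · rw [← PowerSeries.coeff_zero_eq_constantCoeff_apply, PowerSeries.coeff_mk]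
    exact hf 0 le_rfl

/-- the inverse of a Laurent series with a pole at `q = 0` is a power series without constant
term. -/
theorem exists_powerSeries_inv_of_order_neg {f : LaurentSeries K} (hf : f.order < 0) :
    ∃ Y : PowerSeries K, HahnSeries.ofPowerSeries ℤ K Y = f⁻¹ ∧
      PowerSeries.constantCoeff Y = 0 := by
  have hf0 : f ≠ 0 := by
    rintro rfl
    simp at hf
  have hfi : f⁻¹ ≠ 0 := inv_ne_zero hf0
  have hord : f.order + (f⁻¹).order = 0 := by
    rw [← HahnSeries.order_mul hf0 hfi, mul_inv_cancel₀ hf0, HahnSeries.order_one]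
  refine exists_powerSeries_of_coeff_nonpos fun n hn => ?_
  exact HahnSeries.coeff_eq_zero_of_lt_order (by omega)

end Eval

/-! ### The context bundle -/

section Bundle

variable {K : Type*} [Field K] [IsAlgClosed K] [CharZero K] {A : ValuationSubring K}
  {F : Type*} [Field F] [Algebra K F] {S : SmallRing F}
  {k : Type*} [Field k] [IsAlgClosed k] {E : Type*} [Field E] [Algebra k E]
  {R : RedSetup2 A S k (E × E)} {C : ChartCoord R} {p q : ℕ} {x : E} {Dt : Divisor K F}
  (h : Fermat.Agent.S33x.Cech.CtxMq.Ctx R C p q x Dt)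

include h

/-- the lattices `L(a C₀) ∩ O` are finitely generated -/
theorem fg_Lam_zero (a : ℕ) : (Lam C a 0).FG := by
  haveI := h.fin_t
  haveI := h.isSeparable_t
  show (R.lat (C.LN a 0)).FG
  rw [← LN_eq C h.ht h.hDt]
  exact h.hcart _ ((TwoCharts.ofDivisor Dt).LN_finite h.ht a 0)

/-- generation in degree one of `P(a, 0)` -/
theorem exists_hgen_zero : ∃ a₀ : ℕ, ∀ a, a₀ ≤ a → ∀ p ∈ C.Pk (a + 1) 0,
    ∃ y ∈ C.Pk a 0, ∃ z ∈ C.Pk a 0, p = y + C.Ti * z := by
  haveI := h.fin_x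
  haveI := h.sep_x
  obtain ⟨b₀, hb₀⟩ := DimBridge.exists_threshold h.hx
  refine ⟨b₀ + 1, fun a ha p hp => ?_⟩
  rw [Fermat.Agent.S34x.Inst.CountsInst.Pk_eq h.hx C h.hT] at hp ⊢
  rw [Fermat.Agent.S34x.Inst.CountsInst.Ti_eq h.hx C h.hT]
  exact DimBridgeTwoPole.exists_add_Ti_mul h.hx h.hq hb₀ (a := a) (b := 0) (by omega) hp

/-- **`B₀` is integral over `A[t⁻¹]`** in the context bundle. -/
theorem isIntegral_of_mem_BzeroAlg {y : F} (hy : y ∈ BzeroAlg C) :
    IsIntegral (Algebra.adjoin A {C.t⁻¹}) y := by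
  obtain ⟨a₀, ha₀⟩ := exists_hgen_zero h
  obtain ⟨a₁, ha₁⟩ := exists_step_zero C (fg_Lam_zero h) (fun a => h.finite_Pk a 0) a₀ ha₀
  exact isIntegral_adjoin_tinv C (fg_Lam_zero h) ha₁ hy

/-- **The cusp value is integral.**  `ι : F → K((q))` an expansion at a cusp where `t` has a pole:
every element of the chart ring `B₀` is a power series whose constant coefficient lies in `A`. -/
theorem cusp_value (ι : F →+* LaurentSeries K)
    (hι : ∀ c : K, ι (algebraMap K F c) = HahnSeries.C c) (ht : (ι C.t).order < 0)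
    {y : F} (hy : y ∈ BzeroAlg C) :
    ∃ Y : PowerSeries K, HahnSeries.ofPowerSeries ℤ K Y = ι y ∧
      PowerSeries.constantCoeff Y ∈ A := by
  refine exists_powerSeries_of_isIntegral A ι hι ?_ (isIntegral_of_mem_BzeroAlg h hy)
  rw [map_inv₀]
  exact exists_powerSeries_inv_of_order_neg ht

end Bundle

end Fermat.Agent.S40x.AS.CuspValue
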