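/-
P-S44 (C3-AS, leaf AS-CUSP), INDEPENDENT SECOND (helper3): the chart rings are integral over
`A[t]` resp. `A[t⁻¹]`, and the value at the cusp `q = 0` of an element of the chart ring `B₀`
(the chart `t ≠ 0`) is `A`-integral.

Route (differs from the primary `AS/CuspValue`, which uses the fundamental equality and the minimal
polynomial over `K(t)`): graded Nakayama.

* `isIntegral_of_succ` (Mathlib only): a filtered ring `⋃ L b` with `L (b+1) = L b + u L b` for
  `b ≥ b₁`, `L b₁` finite over `A`, is integral over `A[u]`;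
* `incl A : A[[q]] → K((q))`, `isIntegralElem_of_adjoin`, `exists_powerSeries_of_isIntegralElem`,
  `order_coeff_of_isIntegralElem` (Mathlib only): a Laurent series integral over `A[[q]]` is a power
  series with constant coefficient in `A` (`K[[q]]` and `A` are integrally closed);
* `exists_lat_succ` : (S1) of `S34x/SaturationK.exists_saturationK` in the `ChartCoord` vocabulary:
  `L((b+1) C∞) ∩ O = (L(b C∞) ∩ O) + t (L(b C∞) ∩ O)` for `b ≥ b₁`;
  `exists_lat_succ_zero` : its twist, `L((a+1) C₀) ∩ O = (L(a C₀) ∩ O) + t⁻¹ (L(a C₀) ∩ O)`;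
  `fg_lat_zero`; `isIntegral_of_mem_lat_oo/zero`, `isIntegral_of_mem_BooAlg/BzeroAlg`;
* `isIntegral_BooAlg`, `isIntegral_BzeroAlg` : inside the context bundle `Ctx R C p q x Dt`,
  `BooAlg C` is integral over `A[t]` and `BzeroAlg C` is integral over `A[t⁻¹]`;
  `cusp_value_of_ctx` : the evaluation at `q = 0`, bundle form;
* `cusp_value_Mq`, `cusp_value_Mq_int` : the consumer literal at the concrete level `M q`:
  `y ∈ BzeroAlg C → 0 ≤ order y ∧ coeff 0 y ∈ P`, given `t⁻¹ ∈ P[[q]]` (resp. `x⁻¹ ∈ ℤ[[q]]`).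
-/
import Mathlib
import Fermat.Agent.S34x.Lattice2.UBBridge
import Fermat.Agent.S33x.Cech.CtxMq
import Fermat.Agent.S33x.H1.InstC4

set_option autoImplicit false
set_option linter.unusedSectionVars false
set_option linter.unusedVariables false
set_option linter.style.haveILetI false

noncomputable section

namespace Fermat.Agent.S40x.AS.CuspValueB

open AlgebraicCurve Module IsLocalRing IntermediateField
open Fermat.Agent.S34x.C0two Fermat.Agent.S34x.Lattice2
open Fermat.Agent.S34x Fermat.Agent.S34x.Saturation Fermat.Agent.S34x.SaturationK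
open Fermat.Agent.S33x.H1.InstC1 Fermat.Agent.S33x.H1.InstC4

/-! ### Abstract: graded Nakayama gives integrality -/

section Abstract

variable {A : Type*} [CommRing A] {F : Type*} [Field F] [Algebra A F]

/-- **Graded Nakayama ⟹ integrality.**  If a filtered ring `⋃_b L b` satisfies
`L (b+1) = L b + u L b` for `b ≥ b₁` and `L b₁` is a finite `A`-module, every element of every
`L b` is integral over `A[u]`. -/
theorem isIntegral_of_succ (L : ℕ → Submodule A F) (hmono : Monotone L) (u : F) (b₁ : ℕ)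
    (hS1 : ∀ b, b₁ ≤ b → ∀ y ∈ L (b + 1), ∃ y₁ ∈ L b, ∃ y₂ ∈ L b, y = y₁ + u * y₂)
    (hfg : (L b₁).FG) (hmul : ∀ b b' x y, x ∈ L b → y ∈ L b' → x * y ∈ L (b + b'))
    (h1 : (1 : F) ∈ L 0) {b : ℕ} {y : F} (hy : y ∈ L b) :
    IsIntegral (Algebra.adjoin A ({u} : Set F)) y := by
  classical
  obtain ⟨s, hs⟩ := hfg
  let N : Submodule (Algebra.adjoin A ({u} : Set F)) F :=
    Submodule.span (Algebra.adjoin A ({u} : Set F)) (s : Set F)
  have hu : u ∈ Algebra.adjoin A ({u} : Set F) := Algebra.subset_adjoin (Set.mem_singleton u)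
  have hLN : ∀ x ∈ L b₁, x ∈ N := by
    intro x hx
    rw [← hs] at hx
    exact Submodule.span_le_restrictScalars A (Algebra.adjoin A ({u} : Set F)) (s : Set F) hx
  have hall : ∀ n, ∀ x ∈ L (b₁ + n), x ∈ N := by
    intro n
    induction n with
    | zero => exact hLN
    | succ n ih =>
      intro x hx
      obtain ⟨y₁, hy₁, y₂, hy₂, rfl⟩ := hS1 (b₁ + n) (Nat.le_add_right _ _) x hx
      refine N.add_mem (ih _ hy₁) ?_
      have h2 : u * y₂ = (⟨u, hu⟩ : Algebra.adjoin A ({u} : Set F)) • y₂ := rfl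
      rw [h2]
      exact N.smul_mem _ (ih _ hy₂)
  have hall' : ∀ c, ∀ x ∈ L c, x ∈ N := fun c x hx =>
    hall c x (hmono (Nat.le_add_left c b₁) hx)
  refine isIntegral_of_smul_mem_submodule N ?_ ⟨s, rfl⟩ y ?_
  · intro h
    have h3 : (1 : F) ∈ N := hall' 0 1 h1
    rw [h] at h3
    exact one_ne_zero ((Submodule.mem_bot _).mp h3)
  · intro n hn
    induction hn using Submodule.span_induction with
    | mem x hx =>
      have hx' : x ∈ L b₁ := by rw [← hs]; exact Submodule.subset_span hx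
      exact hall' _ _ (hmul _ _ _ _ hy hx')
    | zero => rw [smul_zero]; exact N.zero_mem
    | add x z _ _ hx hz => rw [smul_add]; exact N.add_mem hx hz
    | smul a x _ hx => rw [smul_comm]; exact N.smul_mem a hx

end Abstract

/-! ### Abstract: evaluation at `q = 0` -/

section Eval

variable {K : Type*} [Field K] (A : ValuationSubring K)

/-- the inclusion `A[[q]] → K((q))` -/
noncomputable def incl : PowerSeries A →+* LaurentSeries K :=
  (HahnSeries.ofPowerSeries ℤ K).comp (PowerSeries.map A.subtype)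

theorem incl_apply (σ : PowerSeries A) :
    incl A σ = ((PowerSeries.map A.subtype σ : PowerSeries K) : LaurentSeries K) := rfl

theorem incl_injective : Function.Injective (incl A) := by
  intro σ τ h
  have h1 : PowerSeries.map A.subtype σ = PowerSeries.map A.subtype τ :=
    HahnSeries.ofPowerSeries_injective h
  ext n
  have h2 := congrArg (PowerSeries.coeff n) h1
  rw [PowerSeries.coeff_map, PowerSeries.coeff_map] at h2
  exact congrArg Subtype.val (Subtype.ext h2)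

/-- **Transport of integrality** along a ring homomorphism `ι : F → K((q))` which maps `A` to
constants and `s` to a series of `A[[q]]`. -/
theorem isIntegralElem_of_adjoin {F : Type*} [CommRing F] [Algebra A F]
    (ι : F →+* LaurentSeries K)
    (hι : ∀ a : A, ∃ τ : PowerSeries A, ι (algebraMap A F a) = incl A τ)
    {s : F} (σ : PowerSeries A) (hs : ι s = incl A σ) {y : F}
    (hy : IsIntegral (Algebra.adjoin A ({s} : Set F)) y) : (incl A).IsIntegralElem (ι y) := by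
  classical
  have hmem : ∀ c ∈ Algebra.adjoin A ({s} : Set F), ι c ∈ (incl A).range := by
    intro c hc
    induction hc using Algebra.adjoin_induction with
    | mem x hx =>
      rw [Set.mem_singleton_iff] at hx
      rw [hx, hs]
      exact ⟨σ, rfl⟩
    | algebraMap a =>
      obtain ⟨τ, hτ⟩ := hι a
      exact ⟨τ, hτ.symm⟩
    | add x z _ _ hx hz => rw [map_add]; exact (incl A).range.add_mem hx hz
    | mul x z _ _ hx hz => rw [map_mul]; exact (incl A).range.mul_mem hx hz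
  let e : PowerSeries A ≃+* (incl A).range :=
    RingEquiv.ofBijective (incl A).rangeRestrict
      ⟨fun a b hab => incl_injective A (congrArg Subtype.val hab),
        (incl A).rangeRestrict_surjective⟩
  let φ : Algebra.adjoin A ({s} : Set F) →+* (incl A).range :=
    (ι.comp (algebraMap (Algebra.adjoin A ({s} : Set F)) F)).codRestrict (incl A).range
      (fun c => hmem c c.2)
  let ψ₀ : Algebra.adjoin A ({s} : Set F) →+* PowerSeries A := e.symm.toRingHom.comp φ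
  have hcomp : (incl A).comp ψ₀ = ι.comp (algebraMap (Algebra.adjoin A ({s} : Set F)) F) := by
    ext1 c
    have h1 : incl A (e.symm (φ c)) = ((e (e.symm (φ c)) : (incl A).range) : LaurentSeries K) := rfl
    show incl A (e.symm (φ c)) = _
    rw [h1, RingEquiv.apply_symm_apply]
    rfl
  obtain ⟨p, hp, hpy⟩ := hy
  refine ⟨p.map ψ₀, hp.map _, ?_⟩
  rw [Polynomial.eval₂_map, hcomp, ← Polynomial.hom_eval₂, hpy, map_zero]

/-- **Evaluation at `q = 0`**: a Laurent series which is integral over `A[[q]]` is a power series,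
and its constant coefficient lies in `A`. -/
theorem exists_powerSeries_of_isIntegralElem {y : LaurentSeries K}
    (hy : (incl A).IsIntegralElem y) :
    ∃ y₀ : PowerSeries K, y = (y₀ : LaurentSeries K) ∧ PowerSeries.constantCoeff y₀ ∈ A := by
  obtain ⟨p, hp, hpy⟩ := hy
  have h1 : IsIntegral (PowerSeries K) y := by
    refine ⟨p.map (PowerSeries.map A.subtype), hp.map _, ?_⟩
    rw [Polynomial.eval₂_map]
    exact hpy
  obtain ⟨y₀, rfl⟩ := IsIntegrallyClosed.isIntegral_iff.mp h1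
  refine ⟨y₀, rfl, ?_⟩
  -- pull the equation back to `K[[q]]`
  have h2 : Polynomial.eval₂ (PowerSeries.map A.subtype) y₀ p = 0 := by
    have hinj : Function.Injective (HahnSeries.ofPowerSeries ℤ K) :=
      HahnSeries.ofPowerSeries_injective
    apply hinj
    rw [map_zero, Polynomial.hom_eval₂]
    exact hpy
  -- evaluate at `q = 0`
  have h3 := congrArg (PowerSeries.constantCoeff (R := K)) h2
  rw [map_zero, Polynomial.hom_eval₂] at h3
  have hcomm : (PowerSeries.constantCoeff (R := K)).comp (PowerSeries.map A.subtype)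
      = A.subtype.comp (PowerSeries.constantCoeff (R := A)) := by
    ext σ
    simp only [RingHom.comp_apply, ← PowerSeries.coeff_zero_eq_constantCoeff_apply,
      PowerSeries.coeff_map]
  rw [hcomm, ← Polynomial.eval₂_map] at h3
  have h4 : IsIntegral A (PowerSeries.constantCoeff y₀) :=
    ⟨p.map PowerSeries.constantCoeff, hp.map _, h3⟩
  obtain ⟨a, ha⟩ := IsIntegrallyClosed.isIntegral_iff.mp h4
  rw [← ha]
  exact a.2

/-- the same, in the `order`/`coeff` form. -/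
theorem order_coeff_of_isIntegralElem {y : LaurentSeries K}
    (hy : (incl A).IsIntegralElem y) : 0 ≤ y.order ∧ y.coeff 0 ∈ A := by
  obtain ⟨y₀, rfl, h0⟩ := exists_powerSeries_of_isIntegralElem A hy
  refine ⟨?_, ?_⟩
  · by_cases hz : ((y₀ : PowerSeries K) : LaurentSeries K) = 0
    · rw [hz, HahnSeries.order_zero]
    · refine (HahnSeries.le_order_iff_forall hz).mpr fun j hj => ?_
      rw [PowerSeries.coeff_coe, if_pos hj]
  · rw [PowerSeries.coeff_coe]
    simpa using h0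

end Eval

/-! ### (S1) in the `ChartCoord` vocabulary -/

section Chart

variable {K : Type*} [Field K] {A : ValuationSubring K} {F : Type*} [Field F] [Algebra K F]
  {S : SmallRing F} {k κ : Type*} [Field k] [CommRing κ] [Algebra k κ]
  {R : RedSetup2 A S k κ} (C : ChartCoord R)

/-- **(S1)**: `L((b+1) C∞) ∩ O = (L(b C∞) ∩ O) + t (L(b C∞) ∩ O)` for `b ≥ b₁`. -/
theorem exists_lat_succ (hcart : ∀ b, (R.lat (C.LN 0 b)).FG)
    (hPfin : ∀ b, Module.Finite k (C.Pk 0 b)) (b₀ : ℕ)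
    (hP : ∀ b, b₀ ≤ b → ∀ p ∈ C.Pk 0 (b + 1), ∃ p₁ ∈ C.Pk 0 b, ∃ p₂ ∈ C.Pk 0 b,
      p = p₁ + C.T * p₂) :
    ∃ b₁ : ℕ, ∀ b, b₁ ≤ b → ∀ y ∈ R.lat (C.LN 0 (b + 1)),
      ∃ y₁ ∈ R.lat (C.LN 0 b), ∃ y₂ ∈ R.lat (C.LN 0 b), y = y₁ + C.t * y₂ := by
  classical
  -- the algebra structures (pattern of `Lattice2/UBBridge.exists_sat_overlap`)
  let φ : A →+* S.O :=
    ((algebraMap K F).comp A.subtype).codRestrict S.O (fun a => R.algebraMap_mem a)
  letI algO : Algebra A S.O := φ.toAlgebra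
  letI algk : Algebra A k := R.π.toAlgebra
  letI algκ : Algebra A κ := ((algebraMap k κ).comp R.π).toAlgebra
  haveI : IsScalarTower A k κ := IsScalarTower.of_algebraMap_eq (fun _ => rfl)
  have hk : Function.Surjective (algebraMap A k) := R.π_surj
  let ρ : S.O →ₐ[A] κ := { R.res with commutes' := fun a => R.res_algebraMap a }
  let t : (S.O)ˣ := ⟨⟨C.t, C.t_mem⟩, ⟨C.t⁻¹, C.tinv_mem⟩, Subtype.ext C.t_mul_tinv,
    Subtype.ext (by rw [mul_comm]; exact C.t_mul_tinv)⟩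
  have hcoe_smul : ∀ (a : A) (x : S.O), ((a • x : S.O) : F) = a • (x : F) := by
    intro a x
    rw [Algebra.smul_def, R.smul_eq]
    rfl
  let L : ℕ → Submodule A S.O := fun b =>
    { carrier := {x | (x : F) ∈ C.LN 0 b}
      zero_mem' := (C.LN 0 b).zero_mem
      add_mem' := fun hx hy => (C.LN 0 b).add_mem hx hy
      smul_mem' := fun a x hx => by
        show ((a • x : S.O) : F) ∈ C.LN 0 b
        rw [hcoe_smul]
        exact (C.LN 0 b).smul_mem (a : K) hx }
  have hL : ∀ (b : ℕ) (x : S.O), x ∈ L b ↔ (x : F) ∈ C.LN 0 b := fun _ _ => Iff.rfl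
  have hmono : Monotone L := fun b b' h x hx => C.LN_mono le_rfl h hx
  have htL : ∀ b, ∀ f ∈ L b, (t : S.O) * f ∈ L (b + 1) := by
    intro b f hf
    show C.t * (f : F) ∈ C.LN 0 (b + 1)
    exact (T_mul_mem_twoPole_iff C.t_mul_tinv).mpr (C.LN_mono (Nat.zero_le 1) le_rfl hf)
  have hunram : ∀ z : S.O, ρ z = 0 → ∃ ϖ ∈ maximalIdeal A, ∃ y : S.O, z = ϖ • y ∧
      (ϖ ≠ 0 → (y : F) = ((ϖ : A) : K)⁻¹ • (z : F)) := by
    intro z hz
    have hsmall : Small S (z : F) := (R.small_iff z.2).mpr hz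
    obtain ⟨ϖ, hϖ, y, hy, hzy⟩ := R.base.unram _ hsmall
    refine ⟨ϖ, hϖ, ⟨y, hy⟩, Subtype.ext ?_, fun hϖ0 => ?_⟩
    · rw [hcoe_smul]
      exact hzy
    · show y = _
      rw [hzy]
      have h3 : ϖ • y = ((ϖ : A) : K) • y := rfl
      rw [h3, smul_smul, inv_mul_cancel₀ (by exact_mod_cast hϖ0), one_smul]
  have hfg : ∀ b, (L b).FG := by
    intro b
    let incO : S.O →ₗ[A] F :=
      { toFun := fun x => (x : F)
        map_add' := fun _ _ => rfl
        map_smul' := fun a x => hcoe_smul a x }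
    have hinj : Function.Injective incO := fun x y h => Subtype.ext h
    have hmap : (L b).map incO = R.lat (C.LN 0 b) := by
      ext y
      constructor
      · rintro ⟨x, hx, rfl⟩
        exact ⟨hx, x.2⟩
      · rintro ⟨hyV, hyO⟩
        exact ⟨⟨y, hyO⟩, hyV, rfl⟩
    exact Submodule.fg_of_fg_map_injective incO hinj (hmap ▸ hcart b)
  have hker : ∀ b, ∀ f ∈ L b, ρ f = 0 → f ∈ maximalIdeal A • L b := by
    intro b f hf hf0
    obtain ⟨ϖ, hϖ, y, hfy, hy⟩ := hunram f hf0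
    by_cases hϖ0 : ϖ = 0
    · rw [hfy, hϖ0, zero_smul]
      exact Submodule.zero_mem _
    · rw [hfy]
      refine Submodule.smul_mem_smul hϖ ?_
      show (y : F) ∈ C.LN 0 b
      rw [hy hϖ0]
      exact (C.LN 0 b).smul_mem _ hf
  have hPmono : Monotone fun b => C.Pk 0 b := fun _ _ h => C.Pk_mono le_rfl h
  have hTP : ∀ b, ∀ p ∈ C.Pk 0 b, ρ (t : S.O) * p ∈ C.Pk 0 (b + 1) := by
    intro b p hp
    exact (T_mul_mem_twoPole_iff C.T_mul_Ti).mpr (C.Pk_mono (Nat.zero_le 1) le_rfl hp)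
  have hLP : ∀ b, ∀ f ∈ L b, ρ f ∈ C.Pk 0 b := fun b f hf => C.SC 0 b f.1 f.2 hf
  obtain ⟨b₁, hS1, -, -, -⟩ := exists_saturationK hk ρ t hmono htL hfg hker
    (fun b => C.Pk 0 b) hPmono hTP hPfin hLP b₀ hP
  refine ⟨b₁, fun b hb y hy => ?_⟩
  have hyL : (⟨y, hy.2⟩ : S.O) ∈ L (b + 1) := hy.1
  rw [hS1 b hb, Submodule.mem_sup] at hyL
  obtain ⟨y₁, hy₁, y₂', hy₂', hsum⟩ := hyL
  rw [mem_tw_iff] at hy₂'
  refine ⟨(y₁ : F), ⟨hy₁, y₁.2⟩, ((upow t (-1) * y₂' : S.O) : F), ⟨hy₂', (upow t (-1) * y₂').2⟩, ?_⟩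
  have h1 := congrArg (fun z : S.O => (z : F)) hsum
  simp only at h1
  rw [← h1]
  have h2 : ((upow t (-1) * y₂' : S.O) : F) = C.t⁻¹ * (y₂' : F) := by
    have : upow t (-1) = ((t⁻¹ : (S.O)ˣ) : S.O) := by simp [upow]
    rw [this]
    rfl
  rw [h2, ← mul_assoc, C.t_mul_tinv, one_mul]
  rfl

/-- `L(a C₀) ∩ O = t⁻ᵃ (L(a C∞) ∩ O)` is a finite `A`-module. -/
theorem fg_lat_zero (hcart : ∀ b, (R.lat (C.LN 0 b)).FG) (a : ℕ) : (R.lat (C.LN a 0)).FG := by
  have hmap : R.lat (C.LN a 0) = (R.lat (C.LN 0 a)).map (LinearMap.mulLeft A (C.t⁻¹ ^ a)) := by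
    ext y
    rw [Submodule.mem_map]
    constructor
    · intro hy
      have h1 : C.t ^ a * y ∈ Lam C 0 (a + 0) := (Lam_twist C a 0 y).mp hy
      rw [add_zero] at h1
      refine ⟨C.t ^ a * y, h1, ?_⟩
      rw [LinearMap.mulLeft_apply, ← mul_assoc, ← mul_pow, inv_mul_cancel₀ C.t_ne, one_pow,
        one_mul]
    · rintro ⟨w, hw, rfl⟩
      rw [LinearMap.mulLeft_apply]
      refine (Lam_twist C a 0 _).mpr ?_
      rw [add_zero, ← mul_assoc, ← mul_pow, C.t_mul_tinv, one_pow, one_mul]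
      exact hw
  rw [hmap]
  exact (hcart a).map _

/-- **(S1) at the other chart**: `L((a+1) C₀) ∩ O = (L(a C₀) ∩ O) + t⁻¹ (L(a C₀) ∩ O)` for
`a ≥ b₁` (the twist of `exists_lat_succ` by `t⁻ᵃ⁻¹`; no second Riemann-Roch input). -/
theorem exists_lat_succ_zero (hcart : ∀ b, (R.lat (C.LN 0 b)).FG)
    (hPfin : ∀ b, Module.Finite k (C.Pk 0 b)) (b₀ : ℕ)
    (hP : ∀ b, b₀ ≤ b → ∀ p ∈ C.Pk 0 (b + 1), ∃ p₁ ∈ C.Pk 0 b, ∃ p₂ ∈ C.Pk 0 b,
      p = p₁ + C.T * p₂) :
    ∃ b₁ : ℕ, ∀ b, b₁ ≤ b → ∀ y ∈ R.lat (C.LN (b + 1) 0),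
      ∃ y₁ ∈ R.lat (C.LN b 0), ∃ y₂ ∈ R.lat (C.LN b 0), y = y₁ + C.t⁻¹ * y₂ := by
  obtain ⟨b₁, hb₁⟩ := exists_lat_succ C hcart hPfin b₀ hP
  refine ⟨b₁, fun b hb y hy => ?_⟩
  have h1 : C.t ^ (b + 1) * y ∈ Lam C 0 (b + 1 + 0) := (Lam_twist C (b + 1) 0 y).mp hy
  rw [add_zero] at h1
  obtain ⟨w₁, hw₁, w₂, hw₂, hsum⟩ := hb₁ b hb _ h1
  have htw : ∀ w ∈ R.lat (C.LN 0 b), C.t⁻¹ ^ b * w ∈ R.lat (C.LN b 0) := by
    intro w hw
    refine (Lam_twist C b 0 _).mpr ?_
    rw [add_zero, ← mul_assoc, ← mul_pow, C.t_mul_tinv, one_pow, one_mul]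
    exact hw
  refine ⟨C.t⁻¹ ^ b * w₂, htw w₂ hw₂, C.t⁻¹ ^ b * w₁, htw w₁ hw₁, ?_⟩
  have h2 : y = C.t⁻¹ ^ (b + 1) * (C.t ^ (b + 1) * y) := by
    rw [← mul_assoc, ← mul_pow, inv_mul_cancel₀ C.t_ne, one_pow, one_mul]
  have h3 : C.t⁻¹ * C.t = 1 := inv_mul_cancel₀ C.t_ne
  rw [h2, hsum, pow_succ]
  linear_combination (C.t⁻¹ ^ b * w₂) * h3

/-- every element of `L(b C∞) ∩ O` is integral over `A[t]`. -/
theorem isIntegral_of_mem_lat_oo (hcart : ∀ b, (R.lat (C.LN 0 b)).FG)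
    (hPfin : ∀ b, Module.Finite k (C.Pk 0 b)) (b₀ : ℕ)
    (hP : ∀ b, b₀ ≤ b → ∀ p ∈ C.Pk 0 (b + 1), ∃ p₁ ∈ C.Pk 0 b, ∃ p₂ ∈ C.Pk 0 b,
      p = p₁ + C.T * p₂) {b : ℕ} {y : F} (hy : y ∈ R.lat (C.LN 0 b)) :
    IsIntegral (Algebra.adjoin A ({C.t} : Set F)) y := by
  obtain ⟨b₁, hb₁⟩ := exists_lat_succ C hcart hPfin b₀ hP
  exact isIntegral_of_succ (fun b => Lam C 0 b) (fun b b' h => Lam_mono C le_rfl h) C.t b₁ hb₁
    (hcart b₁) (fun b b' x y hx hy => by simpa using Lam_mul C hx hy) (one_mem_Lam C) hy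

/-- every element of `L(a C₀) ∩ O` is integral over `A[t⁻¹]`. -/
theorem isIntegral_of_mem_lat_zero (hcart : ∀ b, (R.lat (C.LN 0 b)).FG)
    (hPfin : ∀ b, Module.Finite k (C.Pk 0 b)) (b₀ : ℕ)
    (hP : ∀ b, b₀ ≤ b → ∀ p ∈ C.Pk 0 (b + 1), ∃ p₁ ∈ C.Pk 0 b, ∃ p₂ ∈ C.Pk 0 b,
      p = p₁ + C.T * p₂) {a : ℕ} {y : F} (hy : y ∈ R.lat (C.LN a 0)) :
    IsIntegral (Algebra.adjoin A ({C.t⁻¹} : Set F)) y := by
  obtain ⟨b₁, hb₁⟩ := exists_lat_succ_zero C hcart hPfin b₀ hP
  exact isIntegral_of_succ (fun a => Lam C a 0) (fun a a' h => Lam_mono C h le_rfl) C.t⁻¹ b₁ hb₁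
    (fg_lat_zero C hcart b₁) (fun b b' x y hx hy => by simpa using Lam_mul C hx hy)
    (one_mem_Lam C) hy

/-- the chart ring `B∞` is integral over `A[t]`. -/
theorem isIntegral_of_mem_BooAlg (hcart : ∀ b, (R.lat (C.LN 0 b)).FG)
    (hPfin : ∀ b, Module.Finite k (C.Pk 0 b)) (b₀ : ℕ)
    (hP : ∀ b, b₀ ≤ b → ∀ p ∈ C.Pk 0 (b + 1), ∃ p₁ ∈ C.Pk 0 b, ∃ p₂ ∈ C.Pk 0 b,
      p = p₁ + C.T * p₂) {y : F} (hy : y ∈ BooAlg C) :
    IsIntegral (Algebra.adjoin A ({C.t} : Set F)) y := by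
  obtain ⟨b, hb⟩ := (mem_BooAlg C).mp hy
  exact isIntegral_of_mem_lat_oo C hcart hPfin b₀ hP hb

/-- the chart ring `B₀` is integral over `A[t⁻¹]`. -/
theorem isIntegral_of_mem_BzeroAlg (hcart : ∀ b, (R.lat (C.LN 0 b)).FG)
    (hPfin : ∀ b, Module.Finite k (C.Pk 0 b)) (b₀ : ℕ)
    (hP : ∀ b, b₀ ≤ b → ∀ p ∈ C.Pk 0 (b + 1), ∃ p₁ ∈ C.Pk 0 b, ∃ p₂ ∈ C.Pk 0 b,
      p = p₁ + C.T * p₂) {y : F} (hy : y ∈ BzeroAlg C) :
    IsIntegral (Algebra.adjoin A ({C.t⁻¹} : Set F)) y := by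
  obtain ⟨a, ha⟩ := (mem_BzeroAlg C).mp hy
  exact isIntegral_of_mem_lat_zero C hcart hPfin b₀ hP ha

end Chart

/-! ### Inside the context bundle -/

section Bundle

open Fermat.Agent.S33x.Cech.CtxMq

variable {K : Type*} [Field K] [IsAlgClosed K] [CharZero K] {A : ValuationSubring K}
  {F : Type*} [Field F] [Algebra K F] {S : SmallRing F}
  {k : Type*} [Field k] [IsAlgClosed k] {E : Type*} [Field E] [Algebra k E]
  {R : RedSetup2 A S k (E × E)} {C : ChartCoord R} {p q : ℕ} {x : E} {Dt : Divisor K F}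

/-- **`B∞` is integral over `A[t]`.** -/
theorem isIntegral_BooAlg (h : Ctx R C p q x Dt) {y : F} (hy : y ∈ BooAlg C) :
    IsIntegral (Algebra.adjoin A ({C.t} : Set F)) y := by
  obtain ⟨b₀, hb₀⟩ := h.exists_hgen
  exact isIntegral_of_mem_BooAlg C h.fg_lat_LN (h.finite_Pk 0) b₀ hb₀ hy

/-- **`B₀` is integral over `A[t⁻¹]`.** -/
theorem isIntegral_BzeroAlg (h : Ctx R C p q x Dt) {y : F} (hy : y ∈ BzeroAlg C) :
    IsIntegral (Algebra.adjoin A ({C.t⁻¹} : Set F)) y := by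
  obtain ⟨b₀, hb₀⟩ := h.exists_hgen
  exact isIntegral_of_mem_BzeroAlg C h.fg_lat_LN (h.finite_Pk 0) b₀ hb₀ hy

/-- **Cusp value, bundle form**: if `ι : F → K((q))` is a ring embedding which is the identity on
constants, with `ι t⁻¹ ∈ A[[q]]`, every element of `B₀` has a power series expansion whose constant
coefficient lies in `A`. -/
theorem cusp_value_of_ctx (h : Ctx R C p q x Dt) (ι : F →+* LaurentSeries K)
    (hι : ∀ a : K, ι (algebraMap K F a) = HahnSeries.C a)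
    (σ : PowerSeries A) (hσ : ι C.t⁻¹ = incl A σ) {y : F} (hy : y ∈ BzeroAlg C) :
    0 ≤ (ι y).order ∧ (ι y).coeff 0 ∈ A := by
  refine order_coeff_of_isIntegralElem A
    (isIntegralElem_of_adjoin A ι (fun a => ⟨PowerSeries.C a, ?_⟩) σ hσ
      (isIntegral_BzeroAlg h hy))
  have h1 : algebraMap A F a = algebraMap K F (a : K) := rfl
  rw [h1, hι, incl_apply, PowerSeries.map_C, HahnSeries.ofPowerSeries_C (Γ := ℤ)]
  rfl

end Bundle

/-! ### The concrete level `M q` over `Qbar` -/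

section Concrete

open ModularCurve
open Fermat.Agent.Gateway.C0
open Fermat.Agent.Gateway.Hecke Fermat.Agent.Gateway.ESC
open Fermat.Agent.Gateway.Red Fermat.Agent.Gateway.GoodRed
open Fermat.Agent.Gateway.GoodRed.ConjFamily
open Fermat.Agent.S34x.TwoVal
open Fermat.Agent.S34x.Inst.L2 Fermat.Agent.S34x.Inst.IsL2Inst
open Fermat.Agent.S34x.Inst.RedSetupInst Fermat.Agent.S34x.Inst.ElementYRed
open Fermat.Agent.S34x.Inst.ElementYInt Fermat.Agent.S34x.Inst.Charts
open Fermat.Agent.S34x.Inst Fermat.Agent.S34x.Inst.TheoremBMq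
open Fermat.Agent.S33x.Cech.CtxMq

attribute [-instance] IsScalarTower.of_algHom

local notation "Qbar" => AlgebraicClosure ℚ

variable {P : ValuationSubring Qbar} {k : Type} [Field k] {π : P →+* k} [IsAlgClosed k]
variable {M q : ℕ} [NeZero M] [NeZero q] [Fact q.Prime] [CharP k q]
variable {hdeg : finrankAlong Qbar (heckeAlphaBar Qbar M q) = q + 1} {hq : q.Prime}
  {hqM : ¬ q ∣ M}
variable {hrk : ∀ x ∈ maximalIdeal P, ∀ c : P, c ≠ 0 → ∃ j : ℕ, c ∣ x ^ j}
  {hπ : Function.Surjective π}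
variable (H : ResidueFacts P π M q hdeg hq hqM hrk hπ) (hA : P.LiesOverPrime q)
  (x : LaurentSeries ℤ) (hx : coeffMap (Int.castRingHom Qbar) x ∈ FBar Qbar M)
  (Hx : GoodLevelFactsT P π M q hπ hqM (tInt M x hx))

include Hx hA in
/-- **(AS-CUSP) at the concrete level `M q`**: if the expansion of `t⁻¹` at the Laurent cusp lies
in `P[[q]]`, every element of the chart ring `B₀` (the chart `t ≠ 0`, which contains the Laurent
cusp) is a power series in `q` whose value at `q = 0` lies in `P`. -/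
theorem cusp_value_Mq [PerfectRing k q] (C : ChartCoord (redSetup2 H hA))
    (hCt : C.t = tA M q x hx) (hxk : tbar k x ≠ 0) (hY : YFacts M q x hx)
    (σ : PowerSeries P)
    (hσ : ((C.t⁻¹ : FL Qbar (M * q)) : LaurentSeries Qbar) = incl P σ)
    {y : FL Qbar (M * q)} (hy : y ∈ BzeroAlg C) :
    0 ≤ (y : LaurentSeries Qbar).order ∧ (y : LaurentSeries Qbar).coeff 0 ∈ P := by
  haveI : Algebra.IsAlgebraic ℚ Qbar := AlgebraicClosure.isAlgebraic ℚ
  haveI : CharZero Qbar := algebraRat.charZero Qbar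
  have ht : Transcendental Qbar C.t := by
    rw [hCt]
    exact Charts.transcendental_tα Qbar M q Hx.trans
  haveI hfin : FiniteDimensional Qbar⟮C.t⟯ (FL Qbar (M * q)) := by
    rw [hCt]
    exact finiteDimensional_tA x hx Hx
  have hctx := ctx_of_chart H hA x hx Hx C hCt hxk hY (Dt := Charts.divT ht) (Charts.divT_apply ht)
  refine cusp_value_of_ctx hctx ((FBar Qbar (M * q)).val : FL Qbar (M * q) →+* LaurentSeries Qbar)
    (fun a => ?_) σ hσ hy
  show algebraMap Qbar (LaurentSeries Qbar) a = _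
  rw [HahnSeries.algebraMap_apply', PowerSeries.algebraMap_apply, Algebra.algebraMap_self_apply,
    HahnSeries.ofPowerSeries_C]

include Hx hA in
/-- **(AS-CUSP), integral form of the hypothesis**: `t` has the integer expansion `x`, and `x` has
an inverse `x' ∈ ℤ[[q]]` (e.g. `x = q⁻ᵐ (±1 + ⋯)`, `m ≥ 0`). -/
theorem cusp_value_Mq_int [PerfectRing k q] (C : ChartCoord (redSetup2 H hA))
    (hCt : C.t = tA M q x hx) (hxk : tbar k x ≠ 0) (hY : YFacts M q x hx)
    (x' : PowerSeries ℤ) (hx' : x * HahnSeries.ofPowerSeries ℤ ℤ x' = 1)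
    {y : FL Qbar (M * q)} (hy : y ∈ BzeroAlg C) :
    0 ≤ (y : LaurentSeries Qbar).order ∧ (y : LaurentSeries Qbar).coeff 0 ∈ P := by
  refine cusp_value_Mq H hA x hx Hx C hCt hxk hY (x'.map (Int.castRingHom P)) ?_ hy
  have h1 : ((C.t : FL Qbar (M * q)) : LaurentSeries Qbar) = coeffMap (Int.castRingHom Qbar) x := by
    rw [hCt]
    rfl
  have hmap : PowerSeries.map P.subtype (PowerSeries.map (Int.castRingHom P) x')
      = PowerSeries.map (Int.castRingHom Qbar) x' := by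
    ext n
    simp only [PowerSeries.coeff_map]
    simp
  have h2 : coeffMap (Int.castRingHom Qbar) x * incl P (x'.map (Int.castRingHom P)) = 1 := by
    have h3 := congrArg (coeffMap (Int.castRingHom Qbar)) hx'
    rw [map_mul, map_one, ModularCurve.coeffMap_ofPowerSeries] at h3
    rw [incl_apply, hmap]
    exact h3
  rw [IntermediateField.coe_inv, h1]
  exact (eq_inv_of_mul_eq_one_right h2).symm

end Concrete

end Fermat.Agent.S40x.AS.CuspValueB
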