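import Mathlib

/-!
# P-S44, block C3, leaf AS-CUSP, abstract half (helper46): integrality from a filtration

`W` a commutative ring, `F` a domain over `W`, `t : F`, `M : ℕ → Submodule W F` an increasing
multiplicative filtration (`1 ∈ M 0`, `M a * M b ⊆ M (a + b)`) with `M b₁` finitely generated and
generated in degree one from `b₁` on: `M (b + 1) ⊆ M b + t • M b` for `b ≥ b₁`.

`isIntegral_adjoin_of_filtration` : every element of every `M a` is integral over `W[t]`.

(The `W[t]`-span `N` of `M b₁` is a finitely generated `W[t]`-module containing every `M b` and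
stable under multiplication by every `M a`.)

Application (`AS/CuspValue.lean`): `M a = L(a C₀) ∩ O` (functions of the chart `t ≠ 0` with poles
of order `≤ a` over `t = 0`, integral for both Gauss valuations), `t := t⁻¹`; the graded Nakayama
statement is the landed `S33x/H1/InstC1.exists_S1` after the twist by `t`.
-/

set_option autoImplicit false
set_option linter.unusedSectionVars false

namespace Fermat.Agent.S40x.AS.FiltIntegral

variable {W F : Type*} [CommRing W] [CommRing F] [IsDomain F] [Algebra W F]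

/-- every `M b` lies in the `W[t]`-span of `M b₁`. -/
theorem le_span (t : F) (M : ℕ → Submodule W F) (hmono : ∀ b, M b ≤ M (b + 1)) (b₁ : ℕ)
    (hgen : ∀ b, b₁ ≤ b → ∀ x ∈ M (b + 1), ∃ y ∈ M b, ∃ z ∈ M b, x = y + t * z) (b : ℕ)
    {x : F} (hx : x ∈ M b) :
    x ∈ Submodule.span (Algebra.adjoin W {t}) (M b₁ : Set F) := by
  have hmono' : Monotone M := monotone_nat_of_le_succ hmono
  by_cases hb : b ≤ b₁
  · exact Submodule.subset_span (hmono' hb hx)
  · obtain ⟨d, rfl⟩ := Nat.exists_eq_add_of_le (not_le.mp hb).le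
    clear hb
    induction d generalizing x with
    | zero => exact Submodule.subset_span hx
    | succ d ih =>
      obtain ⟨y, hy, z, hz, rfl⟩ := hgen (b₁ + d) (Nat.le_add_right _ _) x hx
      refine Submodule.add_mem _ (ih hy) ?_
      have ht : t ∈ Algebra.adjoin W {t} := Algebra.subset_adjoin (Set.mem_singleton t)
      have h1 := Submodule.smul_mem _ (⟨t, ht⟩ : Algebra.adjoin W {t}) (ih hz)
      exact h1

/-- **integrality over `W[t]`.** -/
theorem isIntegral_adjoin_of_filtration (t : F) (M : ℕ → Submodule W F)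
    (hmono : ∀ b, M b ≤ M (b + 1)) (hone : (1 : F) ∈ M 0)
    (hmul : ∀ a b, ∀ x ∈ M a, ∀ y ∈ M b, x * y ∈ M (a + b)) (b₁ : ℕ) (hfg : (M b₁).FG)
    (hgen : ∀ b, b₁ ≤ b → ∀ x ∈ M (b + 1), ∃ y ∈ M b, ∃ z ∈ M b, x = y + t * z)
    {a : ℕ} {x : F} (hx : x ∈ M a) : IsIntegral (Algebra.adjoin W {t}) x := by
  classical
  set R := Algebra.adjoin W {t} with hR
  set N : Submodule R F := Submodule.span R (M b₁ : Set F) with hN
  have hle : ∀ b, ∀ y ∈ M b, y ∈ N := fun b y hy => le_span t M hmono b₁ hgen b hy
  have hNne : N ≠ ⊥ := by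
    intro h
    have h1 : (1 : F) ∈ N := hle 0 1 hone
    rw [h, Submodule.mem_bot] at h1
    exact one_ne_zero h1
  have hNfg : N.FG := by
    obtain ⟨s, hs⟩ := hfg
    refine ⟨s, ?_⟩
    rw [hN, ← hs, Submodule.span_span_of_tower]
  refine isIntegral_of_smul_mem_submodule N hNne hNfg x fun n hn => ?_
  rw [smul_eq_mul]
  refine Submodule.span_induction (p := fun n _ => x * n ∈ N) ?_ ?_ ?_ ?_ hn
  · intro m hm
    exact hle _ _ (hmul a b₁ x hx m hm)
  · rw [mul_zero]; exact N.zero_mem
  · intro u v _ _ hu hv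
    rw [mul_add]; exact N.add_mem hu hv
  · intro r u _ hu
    have : x * (r • u) = r • (x * u) := by
      rw [Algebra.smul_def, Algebra.smul_def]; ring
    rw [this]
    exact N.smul_mem r hu

end Fermat.Agent.S40x.AS.FiltIntegral
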