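import Fermat.Agent.S33x.W.InstW
import Fermat.Agent.S40x.W.G1

/-!
# P-S44, leaf C3-AS, the AS/ET seam (helper57): integrality over the inertia-fixed chart ring

The consumer C3-ET only needs that `θ = (z / h - 1) / π` is INTEGRAL over the node ring `R_s`, a
localisation of `W.InstW.fixedAlg Γ_I (BxAlg C)` (`Γ_I` = inertia).  The (AS) normal form produces
`G` in a chart ring, fixed by the smaller group `Γ₁ = G1Act` only.  No isotypic decomposition and
no uniformiser `ϖ` with `ϖ ^ (p-1) = -p` is needed: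

* `isIntegral_fixedAlg_of_orbit` : if `x` lies in a finite `Γ`-stable subset `T` of a subalgebra
  `B`, then `x` is integral over `fixedAlg Γ B` (root of `∏_{y ∈ T} (X - y)`);
* `isIntegral_of_isFixed_G1Act` : at level `N`, a `G1Act`-fixed element of an inertia-stable
  subalgebra `B` is integral over `fixedAlg (inertiaAct P N) B` (its orbit is indexed by the inertia
  conjugates of `ζ`).
-/

set_option autoImplicit false

noncomputable section

namespace Fermat.Agent.S40x.AS.IntegralSeam

open AlgebraicCurve Polynomial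
open Fermat.Agent.S19x.Geo.LatticeFixed (IsFixed)
open Fermat.Agent.S33x.H1.FixedDecomp Fermat.Agent.S33x.W.InstW

section Abstract

variable {K : Type*} [Field K] {A : ValuationSubring K} {F : Type*} [Field F] [Algebra K F]
variable (Γ : Set (SemilinearAut K F))

/-- the product `∏_{y ∈ T} (X - y)` is invariant under a ring automorphism permuting `T`. -/
theorem map_prod_X_sub_C_eq (T : Finset F) (s : SemilinearAut K F)
    (hT : ∀ y ∈ T, s • y ∈ T) :
    (∏ y ∈ T, (X - C y)).map (SemilinearAut.toRingAut s : F →+* F) = ∏ y ∈ T, (X - C y) := by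
  classical
  rw [Polynomial.map_prod]
  have himg : T.image (fun y => s • y) = T := by
    apply Finset.eq_of_subset_of_card_le
    · intro y hy
      obtain ⟨y', hy', rfl⟩ := Finset.mem_image.mp hy
      exact hT y' hy'
    · rw [Finset.card_image_of_injective _ (MulAction.injective s)]
  calc ∏ y ∈ T, (X - C y).map (SemilinearAut.toRingAut s : F →+* F)
      = ∏ y ∈ T, (X - C (s • y)) := by
        refine Finset.prod_congr rfl fun y _ => ?_
        rw [Polynomial.map_sub, Polynomial.map_X, Polynomial.map_C]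
        rfl
    _ = ∏ y ∈ T.image (fun y => s • y), (X - C y) := by
        rw [Finset.prod_image]
        intro a _ b _ hab
        exact MulAction.injective s hab
    _ = ∏ y ∈ T, (X - C y) := by rw [himg]

/-- **Integrality over the fixed subalgebra**: an element with a finite `Γ`-stable orbit inside a
subalgebra `B` is integral over `fixedAlg Γ B`. -/
theorem isIntegral_fixedAlg_of_orbit (B : Subalgebra A F) (T : Finset F)
    (hTB : ∀ y ∈ T, y ∈ B) (hT : ∀ s ∈ Γ, ∀ y ∈ T, s • y ∈ T) {x : F} (hx : x ∈ T) :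
    IsIntegral (fixedAlg Γ B) x := by
  classical
  set Pl : F[X] := ∏ y ∈ T, (X - C y) with hPl
  have hmonic : Pl.Monic := monic_prod_of_monic _ _ fun y _ => monic_X_sub_C y
  -- the coefficients lie in `B`
  have hcoeffB : ∀ i, Pl.coeff i ∈ B := by
    intro i
    have h1 : Pl = (∏ y ∈ T.attach, (X - C (⟨y.1, hTB y.1 y.2⟩ : B))).map (algebraMap B F) := by
      rw [Polynomial.map_prod, hPl, ← Finset.prod_attach]
      refine Finset.prod_congr rfl fun y _ => ?_
      rw [Polynomial.map_sub, Polynomial.map_X, Polynomial.map_C]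
      rfl
    rw [h1, Polynomial.coeff_map]
    exact Subtype.mem _
  -- the coefficients are fixed
  have hcoeffFix : ∀ i, IsFixed Γ (Pl.coeff i) := by
    intro i s hs
    have h1 := map_prod_X_sub_C_eq T s (hT s hs)
    have h2 := congrArg (fun Q : F[X] => Q.coeff i) h1
    simp only [Polynomial.coeff_map] at h2
    exact h2
  have hlift : Pl ∈ Polynomial.lifts (algebraMap (fixedAlg Γ B) F) := by
    rw [Polynomial.lifts_iff_coeff_lifts]
    intro i
    exact ⟨⟨Pl.coeff i, hcoeffB i, hcoeffFix i⟩, rfl⟩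
  obtain ⟨Q, hQmap, -, hQmonic⟩ := Polynomial.lifts_and_natDegree_eq_and_monic hlift hmonic
  refine ⟨Q, hQmonic, ?_⟩
  rw [Polynomial.eval₂_eq_eval_map, hQmap, hPl, Polynomial.eval_prod]
  refine Finset.prod_eq_zero hx ?_
  rw [Polynomial.eval_sub, Polynomial.eval_X, Polynomial.eval_C, sub_self]

end Abstract

/-! ### The instance: `G1Act`-fixed elements over the inertia-fixed subalgebra -/

section Level

open ModularCurve
open Fermat.Agent.S33x.H1.FixData2Inst Fermat.Agent.S40x.W.G1

local notation "Qbar" => AlgebraicClosure ℚ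
local notation "Γℚ" => (AlgebraicClosure ℚ) ≃ₐ[ℚ] (AlgebraicClosure ℚ)

variable {P : ValuationSubring Qbar} {ζ : Qbar} {N : ℕ}

/-- **Key property** on functions: a `G1Act`-fixed function is moved by `σ ∈ I` like by the chosen
lift of `σ ζ`. -/
theorem smul_eq_lift_smul {x : laurentBaseChange Qbar (modularFunctionFieldFull N)}
    (hfix : IsFixed (G1Act P ζ N) x) {σ : Γℚ} (hσ : σ ∈ P.inertiaSubgroupIn ℚ) :
    arithmeticGalois (modularFunctionFieldFull N) σ • x =
      arithmeticGalois (modularFunctionFieldFull N) (lift P ζ (σ ζ)) • x := by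
  obtain ⟨h1, h2⟩ := lift_spec (P := P) (ζ := ζ) (t := σ ζ) ⟨σ, hσ, rfl⟩
  set s := lift P ζ (σ ζ) with hs
  have hmem : s⁻¹ * σ ∈ G1 P ζ := by
    refine ⟨mul_mem (inv_mem h1) hσ, ?_⟩
    show s⁻¹ (σ ζ) = ζ
    rw [← h2]
    show (s⁻¹ * s) ζ = ζ
    rw [inv_mul_cancel]
    rfl
  have h3 : arithmeticGalois (modularFunctionFieldFull N) (s⁻¹ * σ) • x = x :=
    hfix _ ⟨s⁻¹ * σ, hmem, rfl⟩
  have h4 : σ = s * (s⁻¹ * σ) := by rw [mul_inv_cancel_left]
  conv_lhs => rw [h4, map_mul, mul_smul, h3]

/-- **Integrality seam**: a `G1Act`-fixed element of an inertia-stable subalgebra `B` is integral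
over the inertia-fixed part of `B`. -/
theorem isIntegral_of_isFixed_G1Act {p : ℕ} (hp : p.Prime) (hζ : IsPrimitiveRoot ζ p)
    (B : Subalgebra P (laurentBaseChange Qbar (modularFunctionFieldFull N)))
    (hB : ∀ s ∈ inertiaAct P N, ∀ y ∈ B, s • y ∈ B)
    {x : laurentBaseChange Qbar (modularFunctionFieldFull N)} (hx : x ∈ B)
    (hfix : IsFixed (G1Act P ζ N) x) :
    IsIntegral (fixedAlg (inertiaAct P N) B) x := by
  classical
  set T : Finset (laurentBaseChange Qbar (modularFunctionFieldFull N)) :=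
    (conjSet P p ζ).image
      (fun t => arithmeticGalois (modularFunctionFieldFull N) (lift P ζ t) • x) with hT
  refine isIntegral_fixedAlg_of_orbit (inertiaAct P N) B T ?_ ?_ ?_
  · intro y hy
    obtain ⟨t, ht, rfl⟩ := Finset.mem_image.mp hy
    obtain ⟨h1, -⟩ := lift_spec (P := P) (ζ := ζ) ((mem_conjSet hp hζ).mp ht)
    exact hB _ ⟨_, h1, rfl⟩ x hx
  · rintro _ ⟨ρ, hρ, rfl⟩ y hy
    obtain ⟨t, ht, rfl⟩ := Finset.mem_image.mp hy
    obtain ⟨h1, h2⟩ := lift_spec (P := P) (ζ := ζ) ((mem_conjSet hp hζ).mp ht)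
    refine Finset.mem_image.mpr ⟨ρ t, ?_, ?_⟩
    · obtain ⟨σ, hσ, rfl⟩ := (mem_conjSet hp hζ).mp ht
      exact (mem_conjSet hp hζ).mpr ⟨ρ * σ, mul_mem hρ hσ, rfl⟩
    · have h3 := smul_eq_lift_smul hfix (σ := ρ * lift P ζ t) (mul_mem hρ h1)
      have h4 : (ρ * lift P ζ t) ζ = ρ t := by
        show ρ (lift P ζ t ζ) = ρ t
        rw [h2]
      rw [h4, map_mul, mul_smul] at h3
      exact h3.symm
  · refine Finset.mem_image.mpr ⟨ζ, zeta_mem_conjSet hp hζ, ?_⟩
    obtain ⟨h1, h2⟩ := lift_spec (P := P) (ζ := ζ) (t := ζ) ⟨1, one_mem _, rfl⟩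
    exact hfix _ ⟨lift P ζ ζ, ⟨h1, h2⟩, rfl⟩

end Level

end Fermat.Agent.S40x.AS.IntegralSeam
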