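import Fermat.Agent.S40x.W.G1
import Fermat.Agent.S40x.R2.AS.PthRoot

/-!
# P-S44, block C3, leaf AS-ROOT (helper46): `1 + (ζ - 1) ^ p x` is a `p`-th power in `K₁ = ℚ̄^{G₁}`

`P` a valuation subring of `ℚ̄` over `p`, `ζ` a primitive `p`-th root of unity,
`G1 P ζ = {τ ∈ I_P : τ ζ = ζ}` (`S40x/W/G1.lean`).  For `x ∈ P` fixed by `G1`:

`exists_fixed_root` : there is `lam` with `lam ^ p = 1 + (ζ - 1) ^ p * x`, fixed by `G1`, of the
form `lam = 1 + (ζ - 1) * y` with `y ∈ P` fixed by `G1`.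

Instance of the Mathlib-only `S40x/R2/AS/PthRoot.exists_fixed_pth_root`.

Use (AS → COV/ET seam): the Artin–Schreier normal form `f₀ = 1 + π ^ p G₀` with `G₀` regular at the
cusp `q = 0` has leading coefficient `1 + π ^ p G₀(0) = lam ^ p`, `lam ∈ K₁`; the NORMALISED Kummer
function `f₀ / lam ^ p` keeps the normal form with the `K₁`-rational constant `h_s := 1 / lam`.
-/

set_option autoImplicit false

noncomputable section

namespace Fermat.Agent.S40x.AS.Root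

open Fermat.Agent.S40x.W.G1 Fermat.Agent.S56x.Hens

local notation "Qbar" => AlgebraicClosure ℚ
local notation "Γℚ" => (AlgebraicClosure ℚ ≃ₐ[ℚ] AlgebraicClosure ℚ)

variable {P : ValuationSubring Qbar} {p : ℕ} {ζ : Qbar}

/-- **AS-ROOT.** -/
theorem exists_fixed_root (hp : p.Prime) (hP : P.LiesOverPrime p) (hζ : IsPrimitiveRoot ζ p)
    {x : Qbar} (hx : x ∈ P) (hfix : ∀ t ∈ G1 P ζ, t x = x) :
    ∃ lam : Qbar, lam ^ p = 1 + (ζ - 1) ^ p * x ∧ (∀ t ∈ G1 P ζ, t lam = lam) ∧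
      ∃ y ∈ P, (∀ t ∈ G1 P ζ, t y = y) ∧ lam = 1 + (ζ - 1) * y := by
  set S : Set (Qbar →+* Qbar) := {σ | ∃ t ∈ G1 P ζ, σ = (t : Qbar →+* Qbar)} with hS
  have hSζ : ∀ σ ∈ S, σ ζ = ζ := by
    rintro σ ⟨t, ht, rfl⟩
    exact ht.2
  have hSA : ∀ σ ∈ S, ∀ a ∈ P, σ a - a ∈ P.nonunits := by
    rintro σ ⟨t, ht, rfl⟩ a ha
    exact ((mem_inertiaSubgroupIn_iff P t).mp ht.1).2 a ha
  have hSx : ∀ σ ∈ S, σ x = x := by
    rintro σ ⟨t, ht, rfl⟩
    exact hfix t ht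
  obtain ⟨y, hyP, hyfix, hy⟩ := R2.AS.PthRoot.exists_fixed_pth_root P hp hζ
    (sub_one_mem_nonunits hp hP hζ) S hSζ hSA hx hSx
  have hyfix' : ∀ t ∈ G1 P ζ, t y = y := fun t ht => hyfix _ ⟨t, ht, rfl⟩
  refine ⟨1 + (ζ - 1) * y, hy, fun t ht => ?_, y, hyP, hyfix', rfl⟩
  rw [map_add, map_one, map_mul, map_sub, map_one, ht.2, hyfix' t ht]

end Fermat.Agent.S40x.AS.Root
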