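import Fermat.Agent.S40x.AS.CalcMq
import Fermat.Agent.S40x.AS.CuspValue
import Fermat.Agent.S40x.AS.Root
import Fermat.Agent.S40x.AS.IntegralSeam
import Fermat.Agent.Gateway.Kummer.Basic
import Fermat.Agent.S33x.Cech.GalDatumCore

/-!
# P-S44, leaf C3-AS, assembly (helper57): the normalised Artin–Schreier normal form

Input = the output of AS-RAT: a `G1`-fixed normalised Kummer pair `(w, D)` of exponent `q` of the
class `ξ` and a Cech datum `d` of `D` with `d.hoo`, `d.h0'` fixed by `G1Act P ζ (M q)`.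

Output (`c3_as_of_rat`) = the literal consumed by C3-COV / C3-ET: functions `f₀ h G`, all
`G1`-fixed, `f₀` a Kummer representative of `ξ` with leading `q`-coefficient `1`,
`f₀ = h ^ q (1 + (ζ-1) ^ q G)`, `G ∈ BooAlg C` (a chart ring containing every node) and `G` integral
over the inertia-fixed part of `BxAlg C`.

Chain: `CalcMq.exists_kummer_function_Mq` (helper58) gives the two chart forms with a `G1`-fixed
unit `c`; `CuspValue.cusp_value` says that `G₀ ∈ BzeroAlg C` is a power series with `G₀(0) ∈ P`; so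
`lc (1 + π ^ q G₀) = 1 + π ^ q G₀(0) = lam ^ q` with `lam` `G1`-fixed (`Root.exists_fixed_root`,
helper46); hence `lc (c w) = (lc h0' / lam) ^ q` is a `q`-th power of a `G1`-fixed constant `μ` and
`f₀ := μ ^ (-q) c w`, `h := 1 / (μ hoo)`.
-/

set_option autoImplicit false
set_option linter.unusedSectionVars false
set_option linter.style.haveILetI false
set_option linter.unusedVariables false

noncomputable section

namespace Fermat.Agent.S40x.AS.Final

open AlgebraicCurve

/-! ### Leading coefficients -/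

section Laurent

variable {K : Type*} [Field K]

theorem leadingCoeff_coe_of_constantCoeff_ne_zero (Z : PowerSeries K)
    (hZ : PowerSeries.constantCoeff Z ≠ 0) :
    (HahnSeries.ofPowerSeries ℤ K Z : LaurentSeries K).leadingCoeff =
      PowerSeries.constantCoeff Z := by
  have h0 : (HahnSeries.ofPowerSeries ℤ K Z : LaurentSeries K).coeff 0 =
      PowerSeries.constantCoeff Z := CuspValue.coeff_zero_coe Z
  have hne : (HahnSeries.ofPowerSeries ℤ K Z : LaurentSeries K) ≠ 0 := by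
    intro h
    rw [h] at h0
    exact hZ (by rw [← h0]; rfl)
  have hord : (HahnSeries.ofPowerSeries ℤ K Z : LaurentSeries K).order = 0 := by
    apply le_antisymm
    · exact HahnSeries.order_le_of_coeff_ne_zero (by rw [h0]; exact hZ)
    · rw [HahnSeries.le_order_iff_forall hne]
      intro i hi
      rw [PowerSeries.coeff_coe, if_pos hi]
  rw [HahnSeries.leadingCoeff_eq, hord, h0]

theorem leadingCoeff_pow (x : LaurentSeries K) (n : ℕ) :
    (x ^ n).leadingCoeff = x.leadingCoeff ^ n := by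
  induction n with
  | zero => rw [pow_zero, pow_zero, HahnSeries.leadingCoeff_one]
  | succ n ih => rw [pow_succ, pow_succ, HahnSeries.leadingCoeff_mul, ih]

theorem leadingCoeff_C_mul (c : K) (x : LaurentSeries K) :
    (HahnSeries.C c * x).leadingCoeff = c * x.leadingCoeff := by
  rw [HahnSeries.leadingCoeff_mul]
  congr 1
  exact HahnSeries.leadingCoeff_of_single

end Laurent

/-! ### `G1`-fixed functions and their coefficients -/

section Level

open ModularCurve
open Fermat.Agent.S19x.Geo.LatticeFixed (IsFixed IsFixedK)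
open Fermat.Agent.S40x.W.G1

local notation "Qbar" => AlgebraicClosure ℚ

variable {P : ValuationSubring Qbar} {ζ : Qbar} {N : ℕ}

theorem coeff_fixed {f : laurentBaseChange Qbar (modularFunctionFieldFull N)}
    (hf : IsFixed (G1Act P ζ N) f) (n : ℤ) :
    ∀ t ∈ G1 P ζ, t ((f : LaurentSeries Qbar).coeff n) = (f : LaurentSeries Qbar).coeff n := by
  intro t ht
  have h := hf _ ⟨t, ht, rfl⟩
  have h2 := congrArg
    (fun g : laurentBaseChange Qbar (modularFunctionFieldFull N) =>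
      (g : LaurentSeries Qbar).coeff n) h
  simp only [coe_arithmeticGalois_smul, coeffMap_coeff] at h2
  exact h2

theorem leadingCoeff_fixed {f : laurentBaseChange Qbar (modularFunctionFieldFull N)}
    (hf : IsFixed (G1Act P ζ N) f) :
    ∀ t ∈ G1 P ζ, t ((f : LaurentSeries Qbar).leadingCoeff) =
      (f : LaurentSeries Qbar).leadingCoeff := by
  rw [HahnSeries.leadingCoeff_eq]
  exact coeff_fixed hf _

theorem isFixed_algebraMap {c : Qbar} (hc : ∀ t ∈ G1 P ζ, t c = c) :
    IsFixed (G1Act P ζ N)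
      (algebraMap Qbar (laurentBaseChange Qbar (modularFunctionFieldFull N)) c) := by
  rintro _ ⟨t, ht, rfl⟩
  rw [SemilinearAut.smul_algebraMap]
  congr 1
  exact hc t ht

theorem fixed_of_isFixedK {c : Qbar} (hc : IsFixedK (G1Act P ζ N) c) :
    ∀ t ∈ G1 P ζ, t c = c := by
  intro t ht
  obtain ⟨s, hs, hsc⟩ := G1Act_baseAut' P ζ N t ht
  rw [← hsc c]
  exact hc s hs

theorem IsFixed_mul {Γ : Set (SemilinearAut Qbar
    (laurentBaseChange Qbar (modularFunctionFieldFull N)))}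
    {f g : laurentBaseChange Qbar (modularFunctionFieldFull N)}
    (hf : IsFixed Γ f) (hg : IsFixed Γ g) : IsFixed Γ (f * g) := fun s hs => by
  rw [smul_mul', hf s hs, hg s hs]

theorem IsFixed_inv {Γ : Set (SemilinearAut Qbar
    (laurentBaseChange Qbar (modularFunctionFieldFull N)))}
    {f : laurentBaseChange Qbar (modularFunctionFieldFull N)}
    (hf : IsFixed Γ f) : IsFixed Γ f⁻¹ := fun s hs => by
  rw [smul_inv'', hf s hs]

end Level

/-! ### The assembly at the concrete level `M q` -/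

section Concrete

open ModularCurve Module IntermediateField IsLocalRing
open Fermat.Agent.Gateway.C0 Fermat.Agent.S34x Fermat.Agent.S34x.C0two Fermat.Agent.S34x.Lattice2
open Fermat.Agent.S19x.Geo.LatticeFixed (IsFixed IsFixedK)
open Fermat.Agent.S33x.H1.InstC1 Fermat.Agent.S33x.H1.InstC4
open Fermat.Agent.S33x.Cech Fermat.Agent.S33x.Cech.Datum Fermat.Agent.S33x.Cech.CycKm
open Fermat.Agent.S33x.W.InstW (fixedAlg)
open Fermat.Agent.S33x.H1.FixData2Inst
open Fermat.Agent.S40x.W.G1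
open Fermat.Agent.Gateway.Hecke Fermat.Agent.Gateway.ESC
open Fermat.Agent.Gateway.Red Fermat.Agent.Gateway.GoodRed
open Fermat.Agent.Gateway.GoodRed.ConjFamily
open Fermat.Agent.S34x.TwoVal
open Fermat.Agent.S34x.Inst.L2 Fermat.Agent.S34x.Inst.IsL2Inst
open Fermat.Agent.S34x.Inst.RedSetupInst Fermat.Agent.S34x.Inst.ElementYRed
open Fermat.Agent.S34x.Inst.ElementYInt Fermat.Agent.S34x.Inst.Charts
open Fermat.Agent.S34x.Inst Fermat.Agent.S34x.Inst.TheoremBMq
open Fermat.Agent.S33x.Cech.CtxMq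
open Fermat.Agent.Gateway.Kummer (IsKummerRep)

local notation "Qbar" => AlgebraicClosure ℚ

attribute [-instance] IsScalarTower.of_algHom

variable {P : ValuationSubring Qbar} {k : Type} [Field k] {π : P →+* k} [IsAlgClosed k]
variable {M q : ℕ} [NeZero M] [NeZero q] [Fact q.Prime] [CharP k q]
variable {hdeg : finrankAlong Qbar (heckeAlphaBar Qbar M q) = q + 1} {hq : q.Prime}
  {hqM : ¬ q ∣ M}
variable {hrk : ∀ x ∈ maximalIdeal P, ∀ c : P, c ≠ 0 → ∃ j : ℕ, c ∣ x ^ j}
  {hπ : Function.Surjective π}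
variable (H : ResidueFacts P π M q hdeg hq hqM hrk hπ) (hA : P.LiesOverPrime q)
  (x : LaurentSeries ℤ) (hx : coeffMap (Int.castRingHom Qbar) x ∈ FBar Qbar M)
  (Hx : GoodLevelFactsT P π M q hπ hqM (tInt M x hx))

include Hx hA in
/-- **C3-AS, assembled from the output of AS-RAT.** -/
theorem c3_as_of_rat [PerfectRing k q] (C : ChartCoord (redSetup2 H hA))
    (hCt : C.t = tA M q x hx) (hxk : tbar k x ≠ 0) (hY : YFacts M q x hx)
    {ζ : Qbar} (hζ : IsPrimitiveRoot ζ q)
    {Dt : Divisor Qbar (FL Qbar (M * q))}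
    (hDt : ∀ v : Place Qbar (FL Qbar (M * q)), Dt v = v.ord C.t)
    (hpole : ((C.t : FL Qbar (M * q)) : LaurentSeries Qbar).order < 0)
    {ξ : Pic0 Qbar (FL Qbar (M * q))} {w : FL Qbar (M * q)}
    {D : Divisor Qbar (FL Qbar (M * q))} (hw : IsData (redSetup2 H hA) q ξ w D)
    (hwfix : IsFixed (G1Act P ζ (M * q)) w) (d : CechDatum (redSetup2 H hA) Dt D)
    (hoofix : IsFixed (G1Act P ζ (M * q)) d.hoo) (h0'fix : IsFixed (G1Act P ζ (M * q)) d.h0') :
    ∃ f0 h G : FL Qbar (M * q),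
      IsFixed (G1Act P ζ (M * q)) f0 ∧ IsFixed (G1Act P ζ (M * q)) h ∧
      IsFixed (G1Act P ζ (M * q)) G ∧ h ≠ 0 ∧
      ((f0 : FL Qbar (M * q)) : LaurentSeries Qbar).leadingCoeff = 1 ∧
      IsKummerRep q ξ f0 ∧
      (∃ e : Qbar, e ≠ 0 ∧ (∀ t ∈ G1 P ζ, t e = e) ∧
        f0 = algebraMap Qbar (FL Qbar (M * q)) e * w) ∧
      f0 = h ^ q * (1 + algebraMap Qbar (FL Qbar (M * q)) (ζ - 1) ^ q * G) ∧
      G ∈ BooAlg C ∧
      IsIntegral (fixedAlg (inertiaAct P (M * q)) (BxAlg C)) G := by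
  haveI : Algebra.IsAlgebraic ℚ Qbar := AlgebraicClosure.isAlgebraic ℚ
  haveI : CharZero Qbar := algebraRat.charZero Qbar
  have hctx := ctx_of_chart H hA x hx Hx C hCt hxk hY hDt
  obtain ⟨c, hc0, hcfix, hcP, hciP, Goo, hGoo, G0, hG0, e1, e2⟩ :=
    CalcMq.exists_kummer_function_Mq H hA x hx Hx C hCt hxk hY hζ hDt hw hwfix d hoofix h0'fix
  have hcfix' := fixed_of_isFixedK hcfix
  -- notation
  set aM := algebraMap Qbar (FL Qbar (M * q)) with haM
  set ι : FL Qbar (M * q) →+* LaurentSeries Qbar :=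
    algebraMap (FL Qbar (M * q)) (LaurentSeries Qbar) with hι
  have hιC : ∀ a : Qbar, ι (aM a) = HahnSeries.C a := by
    intro a
    rw [hι, haM, ← IsScalarTower.algebraMap_apply Qbar (FL Qbar (M * q)) (LaurentSeries Qbar) a,
      algebraMap_laurentSeries_eq_single]
    rfl
  have hw0 : w ≠ 0 := hw.ne_zero
  have hoo0 : d.hoo ≠ 0 := by
    intro h0
    obtain ⟨hm, h1⟩ := d.res_hoo
    have h2 : (⟨d.hoo, hm⟩ : (twoVal (valInfty P π M q hrk hπ hqM)
        (valZero P π M q hdeg hq hqM hrk hπ)).O) = 0 := Subtype.ext h0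
    rw [h2, map_zero] at h1
    exact zero_ne_one h1
  have h0'0 : d.h0' ≠ 0 := by
    intro h0
    obtain ⟨hm, h1⟩ := d.res_h0'
    have h2 : (⟨d.h0', hm⟩ : (twoVal (valInfty P π M q hrk hπ hqM)
        (valZero P π M q hdeg hq hqM hrk hπ)).O) = 0 := Subtype.ext h0
    rw [h2, map_zero] at h1
    exact zero_ne_one h1
  have hac0 : aM c ≠ 0 := (map_ne_zero aM).mpr hc0
  -- the value of `G0` at the cusp
  obtain ⟨Y0, hY0, hY0P⟩ := CuspValue.cusp_value hctx ι hιC hpole hG0.1
  have hx0fix : ∀ t ∈ G1 P ζ, t (PowerSeries.constantCoeff Y0) = PowerSeries.constantCoeff Y0 := by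
    have h1 : PowerSeries.constantCoeff Y0 = ((G0 : FL Qbar (M * q)) : LaurentSeries Qbar).coeff 0 := by
      rw [← CuspValue.coeff_zero_coe Y0, hY0]
      rfl
    rw [h1]
    exact coeff_fixed hG0.2 0
  obtain ⟨lam, hlam, hlamfix, -⟩ := Root.exists_fixed_root hq hA hζ hY0P hx0fix
  have hπm : ζ - 1 ∈ P.nonunits := sub_one_mem_nonunits hq hA hζ
  have hlamq0 : (1 : Qbar) + (ζ - 1) ^ q * PowerSeries.constantCoeff Y0 ≠ 0 := by
    intro h0
    have h1 : (ζ - 1) ^ q * PowerSeries.constantCoeff Y0 = -1 := by linear_combination h0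
    have hπP : ζ - 1 ∈ P := P.nonunits_le hπm
    have hmem : ((⟨ζ - 1, hπP⟩ : P) ^ q * ⟨PowerSeries.constantCoeff Y0, hY0P⟩ : P)
        ∈ maximalIdeal P := by
      refine Ideal.mul_mem_right _ _ (Ideal.pow_mem_of_mem _ ?_ q hq.pos)
      rw [← ValuationSubring.coe_mem_nonunits_iff]
      exact hπm
    have hunit : IsUnit ((⟨ζ - 1, hπP⟩ : P) ^ q * ⟨PowerSeries.constantCoeff Y0, hY0P⟩ : P) := by
      have : ((⟨ζ - 1, hπP⟩ : P) ^ q * ⟨PowerSeries.constantCoeff Y0, hY0P⟩ : P) = -1 :=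
        Subtype.ext h1
      rw [this]
      exact isUnit_one.neg
    exact hmem hunit
  have hlam0 : lam ≠ 0 := by
    intro h0
    rw [h0, zero_pow hq.ne_zero] at hlam
    exact hlamq0 hlam.symm
  -- the leading coefficient of `1 + π^q G0`
  have hlcG : (ι (1 + aM (ζ - 1) ^ q * G0)).leadingCoeff = lam ^ q := by
    have h1 : ι (1 + aM (ζ - 1) ^ q * G0) =
        HahnSeries.ofPowerSeries ℤ Qbar (1 + PowerSeries.C ((ζ - 1) ^ q) * Y0) := by
      rw [map_add, map_one, map_mul, map_pow, hιC, map_add, map_one, map_mul,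
        HahnSeries.ofPowerSeries_C, hY0, map_pow]
    rw [h1, leadingCoeff_coe_of_constantCoeff_ne_zero]
    · rw [map_add, map_one, map_mul, PowerSeries.constantCoeff_C, hlam]
    · rw [map_add, map_one, map_mul, PowerSeries.constantCoeff_C]
      exact hlamq0
  -- `h0' ^ q = (c w) (1 + π^q G0)`
  have e2' : d.h0' ^ q = (aM c * w) * (1 + aM (ζ - 1) ^ q * G0) := by
    rw [← e2]
    field_simp
  have hlc : (ι d.h0').leadingCoeff ^ q = (ι (aM c * w)).leadingCoeff * lam ^ q := by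
    rw [← leadingCoeff_pow, ← map_pow, e2', map_mul, HahnSeries.leadingCoeff_mul, hlcG]
  set μ : Qbar := (ι d.h0').leadingCoeff / lam with hμ
  have hlch0 : (ι d.h0').leadingCoeff ≠ 0 := by
    rw [HahnSeries.leadingCoeff_ne_zero]
    exact (map_ne_zero ι).mpr h0'0
  have hμ0 : μ ≠ 0 := div_ne_zero hlch0 hlam0
  have hμfix : ∀ t ∈ G1 P ζ, t μ = μ := by
    intro t ht
    rw [hμ, map_div₀, hlamfix t ht]
    congr 1
    exact leadingCoeff_fixed h0'fix t ht
  have hlcf1 : (ι (aM c * w)).leadingCoeff = μ ^ q := by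
    rw [hμ, div_pow, hlc]
    field_simp
  -- the constant
  set e : Qbar := (μ ^ q)⁻¹ * c with he
  have he0 : e ≠ 0 := mul_ne_zero (inv_ne_zero (pow_ne_zero q hμ0)) hc0
  have hefix : ∀ t ∈ G1 P ζ, t e = e := by
    intro t ht
    rw [he, map_mul, map_inv₀, map_pow, hμfix t ht, hcfix' t ht]
  have haμ0 : aM μ ≠ 0 := (map_ne_zero aM).mpr hμ0
  refine ⟨aM e * w, (aM μ * d.hoo)⁻¹, Goo, ?_, ?_, hGoo.2, ?_, ?_, ?_, ⟨e, he0, hefix, rfl⟩, ?_,
    hGoo.1, ?_⟩
  · exact IsFixed_mul (isFixed_algebraMap hefix) hwfix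
  · exact IsFixed_inv (IsFixed_mul (isFixed_algebraMap hμfix) hoofix)
  · exact inv_ne_zero (mul_ne_zero haμ0 hoo0)
  · -- normalised
    have h1 : aM e * w = aM (μ ^ q)⁻¹ * (aM c * w) := by
      rw [he, map_mul]
      ring
    rw [h1]
    show (ι (aM (μ ^ q)⁻¹ * (aM c * w))).leadingCoeff = 1
    rw [map_mul, hιC, leadingCoeff_C_mul, hlcf1]
    exact inv_mul_cancel₀ (pow_ne_zero q hμ0)
  · -- Kummer representative
    refine ⟨mul_ne_zero ((map_ne_zero aM).mpr he0) hw0, ⟨D, hw.degZero⟩, hw.mk_eq, fun v => ?_⟩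
    rw [v.ord_mul ((map_ne_zero aM).mpr he0) hw0,
      Fermat.Agent.Gateway.Kummer.ord_algebraMap_eq_zero v he0, zero_add]
    exact hw.ord v
  · -- the normal form
    have h1 : aM e = (aM μ ^ q)⁻¹ * aM c := by
      rw [he, map_mul, map_inv₀, map_pow]
    rw [h1, inv_pow, mul_pow]
    have h2 : aM c * w = (d.hoo ^ q)⁻¹ * (1 + aM (ζ - 1) ^ q * Goo) := by
      rw [← e1]
      field_simp
    calc (aM μ ^ q)⁻¹ * aM c * w = (aM μ ^ q)⁻¹ * (aM c * w) := by ring
      _ = (aM μ ^ q)⁻¹ * ((d.hoo ^ q)⁻¹ * (1 + aM (ζ - 1) ^ q * Goo)) := by rw [h2]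
      _ = (aM μ ^ q * d.hoo ^ q)⁻¹ * (1 + aM (ζ - 1) ^ q * Goo) := by
          rw [mul_inv]
          ring
  · -- integrality over the inertia-fixed overlap ring
    have hgal := ctxGal_inertia H hA x hx Hx C hCt
    refine IntegralSeam.isIntegral_of_isFixed_G1Act hq hζ (BxAlg C) ?_ (BooAlg_le C hGoo.1) hGoo.2
    rintro s ⟨τ, hτ, rfl⟩ y hy
    have hs : arithmeticGalois (modularFunctionFieldFull (M * q)) τ ∈
        {g | ∃ τ ∈ P.inertiaSubgroupIn ℚ,
          g = arithmeticGalois (modularFunctionFieldFull (M * q)) τ} := ⟨τ, hτ, rfl⟩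
    exact GalDatumCore.smul_mem_BxAlg C
      ⟨hgal.smul_t _ hs, hgal.smul_mem _ hs, hgal.res_smul _ hs⟩ hy

end Concrete

end Fermat.Agent.S40x.AS.Final
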