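import Fermat.Agent.S40x.AS.Final
import Fermat.Agent.S40x.R2.AS.RatDatumMq

/-!
# P-S44, leaf C3-AS, BOTH chart forms (helper32; seam (A) x (N)(iii) of C3-ASM: the CUSP places)

`AS/Final.c3_as_of_rat` / `AS/Leaf.c3_as` (helper57) export ONE Artin–Schreier normal form
`f₀ = h ^ q (1 + (ζ-1) ^ q G)` with `G ∈ BooAlg C` (regular where `t ≠ ∞`) and `G` integral over
the inertia-fixed part of the OVERLAP ring `BxAlg C` (`t ≠ 0, ∞`).  This serves the nodes and the
smooth points with `t ≠ 0, ∞`.  The smooth-point rings at the CUSP places are localisations of the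
inertia-fixed parts of the two BIG chart rings:

* cusps over `t = 0`: `R_c` is a localisation of `fixedAlg I (BooAlg C)`; one needs `G` integral
  over `fixedAlg I (BooAlg C)` (the overlap ring is not contained in `R_c`);
* cusps over `t = ∞` (among them the Laurent cusp `q = 0` itself), through `C.swap`: `R_c` is a
  localisation of `fixedAlg I (BzeroAlg C)`; one needs the TWIN normal form
  `f₀⁻¹ = h' ^ q (1 + (ζ-1) ^ q G₀)` of the SAME `f₀`, with `G₀ ∈ BzeroAlg C` integral over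
  `fixedAlg I (BzeroAlg C)`.

Both are already inside the proof of `c3_as_of_rat` (second chart form of
`CalcMq.exists_kummer_function_Mq`, `h' = μ / h0'`); here they are exported:
`c3_as_of_rat_both` (from the output of AS-RAT) and `c3_as_both` (the complete leaf).
The first ten conjuncts are verbatim those of `c3_as_of_rat` resp. `c3_as`.
-/

set_option autoImplicit false
set_option linter.unusedSectionVars false
set_option linter.style.haveILetI false
set_option linter.unusedVariables false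

noncomputable section

namespace Fermat.Agent.S40x.AS.FinalBoth

open AlgebraicCurve

section Concrete

open ModularCurve Module IntermediateField IsLocalRing
open Fermat.Agent.Gateway.C0 Fermat.Agent.S34x Fermat.Agent.S34x.C0two Fermat.Agent.S34x.Lattice2
open Fermat.Agent.S19x.Geo.LatticeFixed (IsFixed IsFixedK)
open Fermat.Agent.S33x.H1.InstC1 Fermat.Agent.S33x.H1.InstC4
open Fermat.Agent.S33x.KummerPn
open Fermat.Agent.S33x.Cech Fermat.Agent.S33x.Cech.Datum Fermat.Agent.S33x.Cech.CycKm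
open Fermat.Agent.S33x.W.InstW (fixedAlg)
open Fermat.Agent.S33x.H1.FixData2Inst
open Fermat.Agent.S40x.W.G1
open Fermat.Agent.Gateway.Hecke Fermat.Agent.Gateway.ESC
open Fermat.Agent.Gateway.Red Fermat.Agent.Gateway.GoodRed
open Fermat.Agent.Gateway.GoodRed.ConjFamily
open Fermat.Agent.S34x.TwoVal
open Fermat.Agent.S34x.Inst.L2 Fermat.Agent.S34x.Inst.IsL2Inst
open Fermat.Agent.S34x.Inst.RedSetupInst Fermat.Agent.S34x.Inst.ElementYRed
open Fermat.Agent.S34x.Inst.ElementYInt Fermat.Agent.S34x.Inst.Charts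
open Fermat.Agent.S34x.Inst Fermat.Agent.S34x.Inst.TheoremBMq
open Fermat.Agent.S33x.Cech.CtxMq
open Fermat.Agent.Gateway.Kummer (IsKummerRep)
open Fermat.Agent.S40x.AS.Final

local notation "Qbar" => AlgebraicClosure ℚ

attribute [-instance] IsScalarTower.of_algHom

variable {P : ValuationSubring Qbar} {k : Type} [Field k] {π : P →+* k} [IsAlgClosed k]
variable {M q : ℕ} [NeZero M] [NeZero q] [Fact q.Prime] [CharP k q]
variable {hdeg : finrankAlong Qbar (heckeAlphaBar Qbar M q) = q + 1} {hq : q.Prime}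
  {hqM : ¬ q ∣ M}
variable {hrk : ∀ x ∈ maximalIdeal P, ∀ c : P, c ≠ 0 → ∃ j : ℕ, c ∣ x ^ j}
  {hπ : Function.Surjective π}
variable (H : ResidueFacts P π M q hdeg hq hqM hrk hπ) (hA : P.LiesOverPrime q)
  (x : LaurentSeries ℤ) (hx : coeffMap (Int.castRingHom Qbar) x ∈ FBar Qbar M)
  (Hx : GoodLevelFactsT P π M q hπ hqM (tInt M x hx))

include Hx hA in
/-- **C3-AS with BOTH chart forms, assembled from the output of AS-RAT.**  The first ten
conjuncts are those of `AS/Final.c3_as_of_rat`; then: `G` is integral over the inertia-fixed part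
of the big chart ring `BooAlg C`, and the twin form `f₀⁻¹ = h' ^ q (1 + (ζ-1) ^ q G₀)` on the other
big chart ring `BzeroAlg C`. -/
theorem c3_as_of_rat_both [PerfectRing k q] (C : ChartCoord (redSetup2 H hA))
    (hCt : C.t = tA M q x hx) (hxk : tbar k x ≠ 0) (hY : YFacts M q x hx)
    {ζ : Qbar} (hζ : IsPrimitiveRoot ζ q)
    {Dt : Divisor Qbar (FL Qbar (M * q))}
    (hDt : ∀ v : Place Qbar (FL Qbar (M * q)), Dt v = v.ord C.t)
    (hpole : ((C.t : FL Qbar (M * q)) : LaurentSeries Qbar).order < 0)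
    {ξ : Pic0 Qbar (FL Qbar (M * q))} {w : FL Qbar (M * q)}
    {D : Divisor Qbar (FL Qbar (M * q))} (hw : IsData (redSetup2 H hA) q ξ w D)
    (hwfix : IsFixed (G1Act P ζ (M * q)) w) (d : CechDatum (redSetup2 H hA) Dt D)
    (hoofix : IsFixed (G1Act P ζ (M * q)) d.hoo) (h0'fix : IsFixed (G1Act P ζ (M * q)) d.h0') :
    ∃ f0 h G : FL Qbar (M * q),
      IsFixed (G1Act P ζ (M * q)) f0 ∧ IsFixed (G1Act P ζ (M * q)) h ∧
      IsFixed (G1Act P ζ (M * q)) G ∧ h ≠ 0 ∧
      ((f0 : FL Qbar (M * q)) : LaurentSeries Qbar).leadingCoeff = 1 ∧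
      IsKummerRep q ξ f0 ∧
      (∃ e : Qbar, e ≠ 0 ∧ (∀ t ∈ G1 P ζ, t e = e) ∧
        f0 = algebraMap Qbar (FL Qbar (M * q)) e * w) ∧
      f0 = h ^ q * (1 + algebraMap Qbar (FL Qbar (M * q)) (ζ - 1) ^ q * G) ∧
      G ∈ BooAlg C ∧
      IsIntegral (fixedAlg (inertiaAct P (M * q)) (BxAlg C)) G ∧
      IsIntegral (fixedAlg (inertiaAct P (M * q)) (BooAlg C)) G ∧
      ∃ h' G0 : FL Qbar (M * q),
        IsFixed (G1Act P ζ (M * q)) h' ∧ IsFixed (G1Act P ζ (M * q)) G0 ∧ h' ≠ 0 ∧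
        f0⁻¹ = h' ^ q * (1 + algebraMap Qbar (FL Qbar (M * q)) (ζ - 1) ^ q * G0) ∧
        G0 ∈ BzeroAlg C ∧
        IsIntegral (fixedAlg (inertiaAct P (M * q)) (BzeroAlg C)) G0 ∧
        IsIntegral (fixedAlg (inertiaAct P (M * q)) (BxAlg C)) G0 := by
  haveI : Algebra.IsAlgebraic ℚ Qbar := AlgebraicClosure.isAlgebraic ℚ
  haveI : CharZero Qbar := algebraRat.charZero Qbar
  have hctx := ctx_of_chart H hA x hx Hx C hCt hxk hY hDt
  obtain ⟨c, hc0, hcfix, hcP, hciP, Goo, hGoo, G0, hG0, e1, e2⟩ :=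
    CalcMq.exists_kummer_function_Mq H hA x hx Hx C hCt hxk hY hζ hDt hw hwfix d hoofix h0'fix
  have hcfix' := fixed_of_isFixedK hcfix
  -- notation
  set aM := algebraMap Qbar (FL Qbar (M * q)) with haM
  set ι : FL Qbar (M * q) →+* LaurentSeries Qbar :=
    algebraMap (FL Qbar (M * q)) (LaurentSeries Qbar) with hι
  have hιC : ∀ a : Qbar, ι (aM a) = HahnSeries.C a := by
    intro a
    rw [hι, haM, ← IsScalarTower.algebraMap_apply Qbar (FL Qbar (M * q)) (LaurentSeries Qbar) a,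
      algebraMap_laurentSeries_eq_single]
    rfl
  have hw0 : w ≠ 0 := hw.ne_zero
  have hoo0 : d.hoo ≠ 0 := by
    intro h0
    obtain ⟨hm, h1⟩ := d.res_hoo
    have h2 : (⟨d.hoo, hm⟩ : (twoVal (valInfty P π M q hrk hπ hqM)
        (valZero P π M q hdeg hq hqM hrk hπ)).O) = 0 := Subtype.ext h0
    rw [h2, map_zero] at h1
    exact zero_ne_one h1
  have h0'0 : d.h0' ≠ 0 := by
    intro h0
    obtain ⟨hm, h1⟩ := d.res_h0'
    have h2 : (⟨d.h0', hm⟩ : (twoVal (valInfty P π M q hrk hπ hqM)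
        (valZero P π M q hdeg hq hqM hrk hπ)).O) = 0 := Subtype.ext h0
    rw [h2, map_zero] at h1
    exact zero_ne_one h1
  have hac0 : aM c ≠ 0 := (map_ne_zero aM).mpr hc0
  -- the value of `G0` at the cusp
  obtain ⟨Y0, hY0, hY0P⟩ := CuspValue.cusp_value hctx ι hιC hpole hG0.1
  have hx0fix : ∀ t ∈ G1 P ζ, t (PowerSeries.constantCoeff Y0) = PowerSeries.constantCoeff Y0 := by
    have h1 : PowerSeries.constantCoeff Y0 =
        ((G0 : FL Qbar (M * q)) : LaurentSeries Qbar).coeff 0 := by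
      rw [← CuspValue.coeff_zero_coe Y0, hY0]
      rfl
    rw [h1]
    exact coeff_fixed hG0.2 0
  obtain ⟨lam, hlam, hlamfix, -⟩ := Root.exists_fixed_root hq hA hζ hY0P hx0fix
  have hπm : ζ - 1 ∈ P.nonunits := sub_one_mem_nonunits hq hA hζ
  have hlamq0 : (1 : Qbar) + (ζ - 1) ^ q * PowerSeries.constantCoeff Y0 ≠ 0 := by
    intro h0
    have h1 : (ζ - 1) ^ q * PowerSeries.constantCoeff Y0 = -1 := by linear_combination h0
    have hπP : ζ - 1 ∈ P := P.nonunits_le hπm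
    have hmem : ((⟨ζ - 1, hπP⟩ : P) ^ q * ⟨PowerSeries.constantCoeff Y0, hY0P⟩ : P)
        ∈ maximalIdeal P := by
      refine Ideal.mul_mem_right _ _ (Ideal.pow_mem_of_mem _ ?_ q hq.pos)
      rw [← ValuationSubring.coe_mem_nonunits_iff]
      exact hπm
    have hunit : IsUnit ((⟨ζ - 1, hπP⟩ : P) ^ q * ⟨PowerSeries.constantCoeff Y0, hY0P⟩ : P) := by
      have : ((⟨ζ - 1, hπP⟩ : P) ^ q * ⟨PowerSeries.constantCoeff Y0, hY0P⟩ : P) = -1 :=
        Subtype.ext h1
      rw [this]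
      exact isUnit_one.neg
    exact hmem hunit
  have hlam0 : lam ≠ 0 := by
    intro h0
    rw [h0, zero_pow hq.ne_zero] at hlam
    exact hlamq0 hlam.symm
  -- the leading coefficient of `1 + π^q G0`
  have hlcG : (ι (1 + aM (ζ - 1) ^ q * G0)).leadingCoeff = lam ^ q := by
    have h1 : ι (1 + aM (ζ - 1) ^ q * G0) =
        HahnSeries.ofPowerSeries ℤ Qbar (1 + PowerSeries.C ((ζ - 1) ^ q) * Y0) := by
      rw [map_add, map_one, map_mul, map_pow, hιC, map_add, map_one, map_mul,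
        HahnSeries.ofPowerSeries_C, hY0, map_pow]
    rw [h1, leadingCoeff_coe_of_constantCoeff_ne_zero]
    · rw [map_add, map_one, map_mul, PowerSeries.constantCoeff_C, hlam]
    · rw [map_add, map_one, map_mul, PowerSeries.constantCoeff_C]
      exact hlamq0
  -- `h0' ^ q = (c w) (1 + π^q G0)`
  have e2' : d.h0' ^ q = (aM c * w) * (1 + aM (ζ - 1) ^ q * G0) := by
    rw [← e2]
    field_simp
  have hlc : (ι d.h0').leadingCoeff ^ q = (ι (aM c * w)).leadingCoeff * lam ^ q := by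
    rw [← leadingCoeff_pow, ← map_pow, e2', map_mul, HahnSeries.leadingCoeff_mul, hlcG]
  set μ : Qbar := (ι d.h0').leadingCoeff / lam with hμ
  have hlch0 : (ι d.h0').leadingCoeff ≠ 0 := by
    rw [HahnSeries.leadingCoeff_ne_zero]
    exact (map_ne_zero ι).mpr h0'0
  have hμ0 : μ ≠ 0 := div_ne_zero hlch0 hlam0
  have hμfix : ∀ t ∈ G1 P ζ, t μ = μ := by
    intro t ht
    rw [hμ, map_div₀, hlamfix t ht]
    congr 1
    exact leadingCoeff_fixed h0'fix t ht
  have hlcf1 : (ι (aM c * w)).leadingCoeff = μ ^ q := by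
    rw [hμ, div_pow, hlc]
    field_simp
  -- the constant
  set e : Qbar := (μ ^ q)⁻¹ * c with he
  have he0 : e ≠ 0 := mul_ne_zero (inv_ne_zero (pow_ne_zero q hμ0)) hc0
  have hefix : ∀ t ∈ G1 P ζ, t e = e := by
    intro t ht
    rw [he, map_mul, map_inv₀, map_pow, hμfix t ht, hcfix' t ht]
  have haμ0 : aM μ ≠ 0 := (map_ne_zero aM).mpr hμ0
  -- stability of the three chart rings under inertia
  have hgal := ctxGal_inertia H hA x hx Hx C hCt
  have hgood : ∀ s ∈ inertiaAct P (M * q), GalDatumCore.IsGood (redSetup2 H hA) C.t s := by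
    rintro s ⟨τ, hτ, rfl⟩
    have hs : arithmeticGalois (modularFunctionFieldFull (M * q)) τ ∈
        {g | ∃ τ ∈ P.inertiaSubgroupIn ℚ,
          g = arithmeticGalois (modularFunctionFieldFull (M * q)) τ} := ⟨τ, hτ, rfl⟩
    exact ⟨hgal.smul_t _ hs, hgal.smul_mem _ hs, hgal.res_smul _ hs⟩
  have haeq : aM e = (aM μ ^ q)⁻¹ * aM c := by
    rw [he, map_mul, map_inv₀, map_pow]
  refine ⟨aM e * w, (aM μ * d.hoo)⁻¹, Goo, ?_, ?_, hGoo.2, ?_, ?_, ?_, ⟨e, he0, hefix, rfl⟩, ?_,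
    hGoo.1, ?_, ?_, aM μ * (d.h0')⁻¹, G0, ?_, hG0.2, ?_, ?_, hG0.1, ?_, ?_⟩
  · exact IsFixed_mul (isFixed_algebraMap hefix) hwfix
  · exact IsFixed_inv (IsFixed_mul (isFixed_algebraMap hμfix) hoofix)
  · exact inv_ne_zero (mul_ne_zero haμ0 hoo0)
  · -- normalised
    have h1 : aM e * w = aM (μ ^ q)⁻¹ * (aM c * w) := by
      rw [he, map_mul]
      ring
    rw [h1]
    show (ι (aM (μ ^ q)⁻¹ * (aM c * w))).leadingCoeff = 1
    rw [map_mul, hιC, leadingCoeff_C_mul, hlcf1]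
    exact inv_mul_cancel₀ (pow_ne_zero q hμ0)
  · -- Kummer representative
    refine ⟨mul_ne_zero ((map_ne_zero aM).mpr he0) hw0, ⟨D, hw.degZero⟩, hw.mk_eq, fun v => ?_⟩
    rw [v.ord_mul ((map_ne_zero aM).mpr he0) hw0,
      Fermat.Agent.Gateway.Kummer.ord_algebraMap_eq_zero v he0, zero_add]
    exact hw.ord v
  · -- the normal form
    rw [haeq, inv_pow, mul_pow]
    have h2 : aM c * w = (d.hoo ^ q)⁻¹ * (1 + aM (ζ - 1) ^ q * Goo) := by
      rw [← e1]
      field_simp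
    calc (aM μ ^ q)⁻¹ * aM c * w = (aM μ ^ q)⁻¹ * (aM c * w) := by ring
      _ = (aM μ ^ q)⁻¹ * ((d.hoo ^ q)⁻¹ * (1 + aM (ζ - 1) ^ q * Goo)) := by rw [h2]
      _ = (aM μ ^ q * d.hoo ^ q)⁻¹ * (1 + aM (ζ - 1) ^ q * Goo) := by
          rw [mul_inv]
          ring
  · -- integrality over the inertia-fixed overlap ring
    exact IntegralSeam.isIntegral_of_isFixed_G1Act hq hζ (BxAlg C)
      (fun s hs y hy => GalDatumCore.smul_mem_BxAlg C (hgood s hs) hy) (BooAlg_le C hGoo.1) hGoo.2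
  · -- integrality over the inertia-fixed big chart ring `t ≠ ∞`
    exact IntegralSeam.isIntegral_of_isFixed_G1Act hq hζ (BooAlg C)
      (fun s hs y hy => GalDatumCore.smul_mem_BooAlg C (hgood s hs) hy) hGoo.1 hGoo.2
  · exact IsFixed_mul (isFixed_algebraMap hμfix) (IsFixed_inv h0'fix)
  · exact mul_ne_zero haμ0 (inv_ne_zero h0'0)
  · -- the twin normal form
    rw [haeq, ← e2, mul_pow, inv_pow]
    field_simp
  · -- integrality over the inertia-fixed big chart ring `t ≠ 0`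
    exact IntegralSeam.isIntegral_of_isFixed_G1Act hq hζ (BzeroAlg C)
      (fun s hs y hy => GalDatumCore.smul_mem_BzeroAlg C (hgood s hs) hy) hG0.1 hG0.2
  · exact IntegralSeam.isIntegral_of_isFixed_G1Act hq hζ (BxAlg C)
      (fun s hs y hy => GalDatumCore.smul_mem_BxAlg C (hgood s hs) hy) (BzeroAlg_le C hG0.1) hG0.2

include Hx hA in
/-- **C3-AS, BOTH chart forms, complete leaf** (`AS/Leaf.c3_as` + the big-chart integrality of `G`
+ the twin form on `BzeroAlg C`). -/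
theorem c3_as_both [PerfectRing k q] (C : ChartCoord (redSetup2 H hA))
    (hCt : C.t = tA M q x hx) (hxk : tbar k x ≠ 0) (hY : YFacts M q x hx)
    {ζ : Qbar} (hζ : IsPrimitiveRoot ζ q) (hq3 : 3 ≤ q)
    {Dt : Divisor Qbar (FL Qbar (M * q))}
    (hDt : ∀ v : Place Qbar (FL Qbar (M * q)), Dt v = v.ord C.t)
    (hpole : ((C.t : FL Qbar (M * q)) : LaurentSeries Qbar).order < 0)
    {ξ : Pic0 Qbar (FL Qbar (M * q))} (hξ : ξ ∈ Km H hA q)
    (hchar : ∀ σ ∈ P.inertiaSubgroupIn ℚ, ∃ a : ℕ, σ • ξ = a • ξ ∧ σ ζ = ζ ^ a) :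
    ∃ f0 h G : FL Qbar (M * q),
      IsFixed (G1Act P ζ (M * q)) f0 ∧ IsFixed (G1Act P ζ (M * q)) h ∧
      IsFixed (G1Act P ζ (M * q)) G ∧ h ≠ 0 ∧
      ((f0 : FL Qbar (M * q)) : LaurentSeries Qbar).leadingCoeff = 1 ∧
      IsKummerRep q ξ f0 ∧
      f0 = h ^ q * (1 + algebraMap Qbar (FL Qbar (M * q)) (ζ - 1) ^ q * G) ∧
      G ∈ BooAlg C ∧
      IsIntegral (fixedAlg (inertiaAct P (M * q)) (BxAlg C)) G ∧
      IsIntegral (fixedAlg (inertiaAct P (M * q)) (BooAlg C)) G ∧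
      ∃ h' G0 : FL Qbar (M * q),
        IsFixed (G1Act P ζ (M * q)) h' ∧ IsFixed (G1Act P ζ (M * q)) G0 ∧ h' ≠ 0 ∧
        f0⁻¹ = h' ^ q * (1 + algebraMap Qbar (FL Qbar (M * q)) (ζ - 1) ^ q * G0) ∧
        G0 ∈ BzeroAlg C ∧
        IsIntegral (fixedAlg (inertiaAct P (M * q)) (BzeroAlg C)) G0 ∧
        IsIntegral (fixedAlg (inertiaAct P (M * q)) (BxAlg C)) G0 := by
  obtain ⟨w, D, hw, hwfix, -, d, hoofix, -, -, h0'fix⟩ :=
    Fermat.Agent.S40x.R2.AS.RatDatumMq.exists_fixed_data_Mq H hA x hx Hx C hCt hxk hY hDt hζ hq3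
      hξ hchar
  obtain ⟨f0, h, G, h1, h2, h3, h4, h5, h6, -, h7, h8, h9, h10, h11⟩ :=
    c3_as_of_rat_both H hA x hx Hx C hCt hxk hY hζ hDt hpole hw hwfix d hoofix h0'fix
  exact ⟨f0, h, G, h1, h2, h3, h4, h5, h6, h7, h8, h9, h10, h11⟩

end Concrete

end Fermat.Agent.S40x.AS.FinalBoth
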