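import Fermat.Agent.S40x.AS.Final
import Fermat.Agent.S40x.R2.AS.RatDatumMq

/-!
# P-S44, leaf C3-AS, COMPLETE (helper57): the (AS) normal form at the concrete level `M q`

`c3_as` = `R2/AS/RatDatumMq.exists_fixed_data_Mq` (AS-RAT, helper33) followed by
`AS/Final.c3_as_of_rat` (AS-CALC helper58 + AS-CUSP + AS-ROOT helper46 + AS-INT).

For a class `ξ ∈ K_q` (`KummerPn.Km H hA q`) on which the inertia group `I` of `P | q` acts through
the mod `q` cyclotomic character (`σ ξ = a ξ`, `σ ζ = ζ ^ a`), and a chart coordinate `t = α t'`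
with a pole at the Laurent cusp `q = 0`: there are functions `f₀ h G` of level `M q`, all fixed by
`G1Act P ζ (M q)` (i.e. `K₁ = ℚ̄^{G₁}`-rational, `G₁ = {τ ∈ I : τ ζ = ζ}`), with

* `f₀` a Kummer representative of `ξ` with leading `q`-coefficient `1` (normalised);
* `f₀ = h ^ q * (1 + (ζ - 1) ^ q * G)`, `h ≠ 0`;
* `G ∈ BooAlg C` (regular on the chart `t ≠ ∞`, which contains every node) and `G` integral over
  the inertia-fixed part of the overlap ring `BxAlg C` (of which every node ring `R_s` is a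
  localisation).
-/

set_option autoImplicit false
set_option linter.unusedSectionVars false
set_option linter.style.haveILetI false
set_option linter.unusedVariables false

noncomputable section

namespace Fermat.Agent.S40x.AS.Leaf

open AlgebraicCurve ModularCurve Module IntermediateField IsLocalRing
open Fermat.Agent.Gateway.C0 Fermat.Agent.S34x Fermat.Agent.S34x.C0two Fermat.Agent.S34x.Lattice2
open Fermat.Agent.S19x.Geo.LatticeFixed (IsFixed IsFixedK)
open Fermat.Agent.S33x.H1.InstC1 Fermat.Agent.S33x.H1.InstC4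
open Fermat.Agent.S33x.KummerPn
open Fermat.Agent.S33x.Cech Fermat.Agent.S33x.Cech.Datum Fermat.Agent.S33x.Cech.CycKm
open Fermat.Agent.S33x.W.InstW (fixedAlg)
open Fermat.Agent.S33x.H1.FixData2Inst
open Fermat.Agent.S40x.W.G1
open Fermat.Agent.Gateway.Hecke Fermat.Agent.Gateway.ESC
open Fermat.Agent.Gateway.Red Fermat.Agent.Gateway.GoodRed
open Fermat.Agent.Gateway.GoodRed.ConjFamily
open Fermat.Agent.S34x.TwoVal
open Fermat.Agent.S34x.Inst.L2 Fermat.Agent.S34x.Inst.IsL2Inst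
open Fermat.Agent.S34x.Inst.RedSetupInst Fermat.Agent.S34x.Inst.ElementYRed
open Fermat.Agent.S34x.Inst.ElementYInt Fermat.Agent.S34x.Inst.Charts
open Fermat.Agent.S34x.Inst Fermat.Agent.S34x.Inst.TheoremBMq
open Fermat.Agent.S33x.Cech.CtxMq
open Fermat.Agent.Gateway.Kummer (IsKummerRep)

local notation "Qbar" => AlgebraicClosure ℚ

attribute [-instance] IsScalarTower.of_algHom

variable {P : ValuationSubring Qbar} {k : Type} [Field k] {π : P →+* k} [IsAlgClosed k]
variable {M q : ℕ} [NeZero M] [NeZero q] [Fact q.Prime] [CharP k q]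
variable {hdeg : finrankAlong Qbar (heckeAlphaBar Qbar M q) = q + 1} {hq : q.Prime}
  {hqM : ¬ q ∣ M}
variable {hrk : ∀ x ∈ maximalIdeal P, ∀ c : P, c ≠ 0 → ∃ j : ℕ, c ∣ x ^ j}
  {hπ : Function.Surjective π}
variable (H : ResidueFacts P π M q hdeg hq hqM hrk hπ) (hA : P.LiesOverPrime q)
  (x : LaurentSeries ℤ) (hx : coeffMap (Int.castRingHom Qbar) x ∈ FBar Qbar M)
  (Hx : GoodLevelFactsT P π M q hπ hqM (tInt M x hx))

include Hx hA in
/-- **C3-AS**: the normalised, `K₁`-rational Artin–Schreier normal form of a Kummer function of a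
class of `K_q` on which inertia acts through the cyclotomic character. -/
theorem c3_as [PerfectRing k q] (C : ChartCoord (redSetup2 H hA))
    (hCt : C.t = tA M q x hx) (hxk : tbar k x ≠ 0) (hY : YFacts M q x hx)
    {ζ : Qbar} (hζ : IsPrimitiveRoot ζ q) (hq3 : 3 ≤ q)
    {Dt : Divisor Qbar (FL Qbar (M * q))}
    (hDt : ∀ v : Place Qbar (FL Qbar (M * q)), Dt v = v.ord C.t)
    (hpole : ((C.t : FL Qbar (M * q)) : LaurentSeries Qbar).order < 0)
    {ξ : Pic0 Qbar (FL Qbar (M * q))} (hξ : ξ ∈ Km H hA q)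
    (hchar : ∀ σ ∈ P.inertiaSubgroupIn ℚ, ∃ a : ℕ, σ • ξ = a • ξ ∧ σ ζ = ζ ^ a) :
    ∃ f0 h G : FL Qbar (M * q),
      IsFixed (G1Act P ζ (M * q)) f0 ∧ IsFixed (G1Act P ζ (M * q)) h ∧
      IsFixed (G1Act P ζ (M * q)) G ∧ h ≠ 0 ∧
      ((f0 : FL Qbar (M * q)) : LaurentSeries Qbar).leadingCoeff = 1 ∧
      IsKummerRep q ξ f0 ∧
      f0 = h ^ q * (1 + algebraMap Qbar (FL Qbar (M * q)) (ζ - 1) ^ q * G) ∧
      G ∈ BooAlg C ∧
      IsIntegral (fixedAlg (inertiaAct P (M * q)) (BxAlg C)) G := by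
  obtain ⟨w, D, hw, hwfix, -, d, hoofix, -, -, h0'fix⟩ :=
    Fermat.Agent.S40x.R2.AS.RatDatumMq.exists_fixed_data_Mq H hA x hx Hx C hCt hxk hY hDt hζ hq3
      hξ hchar
  obtain ⟨f0, h, G, h1, h2, h3, h4, h5, h6, -, h7, h8, h9⟩ :=
    Final.c3_as_of_rat H hA x hx Hx C hCt hxk hY hζ hDt hpole hw hwfix d hoofix h0'fix
  exact ⟨f0, h, G, h1, h2, h3, h4, h5, h6, h7, h8, h9⟩

end Fermat.Agent.S40x.AS.Leaf
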