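import Fermat.Agent.S40x.AS.Pole

/-!
# P-S44, leaf C3-AS, TWO-CHART form (helper57): input of item (A) AS → ET of `S44-IFACE-C3-ASM v2`

`Leaf.c3_as` only exposes the Artin–Schreier normal form of the normalised Kummer function `f₀` on
the chart `t ≠ ∞` (`BooAlg C`), which contains every node but NOT the places over `t = ∞`
(cusps of the swap chart).  Here both chart forms are exported, with integrality over the
inertia-fixed part of the respective chart ring: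

* `f₀ = h ^ q * (1 + (ζ - 1) ^ q * G)`, `G ∈ BooAlg C`, `G` integral over
  `fixedAlg (inertiaAct P (M q)) (BooAlg C)` (`= Node/NodeInst.B0 C Γ`);
* `h₀ ^ q = f₀ * (1 + (ζ - 1) ^ q * G₀)`, `G₀ ∈ BzeroAlg C`, `G₀` integral over
  `fixedAlg (inertiaAct P (M q)) (BzeroAlg C)` (`BzeroAlg C = BooAlg C.swap`).

All of `f₀ h G h₀ G₀` are fixed by `G1Act P ζ (M q)`.  With `z ^ q = f₀`: `z / h` is a `q`-th root
of `1 + π ^ q G` and `h₀ / z` is a `q`-th root of `1 + π ^ q G₀`.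
-/

set_option autoImplicit false
set_option linter.unusedSectionVars false
set_option linter.style.haveILetI false
set_option linter.unusedVariables false

noncomputable section

namespace Fermat.Agent.S40x.AS.Leaf2

open AlgebraicCurve ModularCurve Module IntermediateField IsLocalRing
open Fermat.Agent.Gateway.C0 Fermat.Agent.S34x Fermat.Agent.S34x.C0two Fermat.Agent.S34x.Lattice2
open Fermat.Agent.S19x.Geo.LatticeFixed (IsFixed IsFixedK)
open Fermat.Agent.S33x.H1.InstC1 Fermat.Agent.S33x.H1.InstC4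
open Fermat.Agent.S33x.KummerPn
open Fermat.Agent.S33x.Cech Fermat.Agent.S33x.Cech.Datum Fermat.Agent.S33x.Cech.CycKm
open Fermat.Agent.S33x.W.InstW (fixedAlg)
open Fermat.Agent.S33x.H1.FixData2Inst
open Fermat.Agent.S40x.W.G1
open Fermat.Agent.Gateway.Hecke Fermat.Agent.Gateway.ESC
open Fermat.Agent.Gateway.Red Fermat.Agent.Gateway.GoodRed
open Fermat.Agent.Gateway.GoodRed.ConjFamily
open Fermat.Agent.S34x.TwoVal
open Fermat.Agent.S34x.Inst.L2 Fermat.Agent.S34x.Inst.IsL2Inst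
open Fermat.Agent.S34x.Inst.RedSetupInst Fermat.Agent.S34x.Inst.ElementYRed
open Fermat.Agent.S34x.Inst.ElementYInt Fermat.Agent.S34x.Inst.Charts
open Fermat.Agent.S34x.Inst Fermat.Agent.S34x.Inst.TheoremBMq
open Fermat.Agent.S33x.Cech.CtxMq
open Fermat.Agent.Gateway.Kummer (IsKummerRep)
open Fermat.Agent.S40x.AS.Final

local notation "Qbar" => AlgebraicClosure ℚ

attribute [-instance] IsScalarTower.of_algHom

variable {P : ValuationSubring Qbar} {k : Type} [Field k] {π : P →+* k} [IsAlgClosed k]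
variable {M q : ℕ} [NeZero M] [NeZero q] [Fact q.Prime] [CharP k q]
variable {hdeg : finrankAlong Qbar (heckeAlphaBar Qbar M q) = q + 1} {hq : q.Prime}
  {hqM : ¬ q ∣ M}
variable {hrk : ∀ x ∈ maximalIdeal P, ∀ c : P, c ≠ 0 → ∃ j : ℕ, c ∣ x ^ j}
  {hπ : Function.Surjective π}
variable (H : ResidueFacts P π M q hdeg hq hqM hrk hπ) (hA : P.LiesOverPrime q)
  (x : LaurentSeries ℤ) (hx : coeffMap (Int.castRingHom Qbar) x ∈ FBar Qbar M)
  (Hx : GoodLevelFactsT P π M q hπ hqM (tInt M x hx))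

include Hx hA in
/-- **C3-AS, two-chart form, assembled from the output of AS-RAT.** -/
theorem c3_as2_of_rat [PerfectRing k q] (C : ChartCoord (redSetup2 H hA))
    (hCt : C.t = tA M q x hx) (hxk : tbar k x ≠ 0) (hY : YFacts M q x hx)
    {ζ : Qbar} (hζ : IsPrimitiveRoot ζ q)
    {Dt : Divisor Qbar (FL Qbar (M * q))}
    (hDt : ∀ v : Place Qbar (FL Qbar (M * q)), Dt v = v.ord C.t)
    (hpole : ((C.t : FL Qbar (M * q)) : LaurentSeries Qbar).order < 0)
    {ξ : Pic0 Qbar (FL Qbar (M * q))} {w : FL Qbar (M * q)}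
    {D : Divisor Qbar (FL Qbar (M * q))} (hw : IsData (redSetup2 H hA) q ξ w D)
    (hwfix : IsFixed (G1Act P ζ (M * q)) w) (d : CechDatum (redSetup2 H hA) Dt D)
    (hoofix : IsFixed (G1Act P ζ (M * q)) d.hoo) (h0'fix : IsFixed (G1Act P ζ (M * q)) d.h0') :
    ∃ f0 h G h0 G0 : FL Qbar (M * q),
      IsFixed (G1Act P ζ (M * q)) f0 ∧ IsFixed (G1Act P ζ (M * q)) h ∧
      IsFixed (G1Act P ζ (M * q)) G ∧ IsFixed (G1Act P ζ (M * q)) h0 ∧
      IsFixed (G1Act P ζ (M * q)) G0 ∧ h ≠ 0 ∧ h0 ≠ 0 ∧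
      ((f0 : FL Qbar (M * q)) : LaurentSeries Qbar).leadingCoeff = 1 ∧
      IsKummerRep q ξ f0 ∧
      (∃ e : Qbar, e ≠ 0 ∧ (∀ t ∈ G1 P ζ, t e = e) ∧
        f0 = algebraMap Qbar (FL Qbar (M * q)) e * w) ∧
      f0 = h ^ q * (1 + algebraMap Qbar (FL Qbar (M * q)) (ζ - 1) ^ q * G) ∧
      G ∈ BooAlg C ∧
      IsIntegral (fixedAlg (inertiaAct P (M * q)) (BooAlg C)) G ∧
      h0 ^ q = f0 * (1 + algebraMap Qbar (FL Qbar (M * q)) (ζ - 1) ^ q * G0) ∧
      G0 ∈ BzeroAlg C ∧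
      IsIntegral (fixedAlg (inertiaAct P (M * q)) (BzeroAlg C)) G0 := by
  haveI : Algebra.IsAlgebraic ℚ Qbar := AlgebraicClosure.isAlgebraic ℚ
  haveI : CharZero Qbar := algebraRat.charZero Qbar
  have hctx := ctx_of_chart H hA x hx Hx C hCt hxk hY hDt
  obtain ⟨c, hc0, hcfix, hcP, hciP, Goo, hGoo, G0, hG0, e1, e2⟩ :=
    CalcMq.exists_kummer_function_Mq H hA x hx Hx C hCt hxk hY hζ hDt hw hwfix d hoofix h0'fix
  have hcfix' := fixed_of_isFixedK hcfix
  -- notation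
  set aM := algebraMap Qbar (FL Qbar (M * q)) with haM
  set ι : FL Qbar (M * q) →+* LaurentSeries Qbar :=
    algebraMap (FL Qbar (M * q)) (LaurentSeries Qbar) with hι
  have hιC : ∀ a : Qbar, ι (aM a) = HahnSeries.C a := by
    intro a
    rw [hι, haM, ← IsScalarTower.algebraMap_apply Qbar (FL Qbar (M * q)) (LaurentSeries Qbar) a,
      algebraMap_laurentSeries_eq_single]
    rfl
  have hw0 : w ≠ 0 := hw.ne_zero
  have hoo0 : d.hoo ≠ 0 := by
    intro h0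
    obtain ⟨hm, h1⟩ := d.res_hoo
    have h2 : (⟨d.hoo, hm⟩ : (twoVal (valInfty P π M q hrk hπ hqM)
        (valZero P π M q hdeg hq hqM hrk hπ)).O) = 0 := Subtype.ext h0
    rw [h2, map_zero] at h1
    exact zero_ne_one h1
  have h0'0 : d.h0' ≠ 0 := by
    intro h0
    obtain ⟨hm, h1⟩ := d.res_h0'
    have h2 : (⟨d.h0', hm⟩ : (twoVal (valInfty P π M q hrk hπ hqM)
        (valZero P π M q hdeg hq hqM hrk hπ)).O) = 0 := Subtype.ext h0
    rw [h2, map_zero] at h1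
    exact zero_ne_one h1
  have hac0 : aM c ≠ 0 := (map_ne_zero aM).mpr hc0
  -- the value of `G0` at the cusp
  obtain ⟨Y0, hY0, hY0P⟩ := CuspValue.cusp_value hctx ι hιC hpole hG0.1
  have hx0fix : ∀ t ∈ G1 P ζ, t (PowerSeries.constantCoeff Y0) = PowerSeries.constantCoeff Y0 := by
    have h1 : PowerSeries.constantCoeff Y0 = ((G0 : FL Qbar (M * q)) : LaurentSeries Qbar).coeff 0 := by
      rw [← CuspValue.coeff_zero_coe Y0, hY0]
      rfl
    rw [h1]
    exact coeff_fixed hG0.2 0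
  obtain ⟨lam, hlam, hlamfix, -⟩ := Root.exists_fixed_root hq hA hζ hY0P hx0fix
  have hπm : ζ - 1 ∈ P.nonunits := sub_one_mem_nonunits hq hA hζ
  have hlamq0 : (1 : Qbar) + (ζ - 1) ^ q * PowerSeries.constantCoeff Y0 ≠ 0 := by
    intro h0
    have h1 : (ζ - 1) ^ q * PowerSeries.constantCoeff Y0 = -1 := by linear_combination h0
    have hπP : ζ - 1 ∈ P := P.nonunits_le hπm
    have hmem : ((⟨ζ - 1, hπP⟩ : P) ^ q * ⟨PowerSeries.constantCoeff Y0, hY0P⟩ : P)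
        ∈ maximalIdeal P := by
      refine Ideal.mul_mem_right _ _ (Ideal.pow_mem_of_mem _ ?_ q hq.pos)
      rw [← ValuationSubring.coe_mem_nonunits_iff]
      exact hπm
    have hunit : IsUnit ((⟨ζ - 1, hπP⟩ : P) ^ q * ⟨PowerSeries.constantCoeff Y0, hY0P⟩ : P) := by
      have : ((⟨ζ - 1, hπP⟩ : P) ^ q * ⟨PowerSeries.constantCoeff Y0, hY0P⟩ : P) = -1 :=
        Subtype.ext h1
      rw [this]
      exact isUnit_one.neg
    exact hmem hunit
  have hlam0 : lam ≠ 0 := by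
    intro h0
    rw [h0, zero_pow hq.ne_zero] at hlam
    exact hlamq0 hlam.symm
  -- the leading coefficient of `1 + π^q G0`
  have hlcG : (ι (1 + aM (ζ - 1) ^ q * G0)).leadingCoeff = lam ^ q := by
    have h1 : ι (1 + aM (ζ - 1) ^ q * G0) =
        HahnSeries.ofPowerSeries ℤ Qbar (1 + PowerSeries.C ((ζ - 1) ^ q) * Y0) := by
      rw [map_add, map_one, map_mul, map_pow, hιC, map_add, map_one, map_mul,
        HahnSeries.ofPowerSeries_C, hY0, map_pow]
    rw [h1, leadingCoeff_coe_of_constantCoeff_ne_zero]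
    · rw [map_add, map_one, map_mul, PowerSeries.constantCoeff_C, hlam]
    · rw [map_add, map_one, map_mul, PowerSeries.constantCoeff_C]
      exact hlamq0
  -- `h0' ^ q = (c w) (1 + π^q G0)`
  have e2' : d.h0' ^ q = (aM c * w) * (1 + aM (ζ - 1) ^ q * G0) := by
    rw [← e2]
    field_simp
  have hlc : (ι d.h0').leadingCoeff ^ q = (ι (aM c * w)).leadingCoeff * lam ^ q := by
    rw [← leadingCoeff_pow, ← map_pow, e2', map_mul, HahnSeries.leadingCoeff_mul, hlcG]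
  set μ : Qbar := (ι d.h0').leadingCoeff / lam with hμ
  have hlch0 : (ι d.h0').leadingCoeff ≠ 0 := by
    rw [HahnSeries.leadingCoeff_ne_zero]
    exact (map_ne_zero ι).mpr h0'0
  have hμ0 : μ ≠ 0 := div_ne_zero hlch0 hlam0
  have hμfix : ∀ t ∈ G1 P ζ, t μ = μ := by
    intro t ht
    rw [hμ, map_div₀, hlamfix t ht]
    congr 1
    exact leadingCoeff_fixed h0'fix t ht
  have hlcf1 : (ι (aM c * w)).leadingCoeff = μ ^ q := by
    rw [hμ, div_pow, hlc]
    field_simp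
  -- the constant
  set e : Qbar := (μ ^ q)⁻¹ * c with he
  have he0 : e ≠ 0 := mul_ne_zero (inv_ne_zero (pow_ne_zero q hμ0)) hc0
  have hefix : ∀ t ∈ G1 P ζ, t e = e := by
    intro t ht
    rw [he, map_mul, map_inv₀, map_pow, hμfix t ht, hcfix' t ht]
  have haμ0 : aM μ ≠ 0 := (map_ne_zero aM).mpr hμ0
  have hgal := ctxGal_inertia H hA x hx Hx C hCt
  have hgood : ∀ s ∈ inertiaAct P (M * q), GalDatumCore.IsGood (redSetup2 H hA) C.t s := by
    rintro s ⟨τ, hτ, rfl⟩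
    have hs : arithmeticGalois (modularFunctionFieldFull (M * q)) τ ∈
        {g | ∃ τ ∈ P.inertiaSubgroupIn ℚ,
          g = arithmeticGalois (modularFunctionFieldFull (M * q)) τ} := ⟨τ, hτ, rfl⟩
    exact ⟨hgal.smul_t _ hs, hgal.smul_mem _ hs, hgal.res_smul _ hs⟩
  have haeq : aM e = (aM μ ^ q)⁻¹ * aM c := by
    rw [he, map_mul, map_inv₀, map_pow]
  refine ⟨aM e * w, (aM μ * d.hoo)⁻¹, Goo, (aM μ)⁻¹ * d.h0', G0, ?_, ?_, hGoo.2, ?_, hG0.2, ?_, ?_,
    ?_, ?_, ⟨e, he0, hefix, rfl⟩, ?_, hGoo.1, ?_, ?_, hG0.1, ?_⟩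
  · exact IsFixed_mul (isFixed_algebraMap hefix) hwfix
  · exact IsFixed_inv (IsFixed_mul (isFixed_algebraMap hμfix) hoofix)
  · exact IsFixed_mul (IsFixed_inv (isFixed_algebraMap hμfix)) h0'fix
  · exact inv_ne_zero (mul_ne_zero haμ0 hoo0)
  · exact mul_ne_zero (inv_ne_zero haμ0) h0'0
  · -- normalised
    have h1 : aM e * w = aM (μ ^ q)⁻¹ * (aM c * w) := by
      rw [he, map_mul]
      ring
    rw [h1]
    show (ι (aM (μ ^ q)⁻¹ * (aM c * w))).leadingCoeff = 1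
    rw [map_mul, hιC, leadingCoeff_C_mul, hlcf1]
    exact inv_mul_cancel₀ (pow_ne_zero q hμ0)
  · -- Kummer representative
    refine ⟨mul_ne_zero ((map_ne_zero aM).mpr he0) hw0, ⟨D, hw.degZero⟩, hw.mk_eq, fun v => ?_⟩
    rw [v.ord_mul ((map_ne_zero aM).mpr he0) hw0,
      Fermat.Agent.Gateway.Kummer.ord_algebraMap_eq_zero v he0, zero_add]
    exact hw.ord v
  · -- the normal form on the chart `t ≠ ∞`
    rw [haeq, inv_pow, mul_pow]
    have h2 : aM c * w = (d.hoo ^ q)⁻¹ * (1 + aM (ζ - 1) ^ q * Goo) := by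
      rw [← e1]
      field_simp
    calc (aM μ ^ q)⁻¹ * aM c * w = (aM μ ^ q)⁻¹ * (aM c * w) := by ring
      _ = (aM μ ^ q)⁻¹ * ((d.hoo ^ q)⁻¹ * (1 + aM (ζ - 1) ^ q * Goo)) := by rw [h2]
      _ = (aM μ ^ q * d.hoo ^ q)⁻¹ * (1 + aM (ζ - 1) ^ q * Goo) := by
          rw [mul_inv]
          ring
  · -- integrality over the inertia-fixed chart ring `B_0` of `t ≠ ∞`
    refine IntegralSeam.isIntegral_of_isFixed_G1Act hq hζ (BooAlg C) ?_ hGoo.1 hGoo.2
    intro s hs y hy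
    exact GalDatumCore.smul_mem_BooAlg C (hgood s hs) hy
  · -- the normal form on the chart `t ≠ 0`
    rw [haeq, mul_pow, inv_pow, e2']
    ring
  · -- integrality over the inertia-fixed chart ring of `t ≠ 0`
    refine IntegralSeam.isIntegral_of_isFixed_G1Act hq hζ (BzeroAlg C) ?_ hG0.1 hG0.2
    intro s hs y hy
    exact GalDatumCore.smul_mem_BzeroAlg C (hgood s hs) hy

include Hx hA in
/-- **C3-AS, two-chart form**: the normalised, `K₁`-rational Artin–Schreier normal forms (on the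
chart `t ≠ ∞` and on the chart `t ≠ 0`) of a Kummer function of a class of `K_q` on which inertia
acts through the cyclotomic character. -/
theorem c3_as2 [PerfectRing k q] (C : ChartCoord (redSetup2 H hA))
    (hCt : C.t = tA M q x hx) (hxk : tbar k x ≠ 0) (hY : YFacts M q x hx)
    {ζ : Qbar} (hζ : IsPrimitiveRoot ζ q) (hq3 : 3 ≤ q)
    {Dt : Divisor Qbar (FL Qbar (M * q))}
    (hDt : ∀ v : Place Qbar (FL Qbar (M * q)), Dt v = v.ord C.t)
    (hpole : ((C.t : FL Qbar (M * q)) : LaurentSeries Qbar).order < 0)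
    {ξ : Pic0 Qbar (FL Qbar (M * q))} (hξ : ξ ∈ Km H hA q)
    (hchar : ∀ σ ∈ P.inertiaSubgroupIn ℚ, ∃ a : ℕ, σ • ξ = a • ξ ∧ σ ζ = ζ ^ a) :
    ∃ f0 h G h0 G0 : FL Qbar (M * q),
      IsFixed (G1Act P ζ (M * q)) f0 ∧ IsFixed (G1Act P ζ (M * q)) h ∧
      IsFixed (G1Act P ζ (M * q)) G ∧ IsFixed (G1Act P ζ (M * q)) h0 ∧
      IsFixed (G1Act P ζ (M * q)) G0 ∧ h ≠ 0 ∧ h0 ≠ 0 ∧
      ((f0 : FL Qbar (M * q)) : LaurentSeries Qbar).leadingCoeff = 1 ∧
      IsKummerRep q ξ f0 ∧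
      f0 = h ^ q * (1 + algebraMap Qbar (FL Qbar (M * q)) (ζ - 1) ^ q * G) ∧
      G ∈ BooAlg C ∧
      IsIntegral (fixedAlg (inertiaAct P (M * q)) (BooAlg C)) G ∧
      h0 ^ q = f0 * (1 + algebraMap Qbar (FL Qbar (M * q)) (ζ - 1) ^ q * G0) ∧
      G0 ∈ BzeroAlg C ∧
      IsIntegral (fixedAlg (inertiaAct P (M * q)) (BzeroAlg C)) G0 := by
  obtain ⟨w, D, hw, hwfix, -, d, hoofix, -, -, h0'fix⟩ :=
    Fermat.Agent.S40x.R2.AS.RatDatumMq.exists_fixed_data_Mq H hA x hx Hx C hCt hxk hY hDt hζ hq3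
      hξ hchar
  obtain ⟨f0, h, G, h0, G0, h1, h2, h3, h4, h5, h6, h7, h8, h9, -, h10, h11, h12, h13, h14, h15⟩ :=
    c3_as2_of_rat H hA x hx Hx C hCt hxk hY hζ hDt hpole hw hwfix d hoofix h0'fix
  exact ⟨f0, h, G, h0, G0, h1, h2, h3, h4, h5, h6, h7, h8, h9, h10, h11, h12, h13, h14, h15⟩

include Hx hA in
/-- `c3_as2` with the pole hypothesis read off the integral `q`-expansion `x` of the chart
function (`x.order < 0`, e.g. `x = x₄ = q⁻¹ + ⋯`). -/
theorem c3_as2' [PerfectRing k q] (C : ChartCoord (redSetup2 H hA))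
    (hCt : C.t = tA M q x hx) (hxk : tbar k x ≠ 0) (hY : YFacts M q x hx)
    (hxord : x.order < 0)
    {ζ : Qbar} (hζ : IsPrimitiveRoot ζ q) (hq3 : 3 ≤ q)
    {Dt : Divisor Qbar (FL Qbar (M * q))}
    (hDt : ∀ v : Place Qbar (FL Qbar (M * q)), Dt v = v.ord C.t)
    {ξ : Pic0 Qbar (FL Qbar (M * q))} (hξ : ξ ∈ Km H hA q)
    (hchar : ∀ σ ∈ P.inertiaSubgroupIn ℚ, ∃ a : ℕ, σ • ξ = a • ξ ∧ σ ζ = ζ ^ a) :
    ∃ f0 h G h0 G0 : FL Qbar (M * q),
      IsFixed (G1Act P ζ (M * q)) f0 ∧ IsFixed (G1Act P ζ (M * q)) h ∧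
      IsFixed (G1Act P ζ (M * q)) G ∧ IsFixed (G1Act P ζ (M * q)) h0 ∧
      IsFixed (G1Act P ζ (M * q)) G0 ∧ h ≠ 0 ∧ h0 ≠ 0 ∧
      ((f0 : FL Qbar (M * q)) : LaurentSeries Qbar).leadingCoeff = 1 ∧
      IsKummerRep q ξ f0 ∧
      f0 = h ^ q * (1 + algebraMap Qbar (FL Qbar (M * q)) (ζ - 1) ^ q * G) ∧
      G ∈ BooAlg C ∧
      IsIntegral (fixedAlg (inertiaAct P (M * q)) (BooAlg C)) G ∧
      h0 ^ q = f0 * (1 + algebraMap Qbar (FL Qbar (M * q)) (ζ - 1) ^ q * G0) ∧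
      G0 ∈ BzeroAlg C ∧
      IsIntegral (fixedAlg (inertiaAct P (M * q)) (BzeroAlg C)) G0 := by
  refine c3_as2 H hA x hx Hx C hCt hxk hY hζ hq3 hDt ?_ hξ hchar
  rw [hCt]
  exact Pole.order_tA_neg x hx hxord

end Fermat.Agent.S40x.AS.Leaf2
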