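import Fermat.Agent.S40x.AS.Root
import Fermat.Agent.S40x.R2.Cover.NormRoot

/-!
# P-S44, block C3, leaf AS-NORM (helper46): normalising the Artin–Schreier Kummer function

Level `N`, `F = laurentBaseChange ℚ̄ (modularFunctionFieldFull N) ⊆ ℚ̄((q))`,
`G1 P ζ = {τ ∈ I_P : τ ζ = ζ}` acting coefficientwise (`G1Act P ζ N`).

Input (chart-`0` form of `AS/CalcDatum.exists_kummer_function` and `AS-CUSP`):
`f₀ h₀ G₀ ∈ F` fixed by `G1Act`, `f₀ * (1 + (ζ - 1) ^ p G₀) = h₀ ^ p`, and `G₀` regular at the
Laurent cusp `q = 0` with `P`-integral value there.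

Output (`exists_normalizing_root`): a nonzero `G1`-fixed constant `μ ∈ ℚ̄` such that
`μ ^ p • f₀` is `Normalized` (leading coefficient `1`).  Since the constant is a `p`-th power of a
`G1`-fixed constant, every normal form `f₀ = h ^ p (1 + π ^ p G)` is kept with the SAME `G`:
`μ ^ p • f₀ = (μ • h) ^ p (1 + π ^ p G)` (`smul_normal_form`), all pieces `G1Act`-fixed
(`isFixed_const_smul`).

Proof: the leading coefficient is multiplicative, `lc (1 + π ^ p G₀) = 1 + π ^ p G₀(0)` is a
`p`-th power in `K₁ = ℚ̄^{G1}` by `AS/Root.exists_fixed_root`, `lc h₀ ∈ K₁` because `G1` acts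
coefficientwise.
-/

set_option autoImplicit false

noncomputable section

namespace Fermat.Agent.S40x.AS.Norm

open ModularCurve AlgebraicCurve HahnSeries
open Fermat.Agent.S40x.W.G1 Fermat.Agent.S40x.R2.Cover
open Fermat.Agent.S19x.Geo.LatticeFixed (IsFixed IsFixedK)

local notation "Qbar" => AlgebraicClosure ℚ
local notation "Γℚ" => (AlgebraicClosure ℚ ≃ₐ[ℚ] AlgebraicClosure ℚ)

variable {P : ValuationSubring Qbar} {ζ : Qbar} {N : ℕ}

/-! ### `G1Act`-fixed functions have `G1`-fixed coefficients -/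

theorem coeffMap_eq_of_isFixed {f : laurentBaseChange Qbar (modularFunctionFieldFull N)}
    (hf : IsFixed (G1Act P ζ N) f) {t : Γℚ} (ht : t ∈ G1 P ζ) :
    coeffMap (t : Qbar →+* Qbar) (f : LaurentSeries Qbar) = (f : LaurentSeries Qbar) := by
  have h := hf (arithmeticGalois (L := Qbar) (modularFunctionFieldFull N) t) ⟨t, ht, rfl⟩
  have h2 := congrArg (fun x : laurentBaseChange Qbar (modularFunctionFieldFull N) =>
    (x : LaurentSeries Qbar)) h
  simpa [coe_arithmeticGalois_smul] using h2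

theorem coeff_fixed_of_isFixed {f : laurentBaseChange Qbar (modularFunctionFieldFull N)}
    (hf : IsFixed (G1Act P ζ N) f) (n : ℤ) {t : Γℚ} (ht : t ∈ G1 P ζ) :
    t ((f : LaurentSeries Qbar).coeff n) = (f : LaurentSeries Qbar).coeff n := by
  have h := congrArg (fun x : LaurentSeries Qbar => x.coeff n) (coeffMap_eq_of_isFixed hf ht)
  simpa using h

theorem leadingCoeff_fixed_of_isFixed {f : laurentBaseChange Qbar (modularFunctionFieldFull N)}
    (hf : IsFixed (G1Act P ζ N) f) {t : Γℚ} (ht : t ∈ G1 P ζ) :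
    t (f : LaurentSeries Qbar).leadingCoeff = (f : LaurentSeries Qbar).leadingCoeff := by
  have h := congrArg (fun x : LaurentSeries Qbar => x.leadingCoeff) (coeffMap_eq_of_isFixed hf ht)
  simp only [leadingCoeff_coeffMap] at h
  exact h

/-- a `G1`-fixed constant is `IsFixedK` for `G1Act`. -/
theorem isFixedK_of_fixed {c : Qbar} (hc : ∀ t ∈ G1 P ζ, t c = c) :
    IsFixedK (G1Act P ζ N) c := by
  rintro _ ⟨t, ht, rfl⟩
  exact hc t ht

/-- conversely. -/
theorem fixed_of_isFixedK {c : Qbar} (hc : IsFixedK (G1Act P ζ N) c) :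
    ∀ t ∈ G1 P ζ, t c = c := fun t ht =>
  hc (arithmeticGalois (L := Qbar) (modularFunctionFieldFull N) t) ⟨t, ht, rfl⟩

theorem isFixed_const_smul {c : Qbar} (hc : ∀ t ∈ G1 P ζ, t c = c)
    {f : laurentBaseChange Qbar (modularFunctionFieldFull N)} (hf : IsFixed (G1Act P ζ N) f) :
    IsFixed (G1Act P ζ N) (c • f) :=
  Fermat.Agent.S19x.Geo.LatticeFixed.IsFixed.smul (isFixedK_of_fixed hc) hf

/-! ### leading coefficients -/

theorem coe_const_smul (c : Qbar) (f : laurentBaseChange Qbar (modularFunctionFieldFull N)) :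
    ((c • f : laurentBaseChange Qbar (modularFunctionFieldFull N)) : LaurentSeries Qbar)
      = HahnSeries.C c * (f : LaurentSeries Qbar) := by
  rw [IntermediateField.coe_smul, Algebra.smul_def, algebraMap_laurentSeries_eq_single]
  rfl

theorem leadingCoeff_const_smul (c : Qbar)
    (f : laurentBaseChange Qbar (modularFunctionFieldFull N)) :
    ((c • f : laurentBaseChange Qbar (modularFunctionFieldFull N)) :
      LaurentSeries Qbar).leadingCoeff = c * (f : LaurentSeries Qbar).leadingCoeff := by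
  rw [coe_const_smul, HahnSeries.leadingCoeff_mul, leadingCoeff_C]

/-- `1 + c g` for `g` regular at `q = 0`: order `0` and leading coefficient `1 + c g(0)`, as soon
as the latter is nonzero. -/
theorem leadingCoeff_one_add_C_mul {c : Qbar} {g : LaurentSeries Qbar} (hg : 0 ≤ g.order)
    (hne : 1 + c * g.coeff 0 ≠ 0) :
    (1 + HahnSeries.C c * g).leadingCoeff = 1 + c * g.coeff 0 := by
  have hcoeff : ∀ n : ℤ, (1 + HahnSeries.C c * g).coeff n
      = (1 : LaurentSeries Qbar).coeff n + c * g.coeff n := by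
    intro n
    rw [HahnSeries.coeff_add, HahnSeries.C_mul_eq_smul, HahnSeries.coeff_smul, smul_eq_mul]
  have h0 : (1 + HahnSeries.C c * g).coeff 0 = 1 + c * g.coeff 0 := by
    rw [hcoeff, HahnSeries.coeff_one, if_pos rfl]
  have hneg : ∀ n : ℤ, n < 0 → (1 + HahnSeries.C c * g).coeff n = 0 := by
    intro n hn
    rw [hcoeff, HahnSeries.coeff_one, if_neg hn.ne,
      HahnSeries.coeff_eq_zero_of_lt_order (lt_of_lt_of_le hn hg), mul_zero, add_zero]
  have hne0 : (1 + HahnSeries.C c * g) ≠ 0 := by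
    intro h
    rw [h, HahnSeries.coeff_zero] at h0
    exact hne h0.symm
  have hord : (1 + HahnSeries.C c * g).order = 0 := by
    apply le_antisymm
    · exact HahnSeries.order_le_of_coeff_ne_zero (by rw [h0]; exact hne)
    · by_contra hlt
      rw [not_le] at hlt
      exact (HahnSeries.coeff_order_eq_zero.not.mpr hne0) (hneg _ hlt)
  rw [HahnSeries.leadingCoeff_eq, hord, h0]

/-! ### the normalising constant -/

variable {p : ℕ}

/-- **AS-NORM.**  `f₀ (1 + π ^ p G₀) = h₀ ^ p`, all `G1Act`-fixed, `G₀` regular at the Laurent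
cusp with `P`-integral value: there is a nonzero `G1`-fixed constant `μ` with `μ ^ p • f₀`
normalised. -/
theorem exists_normalizing_root (hp : p.Prime) (hP : P.LiesOverPrime p)
    (hζ : IsPrimitiveRoot ζ p)
    {f0 h0 G0 : laurentBaseChange Qbar (modularFunctionFieldFull N)}
    (hh0fix : IsFixed (G1Act P ζ N) h0) (hG0fix : IsFixed (G1Act P ζ N) G0) (hh0 : h0 ≠ 0)
    (heq : f0 * (1 + algebraMap Qbar (laurentBaseChange Qbar (modularFunctionFieldFull N))
      (ζ - 1) ^ p * G0) = h0 ^ p)
    (hord : 0 ≤ (G0 : LaurentSeries Qbar).order)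
    (hval : (G0 : LaurentSeries Qbar).coeff 0 ∈ P) :
    ∃ μ : Qbar, μ ≠ 0 ∧ (∀ t ∈ G1 P ζ, t μ = μ) ∧
      Normalized (((μ ^ p • f0 : laurentBaseChange Qbar (modularFunctionFieldFull N))) :
        LaurentSeries Qbar) := by
  set x : Qbar := (G0 : LaurentSeries Qbar).coeff 0 with hx
  have hxfix : ∀ t ∈ G1 P ζ, t x = x := fun t ht => coeff_fixed_of_isFixed hG0fix 0 ht
  obtain ⟨lam, hlam, hlamfix, y, hyP, -, hlamy⟩ :=
    Root.exists_fixed_root hp hP hζ hval hxfix
  -- `lam ≠ 0`
  have hlam0 : lam ≠ 0 := by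
    intro h0'
    have hmem : (ζ - 1) * y ∈ P.nonunits :=
      Fermat.Agent.S19x.Hens.InertiaResidue.mul_mem_nonunits_right P
        (sub_one_mem_nonunits hp hP hζ) hyP
    have h1 : (ζ - 1) * y = -1 := by
      rw [h0'] at hlamy
      linear_combination -hlamy
    rw [h1] at hmem
    have hu : (-1 : Qbar) ∉ P.nonunits := by
      rw [P.mem_nonunits_iff, Valuation.map_neg, map_one]
      exact lt_irrefl _
    exact hu hmem
  -- the coerced equation
  have heq' : (f0 : LaurentSeries Qbar)
      * (1 + HahnSeries.C ((ζ - 1) ^ p) * (G0 : LaurentSeries Qbar))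
      = (h0 : LaurentSeries Qbar) ^ p := by
    have h := congrArg (fun z : laurentBaseChange Qbar (modularFunctionFieldFull N) =>
      (z : LaurentSeries Qbar)) heq
    simp only [MulMemClass.coe_mul, AddMemClass.coe_add, OneMemClass.coe_one,
      SubmonoidClass.coe_pow, IntermediateField.coe_algebraMap_apply] at h
    rw [← h, map_pow, algebraMap_laurentSeries_eq_single]
    rfl
  have hlc := congrArg (fun z : LaurentSeries Qbar => z.leadingCoeff) heq'
  simp only [HahnSeries.leadingCoeff_mul, Fermat.Agent.S40x.R2.Cover.leadingCoeff_pow] at hlc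
  rw [leadingCoeff_one_add_C_mul hord (by rw [← hx, ← hlam]; exact pow_ne_zero p hlam0),
    ← hx, ← hlam] at hlc
  set b : Qbar := (h0 : LaurentSeries Qbar).leadingCoeff with hb
  have hb0 : b ≠ 0 := by
    rw [hb, Ne, HahnSeries.leadingCoeff_eq_zero]
    intro h
    exact hh0 (Subtype.ext h)
  have hbfix : ∀ t ∈ G1 P ζ, t b = b := fun t ht => leadingCoeff_fixed_of_isFixed hh0fix ht
  refine ⟨lam / b, div_ne_zero hlam0 hb0, fun t ht => ?_, ?_⟩
  · rw [map_div₀, hlamfix t ht, hbfix t ht]
  · unfold Normalized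
    rw [leadingCoeff_const_smul, div_pow, div_mul_eq_mul_div, mul_comm, hlc,
      div_self (pow_ne_zero p hb0)]

/-- a normal form `f₀ = h ^ p (1 + π ^ p G)` is kept, with the same `G`, by the normalising
constant `μ ^ p`. -/
theorem smul_normal_form (μ : Qbar)
    {f0 h u : laurentBaseChange Qbar (modularFunctionFieldFull N)} (hf : f0 = h ^ p * u) :
    μ ^ p • f0 = (μ • h) ^ p * u := by
  rw [hf, smul_pow, smul_mul_assoc]

end Fermat.Agent.S40x.AS.Norm
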