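import Fermat.Agent.S40x.AS.Norm

/-!
# P-S44, block C3, seam AS-CUSP → AS-NORM (helper46)

`AS/CuspValue.cusp_value` delivers the regularity of `G₀` at the Laurent cusp in the form
`∃ Y : PowerSeries K, ofPowerSeries ℤ K Y = ι G₀ ∧ constantCoeff Y ∈ A`; `AS/Norm` consumes
`0 ≤ order G₀ ∧ coeff 0 G₀ ∈ P`.  This file is the adapter (Mathlib only for the first lemma).
-/

set_option autoImplicit false

noncomputable section

namespace Fermat.Agent.S40x.AS.NormCusp

open ModularCurve AlgebraicCurve HahnSeries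
open Fermat.Agent.S40x.W.G1 Fermat.Agent.S40x.R2.Cover
open Fermat.Agent.S19x.Geo.LatticeFixed (IsFixed IsFixedK)

local notation "Qbar" => AlgebraicClosure ℚ

/-- a Laurent series which is a power series has order `≥ 0` and its coefficient at `0` is the
constant coefficient. -/
theorem order_coeff_of_eq_ofPowerSeries {K : Type*} [Field K] {g : LaurentSeries K}
    {Y : PowerSeries K} (h : HahnSeries.ofPowerSeries ℤ K Y = g) :
    0 ≤ g.order ∧ g.coeff 0 = PowerSeries.constantCoeff Y := by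
  subst h
  refine ⟨?_, ?_⟩
  · by_cases h0 : (HahnSeries.ofPowerSeries ℤ K Y) = 0
    · rw [h0, HahnSeries.order_zero]
    · by_contra hlt
      rw [not_le] at hlt
      apply HahnSeries.coeff_order_eq_zero.not.mpr h0
      rw [PowerSeries.coeff_coe, if_pos hlt]
  · rw [PowerSeries.coeff_coe]
    simp

variable {P : ValuationSubring Qbar} {ζ : Qbar} {N : ℕ} {p : ℕ}

/-- **AS-NORM**, with the cusp hypothesis in the output shape of `AS/CuspValue.cusp_value`. -/
theorem exists_normalizing_root_of_powerSeries (hp : p.Prime) (hP : P.LiesOverPrime p)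
    (hζ : IsPrimitiveRoot ζ p)
    {f0 h0 G0 : laurentBaseChange Qbar (modularFunctionFieldFull N)}
    (hh0fix : IsFixed (G1Act P ζ N) h0) (hG0fix : IsFixed (G1Act P ζ N) G0) (hh0 : h0 ≠ 0)
    (heq : f0 * (1 + algebraMap Qbar (laurentBaseChange Qbar (modularFunctionFieldFull N))
      (ζ - 1) ^ p * G0) = h0 ^ p)
    (hcusp : ∃ Y : PowerSeries Qbar,
      HahnSeries.ofPowerSeries ℤ Qbar Y = (G0 : LaurentSeries Qbar) ∧
        PowerSeries.constantCoeff Y ∈ P) :
    ∃ μ : Qbar, μ ≠ 0 ∧ (∀ t ∈ G1 P ζ, t μ = μ) ∧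
      Normalized (((μ ^ p • f0 : laurentBaseChange Qbar (modularFunctionFieldFull N))) :
        LaurentSeries Qbar) := by
  obtain ⟨Y, hY, hYP⟩ := hcusp
  obtain ⟨h1, h2⟩ := order_coeff_of_eq_ofPowerSeries hY
  exact Norm.exists_normalizing_root hp hP hζ hh0fix hG0fix hh0 heq h1 (h2 ▸ hYP)

end Fermat.Agent.S40x.AS.NormCusp
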