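import Fermat.Agent.S40x.AS.Leaf

/-!
# P-S44, leaf C3-AS (helper57): the hypothesis `hpole` for the chart coordinate `t = α t'`

`tA M q x hx = α (t')`, `t'` the function of level `M` with integral `q`-expansion `x`; the
degeneracy map `α` is the identity on `q`-expansions, so `t` has a pole at the Laurent cusp `q = 0`
as soon as `x.order < 0` (e.g. `x = x₄ = q⁻¹ + ⋯`).  `c3_as'` is `Leaf.c3_as` with `hpole`
discharged from `x.order < 0`.
-/

set_option autoImplicit false
set_option linter.unusedSectionVars false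
set_option linter.style.haveILetI false
set_option linter.unusedVariables false

noncomputable section

namespace Fermat.Agent.S40x.AS.Pole

open AlgebraicCurve ModularCurve Module IntermediateField IsLocalRing
open Fermat.Agent.Gateway.C0 Fermat.Agent.S34x Fermat.Agent.S34x.C0two Fermat.Agent.S34x.Lattice2
open Fermat.Agent.S19x.Geo.LatticeFixed (IsFixed IsFixedK)
open Fermat.Agent.S33x.H1.InstC1 Fermat.Agent.S33x.H1.InstC4
open Fermat.Agent.S33x.KummerPn
open Fermat.Agent.S33x.W.InstW (fixedAlg)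
open Fermat.Agent.S33x.H1.FixData2Inst
open Fermat.Agent.S40x.W.G1
open Fermat.Agent.Gateway.Hecke Fermat.Agent.Gateway.ESC
open Fermat.Agent.Gateway.Red Fermat.Agent.Gateway.GoodRed
open Fermat.Agent.Gateway.GoodRed.ConjFamily
open Fermat.Agent.S34x.TwoVal
open Fermat.Agent.S34x.Inst.L2 Fermat.Agent.S34x.Inst.IsL2Inst
open Fermat.Agent.S34x.Inst.RedSetupInst Fermat.Agent.S34x.Inst.ElementYRed
open Fermat.Agent.S34x.Inst.ElementYInt Fermat.Agent.S34x.Inst.Charts
open Fermat.Agent.S34x.Inst Fermat.Agent.S34x.Inst.TheoremBMq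
open Fermat.Agent.Gateway.Kummer (IsKummerRep)

local notation "Qbar" => AlgebraicClosure ℚ

/-- coefficientwise injective maps preserve the order of a Laurent series. -/
theorem order_coeffMap_of_injective {R S : Type*} [CommRing R] [CommRing S] (φ : R →+* S)
    (hφ : Function.Injective φ) (x : LaurentSeries R) : (coeffMap φ x).order = x.order := by
  have hne : ∀ y : LaurentSeries R, y ≠ 0 → coeffMap φ y ≠ 0 := by
    intro y hy h
    apply hy
    ext n
    have h1 := congrArg (fun z : LaurentSeries S => z.coeff n) h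
    simp only [coeffMap_coeff, HahnSeries.coeff_zero] at h1
    rw [HahnSeries.coeff_zero]
    exact hφ (by rw [h1, map_zero])
  by_cases hx : x = 0
  · subst hx
    simp
  apply le_antisymm
  · apply HahnSeries.order_le_of_coeff_ne_zero
    rw [coeffMap_coeff]
    intro h0
    have h1 : x.coeff x.order = 0 := hφ (by rw [h0, map_zero])
    exact hx (HahnSeries.coeff_order_eq_zero.mp h1)
  · apply HahnSeries.order_le_of_coeff_ne_zero
    have h := (HahnSeries.coeff_order_eq_zero (x := coeffMap φ x)).not.mpr (hne x hx)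
    rw [coeffMap_coeff] at h
    intro h0
    apply h
    rw [h0, map_zero]

variable {M q : ℕ} [NeZero M] [NeZero q]

/-- **`hpole`**: the chart coordinate `t = α t'` has a pole at the Laurent cusp if the integral
`q`-expansion `x` of `t'` has negative order. -/
theorem order_tA_neg (x : LaurentSeries ℤ) (hx : coeffMap (Int.castRingHom Qbar) x ∈ FBar Qbar M)
    (hxord : x.order < 0) :
    ((tA M q x hx : FL Qbar (M * q)) : LaurentSeries Qbar).order < 0 := by
  have h1 : ((tA M q x hx : FL Qbar (M * q)) : LaurentSeries Qbar) =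
      coeffMap (Int.castRingHom Qbar) x := by
    show ((heckeAlphaBar Qbar M q (tInt M x hx) : FL Qbar (M * q)) : LaurentSeries Qbar) = _
    rw [coe_heckeAlphaBar]
    rfl
  rw [h1, order_coeffMap_of_injective _ (RingHom.injective_int (Int.castRingHom Qbar))]
  exact hxord

section Concrete

attribute [-instance] IsScalarTower.of_algHom

variable {P : ValuationSubring Qbar} {k : Type} [Field k] {π : P →+* k} [IsAlgClosed k]
variable [Fact q.Prime] [CharP k q]
variable {hdeg : finrankAlong Qbar (heckeAlphaBar Qbar M q) = q + 1} {hq : q.Prime}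
  {hqM : ¬ q ∣ M}
variable {hrk : ∀ x ∈ maximalIdeal P, ∀ c : P, c ≠ 0 → ∃ j : ℕ, c ∣ x ^ j}
  {hπ : Function.Surjective π}
variable (H : ResidueFacts P π M q hdeg hq hqM hrk hπ) (hA : P.LiesOverPrime q)
  (x : LaurentSeries ℤ) (hx : coeffMap (Int.castRingHom Qbar) x ∈ FBar Qbar M)
  (Hx : GoodLevelFactsT P π M q hπ hqM (tInt M x hx))

include Hx hA in
/-- **C3-AS** with the pole hypothesis read off the integral `q`-expansion `x` of the chart
function (`x.order < 0`, e.g. `x = x₄ = q⁻¹ + ⋯`). -/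
theorem c3_as' [PerfectRing k q] (C : ChartCoord (redSetup2 H hA))
    (hCt : C.t = tA M q x hx) (hxk : tbar k x ≠ 0) (hY : YFacts M q x hx)
    (hxord : x.order < 0)
    {ζ : Qbar} (hζ : IsPrimitiveRoot ζ q) (hq3 : 3 ≤ q)
    {Dt : Divisor Qbar (FL Qbar (M * q))}
    (hDt : ∀ v : Place Qbar (FL Qbar (M * q)), Dt v = v.ord C.t)
    {ξ : Pic0 Qbar (FL Qbar (M * q))} (hξ : ξ ∈ Km H hA q)
    (hchar : ∀ σ ∈ P.inertiaSubgroupIn ℚ, ∃ a : ℕ, σ • ξ = a • ξ ∧ σ ζ = ζ ^ a) :
    ∃ f0 h G : FL Qbar (M * q),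
      IsFixed (G1Act P ζ (M * q)) f0 ∧ IsFixed (G1Act P ζ (M * q)) h ∧
      IsFixed (G1Act P ζ (M * q)) G ∧ h ≠ 0 ∧
      ((f0 : FL Qbar (M * q)) : LaurentSeries Qbar).leadingCoeff = 1 ∧
      IsKummerRep q ξ f0 ∧
      f0 = h ^ q * (1 + algebraMap Qbar (FL Qbar (M * q)) (ζ - 1) ^ q * G) ∧
      G ∈ BooAlg C ∧
      IsIntegral (fixedAlg (inertiaAct P (M * q)) (BxAlg C)) G := by
  refine Leaf.c3_as H hA x hx Hx C hCt hxk hY hζ hq3 hDt ?_ hξ hchar
  rw [hCt]
  exact order_tA_neg x hx hxord

end Concrete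

end Fermat.Agent.S40x.AS.Pole
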